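import Mathlib
import Fermat.Prelude.Def_GaloisRep_Adic

set_option autoImplicit false

namespace Fermat.Agent.S53.Schur

open scoped TensorProduct

section Burnside

variable {K V : Type*} [Field K] [AddCommGroup V] [Module K V]

/-- Schur for a subalgebra acting irreducibly over an algebraically closed field. -/
theorem schur_of_irreducible [IsAlgClosed K] [FiniteDimensional K V] [Nontrivial V]
    (𝒜 : Subalgebra K (Module.End K V))
    (hirr : ∀ W : Submodule K V, (∀ a ∈ 𝒜, ∀ x ∈ W, a x ∈ W) → W = ⊥ ∨ W = ⊤)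
    (f : Module.End K V) (hf : ∀ a ∈ 𝒜, f * a = a * f) : ∃ c : K, f = c • 1 := by
  obtain ⟨c, hc⟩ := Module.End.exists_eigenvalue f
  refine ⟨c, ?_⟩
  have hne : Module.End.eigenspace f c ≠ ⊥ := hc
  have hinv : ∀ a ∈ 𝒜, ∀ x ∈ Module.End.eigenspace f c, a x ∈ Module.End.eigenspace f c := by
    intro a ha x hx
    rw [Module.End.mem_eigenspace_iff] at hx ⊢
    have h1 : f (a x) = a (f x) := by
      have := congrArg (fun g : Module.End K V => g x) (hf a ha)
      simpa using this
    rw [h1, hx, map_smul]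
  rcases hirr _ hinv with h | h
  · exact absurd h hne
  · ext x
    have hx : x ∈ Module.End.eigenspace f c := h ▸ Submodule.mem_top
    rw [Module.End.mem_eigenspace_iff] at hx
    simpa using hx

theorem orbit_eq_top
    (𝒜 : Subalgebra K (Module.End K V))
    (hirr : ∀ W : Submodule K V, (∀ a ∈ 𝒜, ∀ x ∈ W, a x ∈ W) → W = ⊥ ∨ W = ⊤)
    (L : Submodule K (Module.End K V)) (hL : ∀ a ∈ 𝒜, ∀ b ∈ L, a * b ∈ L)
    (v : V) (hv : ∃ b ∈ L, b v ≠ 0) : ∀ u : V, ∃ b ∈ L, b v = u := by
  have hinv : ∀ a ∈ 𝒜, ∀ x ∈ L.map (LinearMap.applyₗ v), a x ∈ L.map (LinearMap.applyₗ v) := by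
    rintro a ha x ⟨b, hb, rfl⟩
    exact ⟨a * b, hL a ha b hb, rfl⟩
  rcases hirr _ hinv with h | h
  · obtain ⟨b, hb, hbv⟩ := hv
    have : b v ∈ L.map (LinearMap.applyₗ v) := ⟨b, hb, rfl⟩
    rw [h] at this
    exact absurd ((Submodule.mem_bot K).1 this) hbv
  · intro u
    have : u ∈ L.map (LinearMap.applyₗ v) := h ▸ Submodule.mem_top
    obtain ⟨b, hb, rfl⟩ := this
    exact ⟨b, hb, rfl⟩

theorem exists_separating [IsAlgClosed K] [FiniteDimensional K V] [Nontrivial V]
    (𝒜 : Subalgebra K (Module.End K V))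
    (hirr : ∀ W : Submodule K V, (∀ a ∈ 𝒜, ∀ x ∈ W, a x ∈ W) → W = ⊥ ∨ W = ⊤)
    (v w : V) (hv : v ≠ 0) (hw : ∀ c : K, w ≠ c • v) : ∃ a ∈ 𝒜, a v = 0 ∧ a w ≠ 0 := by
  by_contra hcon
  push Not at hcon
  -- evaluation maps
  let ev : V → (𝒜 →ₗ[K] V) := fun x => (LinearMap.applyₗ x).comp 𝒜.toSubmodule.subtype
  have hev : ∀ x (a : 𝒜), ev x a = (a : Module.End K V) x := fun x a => rfl
  have hsurj : Function.Surjective (ev v) := by
    intro u
    obtain ⟨b, hb, hbu⟩ := orbit_eq_top 𝒜 hirr 𝒜.toSubmodule
      (fun a ha b hb => 𝒜.mul_mem ha hb) v ⟨1, 𝒜.one_mem, by simpa using hv⟩ u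
    exact ⟨⟨b, hb⟩, hbu⟩
  have hker : LinearMap.ker (ev v) ≤ LinearMap.ker (ev w) := by
    intro a ha
    rw [LinearMap.mem_ker] at ha ⊢
    exact hcon a a.2 ha
  let φ : V →ₗ[K] V := ((LinearMap.ker (ev v)).liftQ (ev w) hker).comp
    ((ev v).quotKerEquivOfSurjective hsurj).symm.toLinearMap
  have hφ : ∀ a : 𝒜, φ ((a : Module.End K V) v) = (a : Module.End K V) w := by
    intro a
    show ((LinearMap.ker (ev v)).liftQ (ev w) hker)
      (((ev v).quotKerEquivOfSurjective hsurj).symm (ev v a)) = _
    rw [LinearMap.quotKerEquivOfSurjective_symm_apply, Submodule.liftQ_apply]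
    rfl
  have hcomm : ∀ b ∈ 𝒜, φ * b = b * φ := by
    intro b hb
    ext x
    obtain ⟨a, rfl⟩ := hsurj x
    have h1 := hφ (⟨b, hb⟩ * a)
    have h2 := hφ a
    show φ (b (ev v a)) = b (φ (ev v a))
    rw [hev, h2]
    simpa using h1
  obtain ⟨c, hc⟩ := schur_of_irreducible 𝒜 hirr φ hcomm
  have h1 := hφ 1
  simp only [OneMemClass.coe_one, Module.End.one_apply] at h1
  rw [hc] at h1
  exact hw c (by simpa using h1.symm)

theorem exists_mem_apply_eq [IsAlgClosed K] [FiniteDimensional K V] [Nontrivial V]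
    (𝒜 : Subalgebra K (Module.End K V))
    (hirr : ∀ W : Submodule K V, (∀ a ∈ 𝒜, ∀ x ∈ W, a x ∈ W) → W = ⊥ ∨ W = ⊤)
    (v w : V) (hv : v ≠ 0) (hw : ∀ c : K, w ≠ c • v) (u : V) :
    ∃ a ∈ 𝒜, a v = 0 ∧ a w = u := by
  obtain ⟨a0, ha0, ha0v, ha0w⟩ := exists_separating 𝒜 hirr v w hv hw
  let L : Submodule K (Module.End K V) := 𝒜.toSubmodule ⊓ LinearMap.ker (LinearMap.applyₗ v)
  have hL : ∀ a ∈ 𝒜, ∀ b ∈ L, a * b ∈ L := by
    rintro a ha b ⟨hb1, hb2⟩
    refine ⟨𝒜.mul_mem ha hb1, ?_⟩
    show a (b v) = 0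
    have : b v = 0 := hb2
    rw [this, map_zero]
  obtain ⟨b, ⟨hb1, hb2⟩, hbu⟩ := orbit_eq_top 𝒜 hirr L hL w
    ⟨a0, ⟨ha0, ha0v⟩, ha0w⟩ u
  exact ⟨b, hb1, hb2, hbu⟩

theorem burnside_two [IsAlgClosed K] (hV : Module.finrank K V = 2)
    (𝒜 : Subalgebra K (Module.End K V))
    (hirr : ∀ W : Submodule K V, (∀ a ∈ 𝒜, ∀ x ∈ W, a x ∈ W) → W = ⊥ ∨ W = ⊤) : 𝒜 = ⊤ := by
  have : FiniteDimensional K V := Module.finite_of_finrank_eq_succ hV
  have : Nontrivial V := Module.nontrivial_of_finrank_eq_succ hV
  let b : Module.Basis (Fin 2) K V := Module.finBasisOfFinrankEq K V hV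
  have h01 : ∀ c : K, b 1 ≠ c • b 0 := by
    intro c h
    have := congrArg (fun x => b.repr x 1) h
    simp at this
  have h10 : ∀ c : K, b 0 ≠ c • b 1 := by
    intro c h
    have := congrArg (fun x => b.repr x 0) h
    simp at this
  rw [eq_top_iff]
  rintro g -
  obtain ⟨a, ha, hav, haw⟩ := exists_mem_apply_eq 𝒜 hirr (b 0) (b 1) (b.ne_zero 0) h01 (g (b 1))
  obtain ⟨a', ha', haw', hav'⟩ := exists_mem_apply_eq 𝒜 hirr (b 1) (b 0) (b.ne_zero 1) h10 (g (b 0))
  have : g = a + a' := by
    apply b.ext
    intro i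
    fin_cases i
    · simp [hav, hav']
    · simp [haw, haw']
  rw [this]
  exact 𝒜.add_mem ha ha'

theorem span_range_eq_top_of_irreducible [IsAlgClosed K] (hV : Module.finrank K V = 2)
    {G : Type*} [Monoid G] (ρ : G →* Module.End K V)
    (hirr : ∀ W : Submodule K V, (∀ g, ∀ x ∈ W, ρ g x ∈ W) → W = ⊥ ∨ W = ⊤) :
    Submodule.span K (Set.range ρ) = ⊤ := by
  have h1 : Algebra.adjoin K (Set.range ρ) = ⊤ := by
    apply burnside_two hV
    intro W hW
    exact hirr W fun g x hx => hW (ρ g) (Algebra.subset_adjoin ⟨g, rfl⟩) x hx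
  have h2 := Algebra.adjoin_eq_span K (Set.range ρ)
  rw [h1] at h2
  have h3 : (Submonoid.closure (Set.range ρ) : Set (Module.End K V)) = Set.range ρ := by
    rw [← MonoidHom.coe_mrange, Submonoid.closure_eq]
  rw [h3] at h2
  rw [← h2]
  simp

end Burnside

section MatrixSpan

variable {n : Type*} [Fintype n] [DecidableEq n]

/-- Base change (up): a spanning family of matrices stays spanning after mapping along a
ring homomorphism. -/
theorem matrix_span_map_eq_top {R R' : Type*} [CommRing R] [CommRing R'] (φ : R →+* R')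
    {ι : Type*} (S : ι → Matrix n n R) (h : Submodule.span R (Set.range S) = ⊤) :
    Submodule.span R' (Set.range fun i => (S i).map φ) = ⊤ := by
  have key : ∀ X : Matrix n n R, X ∈ Submodule.span R (Set.range S) →
      X.map φ ∈ Submodule.span R' (Set.range fun i => (S i).map φ) := by
    intro X hX
    induction hX using Submodule.span_induction with
    | mem x hx =>
      obtain ⟨i, rfl⟩ := hx
      exact Submodule.subset_span ⟨i, rfl⟩
    | zero => simp
    | add x y _ _ hx hy =>
      have : (x + y).map φ = x.map φ + y.map φ := by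
        ext i j; simp
      rw [this]
      exact Submodule.add_mem _ hx hy
    | smul c x _ hx =>
      have : (c • x).map φ = φ c • x.map φ := by
        ext i j; simp
      rw [this]
      exact Submodule.smul_mem _ _ hx
  rw [eq_top_iff]
  rintro Y -
  rw [Matrix.matrix_eq_sum_single Y]
  refine Submodule.sum_mem _ fun i _ => Submodule.sum_mem _ fun j _ => ?_
  have h1 : Matrix.single i j (Y i j) = Y i j • (Matrix.single i j (1 : R)).map φ := by
    ext a b; simp [Matrix.single_apply]
  rw [h1]
  exact Submodule.smul_mem _ _ (key _ (h ▸ Submodule.mem_top))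

/-- Descent along a field extension: if the mapped family spans over `K`, the original spans. -/
theorem matrix_span_eq_top_of_map_field {k K : Type*} [Field k] [Field K] (φ : k →+* K)
    {ι : Type*} (S : ι → Matrix n n k)
    (h : Submodule.span K (Set.range fun i => (S i).map φ) = ⊤) :
    Submodule.span k (Set.range S) = ⊤ := by
  by_contra hne
  obtain ⟨μ, hμ, hle⟩ := Submodule.exists_le_ker_of_lt_top _ (lt_top_iff_ne_top.2 hne)
  -- the extended functional
  let μK : Matrix n n K →ₗ[K] K :=
    ∑ i, ∑ j, φ (μ (Matrix.single i j 1)) • (Matrix.entryLinearMap K K i j)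
  have hμK : ∀ X : Matrix n n k, μK (X.map φ) = φ (μ X) := by
    intro X
    conv_rhs => rw [Matrix.matrix_eq_sum_single X]
    simp only [μK, map_sum, LinearMap.sum_apply, LinearMap.smul_apply, Matrix.entryLinearMap_apply,
      Matrix.map_apply, smul_eq_mul]
    refine Finset.sum_congr rfl fun i _ => Finset.sum_congr rfl fun j _ => ?_
    have : Matrix.single i j (X i j) = X i j • Matrix.single i j (1 : k) := by
      ext a b; simp [Matrix.single_apply]
    rw [this, map_smul, smul_eq_mul, map_mul, mul_comm]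
  have hzero : μK = 0 := by
    have : Submodule.span K (Set.range fun i => (S i).map φ) ≤ LinearMap.ker μK := by
      rw [Submodule.span_le]
      rintro _ ⟨i, rfl⟩
      show μK ((S i).map φ) = 0
      rw [hμK]
      have : S i ∈ LinearMap.ker μ := hle (Submodule.subset_span ⟨i, rfl⟩)
      rw [LinearMap.mem_ker] at this
      rw [this, map_zero]
    rw [h, top_le_iff, LinearMap.ker_eq_top] at this
    exact this
  apply hμ
  have h2 : ∀ i j, μ (Matrix.single i j 1) = 0 := by
    intro i j
    have h1 := hμK (Matrix.single i j 1)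
    rw [hzero, LinearMap.zero_apply] at h1
    exact (map_eq_zero φ).1 h1.symm
  have h3 : ∀ X : Matrix n n k, μ X = 0 := by
    intro X
    rw [Matrix.matrix_eq_sum_single X]
    simp only [map_sum]
    apply Finset.sum_eq_zero
    intro i _
    apply Finset.sum_eq_zero
    intro j _
    have : Matrix.single i j (X i j) = X i j • Matrix.single i j (1 : k) := by
      ext a b; simp [Matrix.single_apply]
    rw [this, map_smul, h2, smul_zero]
  ext X
  rw [h3, LinearMap.zero_apply]

/-- Nakayama: a family of matrices over a local ring spans if its reduction spans. -/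
theorem matrix_span_eq_top_of_map_residue {A : Type*} [CommRing A] [IsLocalRing A]
    {ι : Type*} (S : ι → Matrix n n A)
    (h : Submodule.span (IsLocalRing.ResidueField A)
      (Set.range fun i => (S i).map (IsLocalRing.residue A)) = ⊤) :
    Submodule.span A (Set.range S) = ⊤ := by
  rw [eq_top_iff]
  refine Submodule.le_of_le_smul_of_le_jacobson_bot (I := IsLocalRing.maximalIdeal A)
    Module.Finite.fg_top
    (by rw [IsLocalRing.jacobson_eq_maximalIdeal]; exact bot_ne_top) ?_
  rintro X -
  have hX : X.map (IsLocalRing.residue A) ∈ Submodule.span (IsLocalRing.ResidueField A)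
      (Set.range fun i => (S i).map (IsLocalRing.residue A)) := h ▸ Submodule.mem_top
  rw [Finsupp.mem_span_range_iff_exists_finsupp] at hX
  obtain ⟨c, hc⟩ := hX
  obtain ⟨a, rfl⟩ := Finsupp.mapRange_surjective (IsLocalRing.residue A) (map_zero _)
    IsLocalRing.residue_surjective c
  set Y : Matrix n n A := a.sum fun i r => r • S i with hY
  have hYmem : Y ∈ Submodule.span A (Set.range S) := by
    rw [hY]
    exact Submodule.sum_mem _ fun i _ =>
      Submodule.smul_mem _ _ (Submodule.subset_span ⟨i, rfl⟩)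
  have hZ : ∀ i j, (X - Y) i j ∈ IsLocalRing.maximalIdeal A := by
    intro i j
    rw [← IsLocalRing.residue_eq_zero_iff]
    have h1 := congrFun (congrFun hc i) j
    rw [Finsupp.sum_mapRange_index (by intro i; simp)] at h1
    simp only [Finsupp.sum, Matrix.sum_apply, Matrix.smul_apply, Matrix.map_apply,
      smul_eq_mul] at h1
    simp only [Matrix.sub_apply, map_sub, hY, Finsupp.sum, Matrix.sum_apply, Matrix.smul_apply,
      smul_eq_mul, map_sum, map_mul]
    rw [h1, sub_self]
  have hXY : X = Y + (X - Y) := by abel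
  rw [hXY]
  refine Submodule.add_mem_sup hYmem ?_
  rw [Matrix.matrix_eq_sum_single (X - Y)]
  refine Submodule.sum_mem _ fun i _ => Submodule.sum_mem _ fun j _ => ?_
  have h1 : Matrix.single i j ((X - Y) i j) = (X - Y) i j • Matrix.single i j (1 : A) := by
    ext a b; simp [Matrix.single_apply]
  rw [h1]
  exact Submodule.smul_mem_smul (hZ i j) Submodule.mem_top

/-- A matrix commuting with a spanning family is scalar. -/
theorem matrix_scalar_of_commute_span {R : Type*} [CommRing R]
    {ι : Type*} (S : ι → Matrix n n R) (h : Submodule.span R (Set.range S) = ⊤)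
    (X : Matrix n n R) (hX : ∀ i, X * S i = S i * X) : ∃ r : R, X = Matrix.scalar n r := by
  have hall : ∀ Y : Matrix n n R, X * Y = Y * X := by
    intro Y
    have hY : Y ∈ Submodule.span R (Set.range S) := h ▸ Submodule.mem_top
    induction hY using Submodule.span_induction with
    | mem y hy => obtain ⟨i, rfl⟩ := hy; exact hX i
    | zero => simp
    | add x y _ _ hx hy => rw [mul_add, add_mul, hx, hy]
    | smul c x _ hx => rw [Matrix.mul_smul, Matrix.smul_mul, hx]
  obtain ⟨r, hr⟩ := Matrix.mem_range_scalar_of_commute_single (M := X)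
    (fun i j _ => (hall (Matrix.single i j 1)).symm)
  exact ⟨r, hr.symm⟩

theorem span_range_toMatrix_eq_top_iff {R V : Type*} [CommRing R] [AddCommGroup V] [Module R V]
    (b : Module.Basis n R V) {ι : Type*} (f : ι → Module.End R V) :
    Submodule.span R (Set.range fun i => LinearMap.toMatrix b b (f i)) = ⊤ ↔
      Submodule.span R (Set.range f) = ⊤ := by
  have : (Set.range fun i => LinearMap.toMatrix b b (f i)) =
      ((LinearMap.toMatrix b b : Module.End R V ≃ₗ[R] Matrix n n R) : Module.End R V →ₗ[R] Matrix n n R) ''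
        Set.range f := by
    rw [← Set.range_comp]; rfl
  rw [this, ← Submodule.map_span]
  exact Submodule.map_eq_top_iff

end MatrixSpan

section EndSpan

variable {ι : Type*}

theorem span_baseChange_eq_top {R R' V : Type*} [CommRing R] [CommRing R'] [Algebra R R']
    [AddCommGroup V] [Module R V] [Module.Free R V] [Module.Finite R V]
    (f : ι → Module.End R V) (h : Submodule.span R (Set.range f) = ⊤) :
    Submodule.span R' (Set.range fun i => (f i).baseChange R') = ⊤ := by
  classical
  let b := Module.Free.chooseBasis R V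
  have : Fintype (Module.Free.ChooseBasisIndex R V) := Fintype.ofFinite _
  rw [← span_range_toMatrix_eq_top_iff (Algebra.TensorProduct.basis R' b)]
  simp only [LinearMap.toMatrix_baseChange]
  exact matrix_span_map_eq_top (algebraMap R R') _
    ((span_range_toMatrix_eq_top_iff b f).2 h)

theorem span_eq_top_of_baseChange_field {k K V : Type*} [Field k] [Field K] [Algebra k K]
    [AddCommGroup V] [Module k V] [Module.Finite k V]
    (f : ι → Module.End k V)
    (h : Submodule.span K (Set.range fun i => (f i).baseChange K) = ⊤) :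
    Submodule.span k (Set.range f) = ⊤ := by
  classical
  let b := Module.Free.chooseBasis k V
  have : Fintype (Module.Free.ChooseBasisIndex k V) := Fintype.ofFinite _
  rw [← span_range_toMatrix_eq_top_iff (Algebra.TensorProduct.basis K b)] at h
  simp only [LinearMap.toMatrix_baseChange] at h
  exact (span_range_toMatrix_eq_top_iff b f).1
    (matrix_span_eq_top_of_map_field (algebraMap k K) _ h)

theorem span_eq_top_of_baseChange_residue {A V : Type*} [CommRing A] [IsLocalRing A]
    [AddCommGroup V] [Module A V] [Module.Free A V] [Module.Finite A V]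
    (f : ι → Module.End A V)
    (h : Submodule.span (IsLocalRing.ResidueField A)
      (Set.range fun i => (f i).baseChange (IsLocalRing.ResidueField A)) = ⊤) :
    Submodule.span A (Set.range f) = ⊤ := by
  classical
  let b := Module.Free.chooseBasis A V
  have : Fintype (Module.Free.ChooseBasisIndex A V) := Fintype.ofFinite _
  rw [← span_range_toMatrix_eq_top_iff
    (Algebra.TensorProduct.basis (IsLocalRing.ResidueField A) b)] at h
  simp only [LinearMap.toMatrix_baseChange, IsLocalRing.ResidueField.algebraMap_eq] at h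
  exact (span_range_toMatrix_eq_top_iff b f).1 (matrix_span_eq_top_of_map_residue _ h)

theorem exists_eq_smul_one_of_commute_span {R V : Type*} [CommRing R]
    [AddCommGroup V] [Module R V] [Module.Free R V] [Module.Finite R V]
    (f : ι → Module.End R V) (h : Submodule.span R (Set.range f) = ⊤)
    (g : Module.End R V) (hg : ∀ i, g * f i = f i * g) : ∃ r : R, g = r • 1 := by
  classical
  let b := Module.Free.chooseBasis R V
  have : Fintype (Module.Free.ChooseBasisIndex R V) := Fintype.ofFinite _
  obtain ⟨r, hr⟩ := matrix_scalar_of_commute_span _ ((span_range_toMatrix_eq_top_iff b f).2 h)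
    (LinearMap.toMatrix b b g) (fun i => by
      rw [← LinearMap.toMatrix_mul, ← LinearMap.toMatrix_mul, hg i])
  refine ⟨r, (LinearMap.toMatrix b b).injective ?_⟩
  rw [hr, map_smul, LinearMap.toMatrix_one]
  ext i j
  simp [Matrix.scalar_apply, Matrix.diagonal_apply, Matrix.one_apply]

end EndSpan

section Rep

/-- Burnside for absolutely irreducible residual representations: the image spans `End`. -/
theorem residual_span_eq_top {k : Type} [Field k] (ρ : ResidualGaloisRep k)
    (h : ρ.IsAbsolutelyIrreducible) : Submodule.span k (Set.range ρ.ρ) = ⊤ := by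
  have h1 : Submodule.span (AlgebraicClosure k)
      (Set.range (ρ.baseChange (AlgebraicClosure k)).ρ) = ⊤ :=
    span_range_eq_top_of_irreducible (ρ.baseChange (AlgebraicClosure k)).finrank_eq _ h
  exact span_eq_top_of_baseChange_field (K := AlgebraicClosure k) (fun σ => ρ.ρ σ) h1

/-- Spanning is invariant under equivalence of residual representations. -/
theorem residual_span_eq_top_of_equiv {k : Type} [Field k] {ρ₁ ρ₂ : ResidualGaloisRep k}
    (e : ResidualGaloisRep.Equiv ρ₁ ρ₂) (h : Submodule.span k (Set.range ρ₂.ρ) = ⊤) :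
    Submodule.span k (Set.range ρ₁.ρ) = ⊤ := by
  -- conjugation by `e` is a linear equivalence End V₁ ≃ End V₂ taking ρ₁ σ to ρ₂ σ
  let c : Module.End k ρ₁.V ≃ₗ[k] Module.End k ρ₂.V := e.toLinearEquiv.conj
  have hc : ∀ σ, c (ρ₁.ρ σ) = ρ₂.ρ σ := by
    intro σ
    ext x
    show e.toLinearEquiv (ρ₁.ρ σ (e.toLinearEquiv.symm x)) = _
    rw [e.map_apply, LinearEquiv.apply_symm_apply]
  have : Set.range ρ₂.ρ = (c : Module.End k ρ₁.V →ₗ[k] Module.End k ρ₂.V) '' Set.range ρ₁.ρ := by
    rw [← Set.range_comp]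
    congr 1
    ext σ : 1
    exact (hc σ).symm
  rw [this, ← Submodule.map_span] at h
  exact Submodule.map_eq_top_iff.1 h

/-- Spanning is preserved by base change of residual representations. -/
theorem residual_span_eq_top_baseChangeAlong {k k' : Type} [Field k] [Field k'] (φ : k →+* k')
    (ρ : ResidualGaloisRep k) (h : Submodule.span k (Set.range ρ.ρ) = ⊤) :
    Submodule.span k' (Set.range (ρ.baseChangeAlong φ).ρ) = ⊤ := by
  let : Algebra k k' := φ.toAlgebra
  exact span_baseChange_eq_top (R' := k') (fun σ => ρ.ρ σ) h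

/-- Nakayama: if the residual representation spans, so does the representation. -/
theorem adic_span_eq_top {A : Type} [CommRing A] [IsLocalRing A] (ρ : GaloisRepAdic A)
    (h : Submodule.span (IsLocalRing.ResidueField A) (Set.range ρ.residual.ρ) = ⊤) :
    Submodule.span A (Set.range ρ.ρ) = ⊤ :=
  span_eq_top_of_baseChange_residue (fun σ => ρ.ρ σ) h

/-- Spanning is preserved by base change of adic representations. -/
theorem adic_span_eq_top_baseChangeAlong {A B : Type} [CommRing A] [IsLocalRing A] [CommRing B]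
    [IsLocalRing B] (φ : A →+* B) (hφ : IsLocalHom φ) (ρ : GaloisRepAdic A)
    (h : Submodule.span A (Set.range ρ.ρ) = ⊤) :
    Submodule.span B (Set.range (ρ.baseChangeAlong φ hφ).ρ) = ⊤ := by
  let : Algebra A B := φ.toAlgebra
  exact span_baseChange_eq_top (R' := B) (fun σ => ρ.ρ σ) h

/-- Schur's lemma for adic representations whose image spans. -/
theorem adic_exists_eq_smul_one {A : Type} [CommRing A] [IsLocalRing A] (ρ : GaloisRepAdic A)
    (h : Submodule.span A (Set.range ρ.ρ) = ⊤) (g : Module.End A ρ.V)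
    (hg : ∀ σ, g * ρ.ρ σ = ρ.ρ σ * g) : ∃ a : A, g = a • 1 :=
  exists_eq_smul_one_of_commute_span (fun σ => ρ.ρ σ) h g hg

/-- A deformation of an absolutely irreducible residual representation has spanning image. -/
theorem deformation_span_eq_top {𝒪 : Type} [CommRing 𝒪] [IsLocalRing 𝒪]
    (ρbar : ResidualGaloisRep (IsLocalRing.ResidueField 𝒪)) (habs : ρbar.IsAbsolutelyIrreducible)
    {A : Type} [CommRing A] [IsLocalRing A] [Algebra 𝒪 A] [IsLocalHom (algebraMap 𝒪 A)]
    (ρ : GaloisRepAdic A)
    (hres : ρ.residual.IsEquiv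
      (ρbar.baseChangeAlong (IsLocalRing.ResidueField.map (algebraMap 𝒪 A)))) :
    Submodule.span A (Set.range ρ.ρ) = ⊤ := by
  obtain ⟨e⟩ := hres
  exact adic_span_eq_top ρ (residual_span_eq_top_of_equiv e
    (residual_span_eq_top_baseChangeAlong _ ρbar (residual_span_eq_top ρbar habs)))

/-- Schur's lemma for deformations of an absolutely irreducible residual representation. -/
theorem deformation_schur {𝒪 : Type} [CommRing 𝒪] [IsLocalRing 𝒪]
    (ρbar : ResidualGaloisRep (IsLocalRing.ResidueField 𝒪)) (habs : ρbar.IsAbsolutelyIrreducible)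
    {A : Type} [CommRing A] [IsLocalRing A] [Algebra 𝒪 A] [IsLocalHom (algebraMap 𝒪 A)]
    (ρ : GaloisRepAdic A)
    (hres : ρ.residual.IsEquiv
      (ρbar.baseChangeAlong (IsLocalRing.ResidueField.map (algebraMap 𝒪 A))))
    (g : Module.End A ρ.V) (hg : ∀ σ, g * ρ.ρ σ = ρ.ρ σ * g) : ∃ a : A, g = a • 1 :=
  adic_exists_eq_smul_one ρ (deformation_span_eq_top ρbar habs ρ hres) g hg

/-- scalars acting as the identity on a rank-two free module are `1`. -/
theorem eq_one_of_smul_eq {A : Type} [CommRing A] [IsLocalRing A] (ρ : GaloisRepAdic A) (a : A)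
    (h : ∀ x : ρ.V, a • x = x) : a = 1 := by
  let b : Module.Basis (Fin 2) A ρ.V := Module.finBasisOfFinrankEq A ρ.V ρ.finrank_eq
  have h1 := h (b 0)
  have h2 := congrArg (fun x => b.repr x 0) h1
  simpa using h2

/-- Two equivalences between adic representations with spanning image differ by a unit. -/
theorem adic_equiv_unique {A : Type} [CommRing A] [IsLocalRing A] {ρ₁ ρ₂ : GaloisRepAdic A}
    (h : Submodule.span A (Set.range ρ₁.ρ) = ⊤) (e e' : GaloisRepAdic.Equiv ρ₁ ρ₂) :
    ∃ u : Aˣ, ∀ x : ρ₁.V, e'.toLinearEquiv x = (u : A) • e.toLinearEquiv x := by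
  let g : Module.End A ρ₁.V := (e.toLinearEquiv.symm.toLinearMap).comp e'.toLinearEquiv.toLinearMap
  let g' : Module.End A ρ₁.V := (e'.toLinearEquiv.symm.toLinearMap).comp e.toLinearEquiv.toLinearMap
  have hg : ∀ σ, g * ρ₁.ρ σ = ρ₁.ρ σ * g := by
    intro σ
    ext x
    show e.toLinearEquiv.symm (e'.toLinearEquiv (ρ₁.ρ σ x)) =
      ρ₁.ρ σ (e.toLinearEquiv.symm (e'.toLinearEquiv x))
    apply e.toLinearEquiv.injective
    rw [LinearEquiv.apply_symm_apply, e'.map_apply, e.map_apply, LinearEquiv.apply_symm_apply]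
  have hg' : ∀ σ, g' * ρ₁.ρ σ = ρ₁.ρ σ * g' := by
    intro σ
    ext x
    show e'.toLinearEquiv.symm (e.toLinearEquiv (ρ₁.ρ σ x)) =
      ρ₁.ρ σ (e'.toLinearEquiv.symm (e.toLinearEquiv x))
    apply e'.toLinearEquiv.injective
    rw [LinearEquiv.apply_symm_apply, e.map_apply, e'.map_apply, LinearEquiv.apply_symm_apply]
  obtain ⟨a, ha⟩ := adic_exists_eq_smul_one ρ₁ h g hg
  obtain ⟨a', ha'⟩ := adic_exists_eq_smul_one ρ₁ h g' hg'
  have hgx : ∀ x, e'.toLinearEquiv x = a • e.toLinearEquiv x := by
    intro x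
    have := congrArg (fun f : Module.End A ρ₁.V => e.toLinearEquiv (f x)) ha
    simpa [g] using this
  have hgx' : ∀ x, e.toLinearEquiv x = a' • e'.toLinearEquiv x := by
    intro x
    have := congrArg (fun f : Module.End A ρ₁.V => e'.toLinearEquiv (f x)) ha'
    simpa [g'] using this
  have haa' : a * a' = 1 := by
    apply eq_one_of_smul_eq ρ₁
    intro x
    apply e'.toLinearEquiv.injective
    rw [map_smul, mul_smul, ← hgx', ← hgx]
  exact ⟨⟨a, a', haa', by rw [mul_comm]; exact haa'⟩, hgx⟩

end Rep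

end Fermat.Agent.S53.Schur
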