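import Mathlib

set_option autoImplicit false

namespace Fermat.Agent.S53.Count

open IsLocalRing

/-- `wordCount e t = ∑_{i<t} e^i`, defined recursively. -/
def wordCount (e : ℕ) : ℕ → ℕ
  | 0 => 0
  | t + 1 => 1 + e * wordCount e t

section

variable {A : Type*} [CommRing A] [IsLocalRing A]

theorem mul_mem_pow_succ {x a : A} {t : ℕ} (hx : x ∈ maximalIdeal A)
    (ha : a ∈ maximalIdeal A ^ t) : x * a ∈ maximalIdeal A ^ (t + 1) := by
  rw [pow_succ']
  exact Ideal.mul_mem_mul hx ha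

/-- Key recursive bound on the size of `A ⧸ m^t` when `m` is generated by `e` elements. -/
theorem card_quot_pow_succ_le [Finite (ResidueField A)] {e : ℕ} (x : Fin e → A)
    (hx : maximalIdeal A = Ideal.span (Set.range x)) (t : ℕ)
    [Finite (A ⧸ maximalIdeal A ^ t)] :
    Finite (A ⧸ maximalIdeal A ^ (t + 1)) ∧
      Nat.card (A ⧸ maximalIdeal A ^ (t + 1)) ≤
        Nat.card (ResidueField A) * Nat.card (A ⧸ maximalIdeal A ^ t) ^ e := by
  classical
  have hxm : ∀ j, x j ∈ maximalIdeal A := fun j => by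
    rw [hx]; exact Ideal.subset_span ⟨j, rfl⟩
  -- a section of the residue map
  have hs : ∀ c : ResidueField A, ∃ a : A, residue A a = c := fun c =>
    Ideal.Quotient.mk_surjective c
  choose s hs using hs
  let Φ : ResidueField A × (Fin e → A ⧸ maximalIdeal A ^ t) → A ⧸ maximalIdeal A ^ (t + 1) :=
    fun p => Ideal.Quotient.mk _ (s p.1 + ∑ j, x j * (Quotient.out (p.2 j)))
  have hΦ : Function.Surjective Φ := by
    intro b
    obtain ⟨a, rfl⟩ := Ideal.Quotient.mk_surjective b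
    have h1 : a - s (residue A a) ∈ maximalIdeal A := by
      rw [← residue_eq_zero_iff, map_sub, hs, sub_self]
    rw [hx, Ideal.mem_span_range_iff_exists_fun] at h1
    obtain ⟨c, hc⟩ := h1
    refine ⟨(residue A a, fun j => Ideal.Quotient.mk _ (c j)), ?_⟩
    simp only [Φ]
    rw [Ideal.Quotient.eq]
    have h2 : s (residue A a) + ∑ j, x j * Quotient.out (Ideal.Quotient.mk (maximalIdeal A ^ t) (c j)) - a
        = ∑ j, x j * (Quotient.out (Ideal.Quotient.mk (maximalIdeal A ^ t) (c j)) - c j) := by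
      have hc' : ∑ j, x j * c j = a - s (residue A a) := by
        rw [← hc]; exact Finset.sum_congr rfl fun j _ => mul_comm _ _
      simp only [mul_sub, Finset.sum_sub_distrib]
      linear_combination hc'
    rw [h2]
    refine Ideal.sum_mem _ fun j _ => mul_mem_pow_succ (hxm j) ?_
    rw [← Ideal.Quotient.eq]
    exact Quotient.out_eq _
  have : Finite (A ⧸ maximalIdeal A ^ (t + 1)) := Finite.of_surjective Φ hΦ
  refine ⟨inferInstance, ?_⟩
  calc Nat.card (A ⧸ maximalIdeal A ^ (t + 1))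
      ≤ Nat.card (ResidueField A × (Fin e → A ⧸ maximalIdeal A ^ t)) :=
        Nat.card_le_card_of_surjective Φ hΦ
    _ = Nat.card (ResidueField A) * Nat.card (A ⧸ maximalIdeal A ^ t) ^ e := by
        rw [Nat.card_prod, Nat.card_fun]; simp

theorem card_quot_pow_le [Finite (ResidueField A)] {e : ℕ} (x : Fin e → A)
    (hx : maximalIdeal A = Ideal.span (Set.range x)) (t : ℕ) :
    Finite (A ⧸ maximalIdeal A ^ t) ∧
      Nat.card (A ⧸ maximalIdeal A ^ t) ≤ Nat.card (ResidueField A) ^ wordCount e t := by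
  induction t with
  | zero =>
    have : Subsingleton (A ⧸ maximalIdeal A ^ 0) := by
      rw [pow_zero, Ideal.one_eq_top]
      exact Ideal.Quotient.subsingleton_iff.mpr rfl
    refine ⟨inferInstance, ?_⟩
    simp [wordCount]
  | succ t ih =>
    obtain ⟨hfin, hle⟩ := ih
    have := hfin
    obtain ⟨hfin', hle'⟩ := card_quot_pow_succ_le x hx t
    refine ⟨hfin', hle'.trans ?_⟩
    have hq : 0 < Nat.card (ResidueField A) := Nat.card_pos
    calc Nat.card (ResidueField A) * Nat.card (A ⧸ maximalIdeal A ^ t) ^ e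
        ≤ Nat.card (ResidueField A) * (Nat.card (ResidueField A) ^ wordCount e t) ^ e := by
          gcongr
      _ = Nat.card (ResidueField A) ^ wordCount e (t + 1) := by
          rw [wordCount, ← pow_mul, pow_add, pow_one, mul_comm (wordCount e t) e]

/-- Size bound: a local ring with finite residue field whose maximal ideal is generated by `e`
elements and satisfies `m ^ n = ⊥` has at most `|k| ^ wordCount e n` elements. -/
theorem card_le_of_pow_eq_bot [Finite (ResidueField A)] {e : ℕ} (x : Fin e → A)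
    (hx : maximalIdeal A = Ideal.span (Set.range x)) (n : ℕ) (hn : maximalIdeal A ^ n = ⊥) :
    Finite A ∧ Nat.card A ≤ Nat.card (ResidueField A) ^ wordCount e n := by
  obtain ⟨hfin, hle⟩ := card_quot_pow_le x hx n
  rw [hn] at hfin hle
  have e1 : (A ⧸ (⊥ : Ideal A)) ≃ A := (RingEquiv.quotientBot A).toEquiv
  have := hfin
  refine ⟨Finite.of_equiv _ e1, ?_⟩
  rw [← Nat.card_congr e1]
  exact hle

end


section Nakayama

variable {A : Type*} [CommRing A] [IsLocalRing A]

/-- Nilpotent Nakayama: if `m ≤ J ⊔ m^2` and `m^n = ⊥` then `m ≤ J`. -/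
theorem le_of_le_sup_sq (J : Ideal A) (h : maximalIdeal A ≤ J ⊔ maximalIdeal A ^ 2) (n : ℕ)
    (hn : maximalIdeal A ^ n = ⊥) : maximalIdeal A ≤ J := by
  have key : ∀ t : ℕ, maximalIdeal A ^ (t + 1) ≤ J ⊔ maximalIdeal A ^ (t + 2) := by
    intro t
    induction t with
    | zero => simpa using h
    | succ t ih =>
      calc maximalIdeal A ^ (t + 1 + 1) = maximalIdeal A * maximalIdeal A ^ (t + 1) := pow_succ' _ _
        _ ≤ maximalIdeal A * (J ⊔ maximalIdeal A ^ (t + 2)) := Ideal.mul_mono_right ih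
        _ = maximalIdeal A * J ⊔ maximalIdeal A * maximalIdeal A ^ (t + 2) := Ideal.mul_sup _ _ _
        _ ≤ J ⊔ maximalIdeal A ^ (t + 1 + 2) := by
          refine sup_le_sup Ideal.mul_le_right ?_
          rw [← pow_succ']
  have key2 : ∀ t : ℕ, maximalIdeal A ≤ J ⊔ maximalIdeal A ^ (t + 1) := by
    intro t
    induction t with
    | zero => simp
    | succ t ih =>
      calc maximalIdeal A ≤ J ⊔ maximalIdeal A ^ (t + 1) := ih
        _ ≤ J ⊔ (J ⊔ maximalIdeal A ^ (t + 2)) := sup_le_sup_left (key t) _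
        _ = J ⊔ maximalIdeal A ^ (t + 1 + 1) := by rw [← sup_assoc, sup_idem]
  have h3 := key2 n
  have h4 : maximalIdeal A ^ (n + 1) = ⊥ := by rw [pow_succ, hn, Ideal.bot_mul]
  rwa [h4, sup_bot_eq] at h3

end Nakayama


section Tangent

variable {𝒪 : Type*} [CommRing 𝒪] [IsLocalRing 𝒪]
variable {A : Type*} [CommRing A] [IsLocalRing A] [Algebra 𝒪 A] [IsLocalHom (algebraMap 𝒪 A)]

/-- The ideal `m_A^2 + ϖ A`. -/
def tanIdeal (A : Type*) [CommRing A] [IsLocalRing A] [Algebra 𝒪 A] (ϖ : 𝒪) : Ideal A :=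
  maximalIdeal A ^ 2 ⊔ Ideal.span {algebraMap 𝒪 A ϖ}

theorem tanIdeal_le (ϖ : 𝒪) (hϖ : ϖ ∈ maximalIdeal 𝒪) : tanIdeal A ϖ ≤ maximalIdeal A := by
  refine sup_le (Ideal.pow_le_self two_ne_zero) ?_
  rw [Ideal.span_le, Set.singleton_subset_iff]
  exact (mem_maximalIdeal _).mpr (fun h => ((mem_maximalIdeal _).mp hϖ)
    (isUnit_of_map_unit (algebraMap 𝒪 A) ϖ h))

theorem algebraMap_mem_tanIdeal (ϖ : 𝒪) (hϖ : maximalIdeal 𝒪 = Ideal.span {ϖ}) {o : 𝒪}
    (ho : o ∈ maximalIdeal 𝒪) : algebraMap 𝒪 A o ∈ tanIdeal A ϖ := by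
  rw [hϖ, Ideal.mem_span_singleton] at ho
  obtain ⟨c, rfl⟩ := ho
  rw [map_mul]
  exact Ideal.mem_sup_right (Ideal.mul_mem_right _ _ (Ideal.subset_span rfl))

/-- The `k`-algebra structure on `A ⧸ (m_A^2 + ϖ A)`. -/
noncomputable def tanAlgHom (ϖ : 𝒪) (hϖ : maximalIdeal 𝒪 = Ideal.span {ϖ}) :
    ResidueField 𝒪 →+* A ⧸ tanIdeal A ϖ :=
  Ideal.Quotient.lift (maximalIdeal 𝒪) ((Ideal.Quotient.mk (tanIdeal A ϖ)).comp (algebraMap 𝒪 A))
    (fun o ho => by
      rw [RingHom.comp_apply, Ideal.Quotient.eq_zero_iff_mem]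
      exact algebraMap_mem_tanIdeal ϖ hϖ ho)

theorem tanAlgHom_residue (ϖ : 𝒪) (hϖ : maximalIdeal 𝒪 = Ideal.span {ϖ}) (o : 𝒪) :
    tanAlgHom (A := A) ϖ hϖ (residue 𝒪 o) = Ideal.Quotient.mk _ (algebraMap 𝒪 A o) := by
  rfl


/-- The tangent space `m_A / (m_A^2 + ϖ A)` realised as an ideal of `A ⧸ (m_A^2 + ϖ A)`. -/
def TanSpace (A : Type*) [CommRing A] [IsLocalRing A] [Algebra 𝒪 A] (ϖ : 𝒪)
    (_hϖ : maximalIdeal 𝒪 = Ideal.span {ϖ}) : Type _ :=
  ↥((maximalIdeal A).map (Ideal.Quotient.mk (tanIdeal A ϖ)))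

instance (ϖ : 𝒪) (hϖ : maximalIdeal 𝒪 = Ideal.span {ϖ}) : AddCommGroup (TanSpace A ϖ hϖ) :=
  inferInstanceAs (AddCommGroup ↥((maximalIdeal A).map (Ideal.Quotient.mk (tanIdeal A ϖ))))

noncomputable instance (ϖ : 𝒪) (hϖ : maximalIdeal 𝒪 = Ideal.span {ϖ}) :
    Module (ResidueField 𝒪) (TanSpace A ϖ hϖ) :=
  Module.compHom ↥((maximalIdeal A).map (Ideal.Quotient.mk (tanIdeal A ϖ)))
    (tanAlgHom (A := A) ϖ hϖ)

/-- coercion to the quotient ring -/
def TanSpace.val {ϖ : 𝒪} {hϖ : maximalIdeal 𝒪 = Ideal.span {ϖ}} (v : TanSpace A ϖ hϖ) :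
    A ⧸ tanIdeal A ϖ := Subtype.val v

theorem TanSpace.ext {ϖ : 𝒪} {hϖ : maximalIdeal 𝒪 = Ideal.span {ϖ}} {v w : TanSpace A ϖ hϖ}
    (h : v.val = w.val) : v = w := Subtype.ext h

theorem TanSpace.val_add {ϖ : 𝒪} {hϖ : maximalIdeal 𝒪 = Ideal.span {ϖ}}
    (v w : TanSpace A ϖ hϖ) : (v + w).val = v.val + w.val := rfl

theorem TanSpace.val_zero {ϖ : 𝒪} {hϖ : maximalIdeal 𝒪 = Ideal.span {ϖ}} :
    (0 : TanSpace A ϖ hϖ).val = 0 := rfl

theorem TanSpace.val_smul {ϖ : 𝒪} {hϖ : maximalIdeal 𝒪 = Ideal.span {ϖ}}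
    (c : ResidueField 𝒪) (v : TanSpace A ϖ hϖ) : (c • v).val = tanAlgHom ϖ hϖ c * v.val := rfl


section Kappa

variable (hres : Function.Surjective (residue A ∘ algebraMap 𝒪 A))

/-- The residue class of `a : A` as an element of the residue field of `𝒪`. -/
noncomputable def kappa (a : A) : ResidueField 𝒪 :=
  residue 𝒪 (Function.surjInv hres (residue A a))

include hres in
theorem exists_sub_algebraMap_mem (a : A) :
    ∃ o : 𝒪, a - algebraMap 𝒪 A o ∈ maximalIdeal A := by
  obtain ⟨o, ho⟩ := hres (residue A a)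
  refine ⟨o, ?_⟩
  rw [← residue_eq_zero_iff, map_sub, ← ho]
  simp

theorem mem_of_algebraMap_mem {o : 𝒪} (h : algebraMap 𝒪 A o ∈ maximalIdeal A) :
    o ∈ maximalIdeal 𝒪 := by
  by_contra ho
  have hu : IsUnit o := by
    by_contra hnu
    exact ho ((mem_maximalIdeal _).mpr hnu)
  exact ((mem_maximalIdeal _).mp h) (hu.map (algebraMap 𝒪 A))

theorem kappa_spec (a : A) (o : 𝒪) (h : a - algebraMap 𝒪 A o ∈ maximalIdeal A) :
    kappa hres a = residue 𝒪 o := by
  unfold kappa
  set o' := Function.surjInv hres (residue A a) with ho'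
  have h1 : residue A (algebraMap 𝒪 A o') = residue A a := Function.surjInv_eq hres _
  have h2 : algebraMap 𝒪 A o' - a ∈ maximalIdeal A := by
    rw [← residue_eq_zero_iff, map_sub, h1, sub_self]
  have h3 : algebraMap 𝒪 A (o' - o) ∈ maximalIdeal A := by
    have := (maximalIdeal A).add_mem h2 h
    rw [map_sub]
    convert this using 1
    ring
  have h4 := mem_of_algebraMap_mem h3
  rw [← residue_eq_zero_iff, map_sub, sub_eq_zero] at h4
  exact h4

variable (ϖ : 𝒪) (hϖ : maximalIdeal 𝒪 = Ideal.span {ϖ})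

/-- The "tangent part" of `a : A` in `A ⧸ (m_A^2 + ϖ A)`. -/
noncomputable def vpartW (a : A) : A ⧸ tanIdeal A ϖ :=
  Ideal.Quotient.mk _ a - tanAlgHom ϖ hϖ (kappa hres a)

theorem vpartW_spec (a : A) (o : 𝒪) (h : a - algebraMap 𝒪 A o ∈ maximalIdeal A) :
    vpartW hres ϖ hϖ a = Ideal.Quotient.mk _ (a - algebraMap 𝒪 A o) := by
  unfold vpartW
  rw [kappa_spec hres a o h, tanAlgHom_residue, map_sub]

theorem vpartW_mem (a : A) :
    vpartW hres ϖ hϖ a ∈ (maximalIdeal A).map (Ideal.Quotient.mk (tanIdeal A ϖ)) := by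
  obtain ⟨o, ho⟩ := exists_sub_algebraMap_mem hres a
  rw [vpartW_spec hres ϖ hϖ a o ho]
  exact Ideal.mem_map_of_mem _ ho

/-- The tangent part as an element of the tangent space. -/
noncomputable def vpart (a : A) : TanSpace A ϖ hϖ := ⟨vpartW hres ϖ hϖ a, vpartW_mem hres ϖ hϖ a⟩

theorem vpart_val (a : A) : (vpart hres ϖ hϖ a).val = vpartW hres ϖ hϖ a := rfl

theorem kappa_algebraMap (o : 𝒪) : kappa hres (algebraMap 𝒪 A o) = residue 𝒪 o :=
  kappa_spec hres _ o (by simp)

theorem vpart_algebraMap (o : 𝒪) : vpart hres ϖ hϖ (algebraMap 𝒪 A o) = 0 := by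
  apply TanSpace.ext
  rw [vpart_val, vpartW_spec hres ϖ hϖ _ o (by simp), sub_self, map_zero, TanSpace.val_zero]

theorem kappa_add (a b : A) : kappa hres (a + b) = kappa hres a + kappa hres b := by
  obtain ⟨oa, ha⟩ := exists_sub_algebraMap_mem hres a
  obtain ⟨ob, hb⟩ := exists_sub_algebraMap_mem hres b
  have hab : a + b - algebraMap 𝒪 A (oa + ob) ∈ maximalIdeal A := by
    have := (maximalIdeal A).add_mem ha hb
    rw [map_add]; convert this using 1; ring
  rw [kappa_spec hres _ _ hab, kappa_spec hres _ _ ha, kappa_spec hres _ _ hb, map_add]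

theorem vpart_add (a b : A) :
    vpart hres ϖ hϖ (a + b) = vpart hres ϖ hϖ a + vpart hres ϖ hϖ b := by
  obtain ⟨oa, ha⟩ := exists_sub_algebraMap_mem hres a
  obtain ⟨ob, hb⟩ := exists_sub_algebraMap_mem hres b
  have hab : a + b - algebraMap 𝒪 A (oa + ob) ∈ maximalIdeal A := by
    have := (maximalIdeal A).add_mem ha hb
    rw [map_add]; convert this using 1; ring
  apply TanSpace.ext
  rw [TanSpace.val_add, vpart_val, vpart_val, vpart_val, vpartW_spec hres ϖ hϖ _ _ hab,
    vpartW_spec hres ϖ hϖ _ _ ha, vpartW_spec hres ϖ hϖ _ _ hb, ← map_add]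
  congr 1
  rw [map_add]; ring

theorem kappa_mul (a b : A) : kappa hres (a * b) = kappa hres a * kappa hres b := by
  obtain ⟨oa, ha⟩ := exists_sub_algebraMap_mem hres a
  obtain ⟨ob, hb⟩ := exists_sub_algebraMap_mem hres b
  have hab : a * b - algebraMap 𝒪 A (oa * ob) ∈ maximalIdeal A := by
    have h1 := (maximalIdeal A).mul_mem_right b ha
    have h2 := (maximalIdeal A).mul_mem_left (algebraMap 𝒪 A oa) hb
    have := (maximalIdeal A).add_mem h1 h2
    rw [map_mul]; convert this using 1; ring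
  rw [kappa_spec hres _ _ hab, kappa_spec hres _ _ ha, kappa_spec hres _ _ hb, map_mul]

theorem vpart_mul (a b : A) :
    vpart hres ϖ hϖ (a * b) =
      kappa hres a • vpart hres ϖ hϖ b + kappa hres b • vpart hres ϖ hϖ a := by
  obtain ⟨oa, ha⟩ := exists_sub_algebraMap_mem hres a
  obtain ⟨ob, hb⟩ := exists_sub_algebraMap_mem hres b
  have hab : a * b - algebraMap 𝒪 A (oa * ob) ∈ maximalIdeal A := by
    have h1 := (maximalIdeal A).mul_mem_right b ha
    have h2 := (maximalIdeal A).mul_mem_left (algebraMap 𝒪 A oa) hb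
    have := (maximalIdeal A).add_mem h1 h2
    rw [map_mul]; convert this using 1; ring
  apply TanSpace.ext
  rw [TanSpace.val_add, TanSpace.val_smul, TanSpace.val_smul, vpart_val, vpart_val, vpart_val,
    vpartW_spec hres ϖ hϖ _ _ hab, vpartW_spec hres ϖ hϖ _ _ ha, vpartW_spec hres ϖ hϖ _ _ hb,
    kappa_spec hres _ _ ha, kappa_spec hres _ _ hb, tanAlgHom_residue, tanAlgHom_residue,
    ← map_mul, ← map_mul, ← map_add, Ideal.Quotient.eq]
  have h3 : (a - algebraMap 𝒪 A oa) * (b - algebraMap 𝒪 A ob) ∈ tanIdeal A ϖ := by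
    refine Ideal.mem_sup_left ?_
    rw [pow_two]
    exact Ideal.mul_mem_mul ha hb
  convert h3 using 1
  rw [map_mul]; ring

theorem kappa_one : kappa hres (1 : A) = 1 := by
  have := kappa_algebraMap hres (1 : 𝒪)
  rwa [map_one, map_one] at this

theorem vpart_one : vpart hres ϖ hϖ (1 : A) = 0 := by
  have := vpart_algebraMap hres ϖ hϖ (1 : 𝒪)
  rwa [map_one] at this

theorem kappa_eq_zero_of_mem {a : A} (ha : a ∈ maximalIdeal A) : kappa hres a = 0 := by
  rw [kappa_spec hres a 0 (by simpa using ha), map_zero]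

theorem vpart_val_of_mem {a : A} (ha : a ∈ maximalIdeal A) :
    (vpart hres ϖ hϖ a).val = Ideal.Quotient.mk _ a := by
  rw [vpart_val, vpartW_spec hres ϖ hϖ a 0 (by simpa using ha), map_zero, sub_zero]

theorem vpart_surjective (v : TanSpace A ϖ hϖ) :
    ∃ a ∈ maximalIdeal A, vpart hres ϖ hϖ a = v := by
  obtain ⟨w, hw⟩ := v
  have : w ∈ (maximalIdeal A).map (Ideal.Quotient.mk (tanIdeal A ϖ)) := hw
  rw [Ideal.mem_map_iff_of_surjective _ Ideal.Quotient.mk_surjective] at this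
  obtain ⟨a, ha, rfl⟩ := this
  refine ⟨a, ha, ?_⟩
  apply TanSpace.ext
  rw [vpart_val_of_mem hres ϖ hϖ ha]
  rfl


variable [instD : Algebra 𝒪 (DualNumber (ResidueField 𝒪))]
  (halg : ∀ o : 𝒪, algebraMap 𝒪 (DualNumber (ResidueField 𝒪)) o = TrivSqZeroExt.inl (residue 𝒪 o))

/-- The algebra hom `A → k[ε]` attached to a linear functional on the tangent space. -/
noncomputable def homOfFunctional (l : TanSpace A ϖ hϖ →ₗ[ResidueField 𝒪] ResidueField 𝒪) :
    A →ₐ[𝒪] DualNumber (ResidueField 𝒪) where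
  toFun a := TrivSqZeroExt.inl (kappa hres a) + TrivSqZeroExt.inr (l (vpart hres ϖ hϖ a))
  map_one' := by
    rw [kappa_one, vpart_one, map_zero]
    apply TrivSqZeroExt.ext <;> simp
  map_mul' a b := by
    rw [kappa_mul, vpart_mul, map_add, map_smul, map_smul]
    apply TrivSqZeroExt.ext <;> simp [mul_comm]
  map_zero' := by
    have h0 : kappa hres (0 : A) = 0 := kappa_eq_zero_of_mem hres (Ideal.zero_mem _)
    have h1 : vpart hres ϖ hϖ (0 : A) = 0 := by
      have := vpart_algebraMap hres ϖ hϖ (0 : 𝒪)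
      rwa [map_zero] at this
    rw [h0, h1, map_zero]
    apply TrivSqZeroExt.ext <;> simp
  map_add' a b := by
    rw [kappa_add, vpart_add, map_add]
    apply TrivSqZeroExt.ext <;> simp
  commutes' o := by
    rw [halg]
    show TrivSqZeroExt.inl (kappa hres (algebraMap 𝒪 A o)) +
      TrivSqZeroExt.inr (l (vpart hres ϖ hϖ (algebraMap 𝒪 A o))) = _
    rw [kappa_algebraMap, vpart_algebraMap, map_zero]
    apply TrivSqZeroExt.ext <;> simp

theorem homOfFunctional_snd (l : TanSpace A ϖ hϖ →ₗ[ResidueField 𝒪] ResidueField 𝒪) (a : A) :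
    (homOfFunctional hres ϖ hϖ halg l a).snd = l (vpart hres ϖ hϖ a) := by
  show (TrivSqZeroExt.inl (kappa hres a) + TrivSqZeroExt.inr (l (vpart hres ϖ hϖ a))).snd = _
  simp

theorem homOfFunctional_injective :
    Function.Injective (homOfFunctional (A := A) hres ϖ hϖ halg) := by
  intro l l' h
  ext v
  obtain ⟨a, _, rfl⟩ := vpart_surjective hres ϖ hϖ v
  rw [← homOfFunctional_snd hres ϖ hϖ halg, ← homOfFunctional_snd hres ϖ hϖ halg, h]


omit instD in
theorem vpart_zero : vpart hres ϖ hϖ (0 : A) = 0 := by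
  have := vpart_algebraMap hres ϖ hϖ (0 : 𝒪)
  rwa [map_zero] at this

/-- `vpart` as an additive monoid hom. -/
noncomputable def vpartHom : A →+ TanSpace A ϖ hϖ where
  toFun := vpart hres ϖ hϖ
  map_zero' := vpart_zero hres ϖ hϖ
  map_add' := vpart_add hres ϖ hϖ

omit instD in
theorem vpart_algebraMap_mul (o : 𝒪) (a : A) :
    vpart hres ϖ hϖ (algebraMap 𝒪 A o * a) = residue 𝒪 o • vpart hres ϖ hϖ a := by
  rw [vpart_mul, vpart_algebraMap, smul_zero, add_zero, kappa_algebraMap]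

omit instD in
theorem mem_tanIdeal_of_vpart_eq_zero {a : A} (ha : a ∈ maximalIdeal A)
    (h : vpart hres ϖ hϖ a = 0) : a ∈ tanIdeal A ϖ := by
  have h1 := vpart_val_of_mem hres ϖ hϖ ha
  rw [h, TanSpace.val_zero] at h1
  exact Ideal.Quotient.eq_zero_iff_mem.mp h1.symm

include hres halg in
theorem rank_tanSpace_le (T : ℕ)
    (hT : ∀ s : Finset (A →ₐ[𝒪] DualNumber (ResidueField 𝒪)), s.card ≤ T) :
    Module.rank (ResidueField 𝒪) (TanSpace A ϖ hϖ) ≤ T := by
  classical
  apply rank_le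
  intro s hs
  have hs' : LinearIndepOn (ResidueField 𝒪) id (s : Set (TanSpace A ϖ hϖ)) := hs
  let b := Module.Basis.extend hs'
  have hsub : (s : Set (TanSpace A ϖ hϖ)) ⊆ hs'.extend (Set.subset_univ _) :=
    Module.Basis.subset_extend hs'
  let f : {x // x ∈ s} → (A →ₐ[𝒪] DualNumber (ResidueField 𝒪)) := fun i =>
    homOfFunctional hres ϖ hϖ halg (b.coord ⟨i.1, hsub i.2⟩)
  have hcoord : ∀ i j : {x // x ∈ s}, b.coord ⟨i.1, hsub i.2⟩ j.1 = if j = i then 1 else 0 := by
    intro i j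
    have hbj : b ⟨j.1, hsub j.2⟩ = j.1 := Module.Basis.extend_apply_self hs' _
    rw [Module.Basis.coord_apply]
    conv_lhs => rw [← hbj]
    rw [Module.Basis.repr_self, Finsupp.single_apply]
    by_cases hji : j = i
    · subst hji; simp
    · have : (⟨j.1, hsub j.2⟩ : hs'.extend (Set.subset_univ _)) ≠ ⟨i.1, hsub i.2⟩ := by
        intro h
        apply hji
        have h' := congrArg Subtype.val h
        exact Subtype.ext h'
      simp [this, hji]
  have hf : Function.Injective f := by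
    intro i j hij
    have h1 := homOfFunctional_injective hres ϖ hϖ halg hij
    have h2 := hcoord i i
    rw [h1, hcoord j i] at h2
    by_contra hne
    rw [if_neg hne, if_pos rfl] at h2
    exact zero_ne_one h2
  have h3 := hT (Finset.univ.image f)
  rw [Finset.card_image_of_injective _ hf, Finset.card_univ, Fintype.card_coe] at h3
  exact h3

include hres halg hϖ in
theorem exists_generators (n : ℕ) (hn : maximalIdeal A ^ n = ⊥) (T : ℕ)
    (hT : ∀ s : Finset (A →ₐ[𝒪] DualNumber (ResidueField 𝒪)), s.card ≤ T) :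
    ∃ d ≤ T, ∃ x : Fin d → A,
      maximalIdeal A = Ideal.span (insert (algebraMap 𝒪 A ϖ) (Set.range x)) := by
  classical
  have hrank := rank_tanSpace_le hres ϖ hϖ halg T hT
  have hfin : Module.Finite (ResidueField 𝒪) (TanSpace A ϖ hϖ) :=
    Module.rank_lt_aleph0_iff.mp (lt_of_le_of_lt hrank (Cardinal.nat_lt_aleph0 T))
  have hd : Module.finrank (ResidueField 𝒪) (TanSpace A ϖ hϖ) ≤ T :=
    Module.finrank_le_of_rank_le hrank
  let b := Module.finBasis (ResidueField 𝒪) (TanSpace A ϖ hϖ)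
  have hx : ∀ i, ∃ a ∈ maximalIdeal A, vpart hres ϖ hϖ a = b i :=
    fun i => vpart_surjective hres ϖ hϖ (b i)
  choose x hxm hxb using hx
  have hϖm : ϖ ∈ maximalIdeal 𝒪 := by rw [hϖ]; exact Ideal.subset_span rfl
  refine ⟨_, hd, x, le_antisymm ?_ ?_⟩
  · apply le_of_le_sup_sq _ _ n hn
    intro a ha
    -- coefficients
    have hc : ∀ i, ∃ o : 𝒪, residue 𝒪 o = b.repr (vpart hres ϖ hϖ a) i :=
      fun i => Ideal.Quotient.mk_surjective _
    choose o ho using hc
    set a' : A := ∑ i, algebraMap 𝒪 A (o i) * x i with ha'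
    have ha'J : a' ∈ Ideal.span (insert (algebraMap 𝒪 A ϖ) (Set.range x)) := by
      refine Ideal.sum_mem _ fun i _ => Ideal.mul_mem_left _ _ ?_
      exact Ideal.subset_span (Set.mem_insert_of_mem _ ⟨i, rfl⟩)
    have ha'm : a' ∈ maximalIdeal A :=
      Ideal.sum_mem _ fun i _ => Ideal.mul_mem_left _ _ (hxm i)
    have hv : vpart hres ϖ hϖ (a - a') = 0 := by
      have h1 : vpart hres ϖ hϖ a' = vpart hres ϖ hϖ a := by
        have : vpart hres ϖ hϖ a' = ∑ i, vpart hres ϖ hϖ (algebraMap 𝒪 A (o i) * x i) :=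
          map_sum (vpartHom hres ϖ hϖ) _ _
        rw [this]
        simp only [vpart_algebraMap_mul, hxb, ho]
        exact b.sum_repr _
      have h2 : vpart hres ϖ hϖ a = vpart hres ϖ hϖ (a - a') + vpart hres ϖ hϖ a' := by
        rw [← vpart_add]; congr 1; ring
      rw [h1] at h2
      exact (add_eq_right.mp h2.symm)
    have hmem := mem_tanIdeal_of_vpart_eq_zero hres ϖ hϖ ((maximalIdeal A).sub_mem ha ha'm) hv
    have h3 : a = a' + (a - a') := by ring
    rw [h3]
    refine Ideal.add_mem _ (Ideal.mem_sup_left ha'J) ?_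
    unfold tanIdeal at hmem
    rw [Submodule.mem_sup] at hmem
    obtain ⟨y, hy, z, hz, hyz⟩ := hmem
    rw [← hyz]
    refine Ideal.add_mem _ (Ideal.mem_sup_right hy) (Ideal.mem_sup_left ?_)
    exact Ideal.span_mono (by simp) hz
  · rw [Ideal.span_le]
    intro y hy
    rcases hy with rfl | ⟨i, rfl⟩
    · exact tanIdeal_le ϖ hϖm (Ideal.mem_sup_right (Ideal.subset_span rfl))
    · exact hxm i


omit instD in
include hres in
theorem residueField_map_bijective :
    Function.Bijective (ResidueField.map (algebraMap 𝒪 A)) := by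
  refine ⟨(ResidueField.map (algebraMap 𝒪 A)).injective, fun c => ?_⟩
  obtain ⟨o, ho⟩ := hres c
  exact ⟨residue 𝒪 o, by rw [ResidueField.map_residue]; exact ho⟩

end Kappa

end Tangent

theorem wordCount_mono {e e' : ℕ} (h : e ≤ e') (n : ℕ) : wordCount e n ≤ wordCount e' n := by
  induction n with
  | zero => simp [wordCount]
  | succ n ih =>
    simp only [wordCount]
    exact Nat.add_le_add_left (Nat.mul_le_mul h ih) 1

/-- Main counting statement: a local `𝒪`-algebra `A` with residue field `k = 𝒪/ϖ` finite,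
`m_A ^ n = ⊥`, and at most `T` algebra homs into `k[ε]` has at most `|k| ^ wordCount (T+1) n`
elements. -/
theorem card_le_of_algHom_bound {𝒪 : Type*} [CommRing 𝒪] [IsLocalRing 𝒪]
    {A : Type*} [CommRing A] [IsLocalRing A] [Algebra 𝒪 A] [IsLocalHom (algebraMap 𝒪 A)]
    [Finite (ResidueField 𝒪)]
    (hres : Function.Surjective (residue A ∘ algebraMap 𝒪 A))
    (ϖ : 𝒪) (hϖ : maximalIdeal 𝒪 = Ideal.span {ϖ})
    [Algebra 𝒪 (DualNumber (ResidueField 𝒪))]
    (halg : ∀ o : 𝒪, algebraMap 𝒪 (DualNumber (ResidueField 𝒪)) o =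
      TrivSqZeroExt.inl (residue 𝒪 o))
    (n : ℕ) (hn : maximalIdeal A ^ n = ⊥) (T : ℕ)
    (hT : ∀ s : Finset (A →ₐ[𝒪] DualNumber (ResidueField 𝒪)), s.card ≤ T) :
    Finite A ∧ Nat.card A ≤ Nat.card (ResidueField 𝒪) ^ wordCount (T + 1) n := by
  obtain ⟨d, hd, x, hx⟩ := exists_generators hres ϖ hϖ halg n hn T hT
  let e := Equiv.ofBijective _ (residueField_map_bijective (𝒪 := 𝒪) (A := A) hres)
  have hfinA : Finite (ResidueField A) := Finite.of_equiv _ e
  have hx' : maximalIdeal A = Ideal.span (Set.range (Fin.cons (algebraMap 𝒪 A ϖ) x : Fin (d + 1) → A)) := by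
    rw [hx]
    congr 1
    ext y
    constructor
    · rintro (rfl | ⟨i, rfl⟩)
      · exact ⟨0, by simp⟩
      · exact ⟨i.succ, by simp⟩
    · rintro ⟨i, rfl⟩
      refine Fin.cases ?_ (fun j => ?_) i
      · left; simp
      · right; exact ⟨j, by simp⟩
  obtain ⟨hfin, hle⟩ := card_le_of_pow_eq_bot _ hx' n hn
  refine ⟨hfin, hle.trans ?_⟩
  rw [← Nat.card_congr e]
  have hq : 0 < Nat.card (ResidueField 𝒪) := Nat.card_pos
  exact Nat.pow_le_pow_right hq (wordCount_mono (by omega) n)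

end Fermat.Agent.S53.Count
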