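import Fermat.Agent.S53.Defs

/-! P-X: the axioms of a deformation condition in matrix form (`Dm`). -/

open IsLocalRing GaloisRep

set_option linter.unusedSectionVars false
set_option linter.style.haveILetI false

noncomputable section

namespace Fermat.Agent.S53

section LocalHom

/-- An `𝒪`-algebra homomorphism between local `𝒪`-algebras, the target having residue field `k`
(via `𝒪`), is a local homomorphism. -/
theorem isLocalHom_of_algHom {𝒪 R A : Type} [CommRing 𝒪] [IsLocalRing 𝒪] [CommRing R]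
    [IsLocalRing R] [Algebra 𝒪 R] [CommRing A] [IsLocalRing A] [Algebra 𝒪 A]
    (hloc : IsLocalHom (algebraMap 𝒪 A))
    (hA : Function.Surjective (IsLocalRing.residue A ∘ algebraMap 𝒪 A)) (φ : R →ₐ[𝒪] A) :
    IsLocalHom (φ : R →+* A) := by
  constructor
  intro x hx
  by_contra hxu
  have hxm : x ∈ maximalIdeal R := (mem_maximalIdeal x).mpr hxu
  obtain ⟨o, ho⟩ := hA (IsLocalRing.residue A (φ x))
  have ho' : φ x - algebraMap 𝒪 A o ∈ maximalIdeal A := by
    rw [← Ideal.Quotient.eq_zero_iff_mem, map_sub, sub_eq_zero]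
    exact ho.symm
  have hou : IsUnit (algebraMap 𝒪 A o) := by
    by_contra hn
    have h1 : algebraMap 𝒪 A o ∈ maximalIdeal A := (mem_maximalIdeal _).mpr hn
    have h2 : φ x ∈ maximalIdeal A := by
      have := Ideal.add_mem _ ho' h1
      simpa using this
    exact ((mem_maximalIdeal _).mp h2) hx
  have hou' : IsUnit o := isUnit_of_map_unit (algebraMap 𝒪 A) o hou
  have h3 : IsUnit (x - algebraMap 𝒪 R o) := by
    by_contra hn
    have h4 : x - algebraMap 𝒪 R o ∈ maximalIdeal R := (mem_maximalIdeal _).mpr hn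
    have h5 : algebraMap 𝒪 R o ∈ maximalIdeal R := by
      have := Ideal.sub_mem _ hxm h4
      simpa using this
    exact ((mem_maximalIdeal _).mp h5) (hou'.map (algebraMap 𝒪 R))
  have h6 : IsUnit (φ x - algebraMap 𝒪 A o) := by
    have := h3.map (φ : R →+* A)
    simpa using this
  exact ((mem_maximalIdeal _).mp ho') h6

/-- `𝒪`-algebra homomorphisms into an artinian test algebra are local. -/
theorem isLocalHom_of_testAlgebra {𝒪 R A : Type} [CommRing 𝒪] [IsLocalRing 𝒪]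
    [CommRing R] [IsLocalRing R] [Algebra 𝒪 R] [CommRing A] [IsLocalRing A] [Algebra 𝒪 A]
    (hA : IsArtinianTestAlgebra 𝒪 A) (φ : R →ₐ[𝒪] A) : IsLocalHom (φ : R →+* A) :=
  isLocalHom_of_algHom hA.isLocalHom hA.residue_surjective φ

end LocalHom

variable {𝒪 : Type} [CommRing 𝒪] [IsLocalRing 𝒪]
  {𝒟 : ∀ ⦃A : Type⦄ [CommRing A] [IsLocalRing A] [Algebra 𝒪 A], GaloisRepAdic A → Prop}

section Basic

variable {A : Type} [CommRing A] [IsLocalRing A] [Algebra 𝒪 A]

lemma Dm.isAdicCts {r : GQ →* M2 A} (h : Dm 𝒟 r) : IsAdicCts r := h.1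

lemma Dm.holds {r : GQ →* M2 A} (h : Dm 𝒟 r) (hr : IsAdicCts r) : 𝒟 (ofMat r hr) := h.2

/-- The maximal ideal of an artinian local ring is nilpotent. -/
lemma exists_pow_maximalIdeal_eq_bot (hA : IsArtinianTestAlgebra 𝒪 A) :
    ∃ n : ℕ, maximalIdeal A ^ n = ⊥ := by
  have := hA.isArtinian
  obtain ⟨n, hn⟩ := (isArtinianRing_iff_isNilpotent_maximalIdeal A).mp this
  exact ⟨n, hn⟩

end Basic

section Axioms

variable {A B : Type} [CommRing A] [IsLocalRing A] [Algebra 𝒪 A]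
  [CommRing B] [IsLocalRing B] [Algebra 𝒪 B]

/-- (X5) invariance under equivalence, artinian case. -/
theorem Dm_of_isEquiv (h𝒟 : IsDeformationCondition 𝒪 𝒟) (hA : IsArtinianTestAlgebra 𝒪 A)
    {r r' : GQ →* M2 A} (hr : IsAdicCts r) (hr' : IsAdicCts r')
    (he : (ofMat r hr).IsEquiv (ofMat r' hr')) (h : Dm 𝒟 r) : Dm 𝒟 r' :=
  ⟨hr', h𝒟.of_isEquiv hA he (h.holds hr)⟩

/-- (X5) invariance under conjugation, artinian case. -/
theorem Dm_conjMat (h𝒟 : IsDeformationCondition 𝒪 𝒟) (hA : IsArtinianTestAlgebra 𝒪 A)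
    {r : GQ →* M2 A} (M : M2 A) (hM : IsUnit M.det) (h : Dm 𝒟 r) : Dm 𝒟 (conjMat M hM r) :=
  Dm_of_isEquiv h𝒟 hA h.isAdicCts (h.isAdicCts.conj M hM)
    (ofMat_conjMat_isEquiv h.isAdicCts M hM) h

/-- (X1) functoriality. -/
theorem Dm_map (h𝒟 : IsDeformationCondition 𝒪 𝒟) (hA : IsArtinianTestAlgebra 𝒪 A)
    (hB : IsArtinianTestAlgebra 𝒪 B) (φ : A →ₐ[𝒪] B) {r : GQ →* M2 A} (h : Dm 𝒟 r) :
    Dm 𝒟 (mapMat (φ : A →+* B) r) := by
  have hφ : IsLocalHom (φ : A →+* B) := isLocalHom_of_testAlgebra hB φ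
  obtain ⟨hr, hD⟩ := h
  exact ⟨hr.map _ hφ, h𝒟.of_isEquiv hB (ofMat_baseChangeAlong_isEquiv _ hφ r hr)
    (h𝒟.baseChangeAlong hA hB φ hφ hD)⟩

/-- (X2) descent along injective maps. -/
theorem Dm_of_injective (h𝒟 : IsDeformationCondition 𝒪 𝒟) (hA : IsArtinianTestAlgebra 𝒪 A)
    (hB : IsArtinianTestAlgebra 𝒪 B) (φ : A →ₐ[𝒪] B) (hinj : Function.Injective φ)
    {r : GQ →* M2 A} (h : Dm 𝒟 (mapMat (φ : A →+* B) r)) : Dm 𝒟 r := by
  have hφ : IsLocalHom (φ : A →+* B) := isLocalHom_of_testAlgebra hB φ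
  obtain ⟨hr', hD⟩ := h
  obtain ⟨n, hn⟩ := exists_pow_maximalIdeal_eq_bot hB
  have hfl : GaloisFactorsThroughFiniteLevel r :=
    finLevel_of_mapMat_injective (φ := (φ : A →+* B)) hinj (hr'.finLevel_of_pow_eq_bot hn)
  have hr : IsAdicCts r := isAdicCts_of_finLevel hfl
  refine ⟨hr, h𝒟.of_baseChangeAlong_injective hA hB φ hφ hinj ?_⟩
  exact h𝒟.of_isEquiv hB (isEquiv_symm (ofMat_baseChangeAlong_isEquiv _ hφ r hr))
    (by convert hD)

end Axioms

section FibreProduct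

variable {A B C P : Type} [CommRing A] [IsLocalRing A] [Algebra 𝒪 A]
  [CommRing B] [IsLocalRing B] [Algebra 𝒪 B] [CommRing C] [IsLocalRing C] [Algebra 𝒪 C]
  [CommRing P] [IsLocalRing P] [Algebra 𝒪 P]

/-- (X3) fibre products, in the shape of `IsDeformationCondition.of_fibreProduct`. -/
theorem Dm_of_fibreProduct (h𝒟 : IsDeformationCondition 𝒪 𝒟) (hA : IsArtinianTestAlgebra 𝒪 A)
    (hB : IsArtinianTestAlgebra 𝒪 B) (hC : IsArtinianTestAlgebra 𝒪 C)
    (hP : IsArtinianTestAlgebra 𝒪 P) (f : A →ₐ[𝒪] C) (g : B →ₐ[𝒪] C) (pA : P →ₐ[𝒪] A)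
    (pB : P →ₐ[𝒪] B) (hcomm : f.comp pA = g.comp pB)
    (hinj : Function.Injective (fun x => (pA x, pB x)))
    (hfib : ∀ a b, f a = g b → ∃ x, pA x = a ∧ pB x = b) {r : GQ →* M2 P}
    (hrA : Dm 𝒟 (mapMat (pA : P →+* A) r)) (hrB : Dm 𝒟 (mapMat (pB : P →+* B) r)) :
    Dm 𝒟 r := by
  have hpA : IsLocalHom (pA : P →+* A) := isLocalHom_of_testAlgebra hA pA
  have hpB : IsLocalHom (pB : P →+* B) := isLocalHom_of_testAlgebra hB pB
  obtain ⟨hrA', hDA⟩ := hrA
  obtain ⟨hrB', hDB⟩ := hrB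
  obtain ⟨n, hn⟩ := exists_pow_maximalIdeal_eq_bot hA
  obtain ⟨m, hm⟩ := exists_pow_maximalIdeal_eq_bot hB
  have hinj' : ∀ x : P, (pA : P →+* A) x = 0 → (pB : P →+* B) x = 0 → x = 0 := by
    intro x h1 h2
    apply hinj
    simp only [map_zero]
    exact Prod.ext h1 h2
  have hfl : GaloisFactorsThroughFiniteLevel r :=
    finLevel_of_mapMat_pair (pA : P →+* A) (pB : P →+* B) hinj'
      (hrA'.finLevel_of_pow_eq_bot hn) (hrB'.finLevel_of_pow_eq_bot hm)
  have hr : IsAdicCts r := isAdicCts_of_finLevel hfl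
  refine ⟨hr, h𝒟.of_fibreProduct hA hB hC hP f g pA pB hpA hpB hcomm hinj hfib ?_ ?_⟩
  · exact h𝒟.of_isEquiv hA (isEquiv_symm (ofMat_baseChangeAlong_isEquiv _ hpA r hr))
      (by convert hDA)
  · exact h𝒟.of_isEquiv hB (isEquiv_symm (ofMat_baseChangeAlong_isEquiv _ hpB r hr))
      (by convert hDB)

end FibreProduct

section ResHom

variable {A : Type} [CommRing A] [IsLocalRing A] [Algebra 𝒪 A]

/-- The residue field of `A` is `k` (via `𝒪`). -/
def resEquiv (hloc : IsLocalHom (algebraMap 𝒪 A))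
    (hsurj : Function.Surjective (IsLocalRing.residue A ∘ algebraMap 𝒪 A)) :
    ResidueField 𝒪 ≃+* ResidueField A :=
  haveI := hloc
  RingEquiv.ofBijective (ResidueField.map (algebraMap 𝒪 A))
    ⟨(ResidueField.map (algebraMap 𝒪 A)).injective, fun x => by
      obtain ⟨o, ho⟩ := hsurj x
      exact ⟨residue 𝒪 o, by rw [ResidueField.map_residue]; exact ho⟩⟩

/-- The canonical `𝒪`-algebra homomorphism `A → k`. -/
def resHom (hloc : IsLocalHom (algebraMap 𝒪 A))
    (hsurj : Function.Surjective (IsLocalRing.residue A ∘ algebraMap 𝒪 A)) :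
    A →ₐ[𝒪] ResidueField 𝒪 where
  toRingHom := ((resEquiv hloc hsurj).symm : ResidueField A →+* ResidueField 𝒪).comp (residue A)
  commutes' := fun o => by
    haveI := hloc
    simp only [RingHom.toMonoidHom_eq_coe, OneHom.toFun_eq_coe, MonoidHom.toOneHom_coe,
      MonoidHom.coe_coe, RingHom.coe_comp, RingHom.coe_coe, Function.comp_apply]
    rw [RingEquiv.symm_apply_eq]
    show residue A (algebraMap 𝒪 A o) = ResidueField.map (algebraMap 𝒪 A) (algebraMap 𝒪 _ o)
    rw [ResidueField.algebraMap_eq, ResidueField.map_residue]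

lemma resHom_eq_zero_iff (hloc : IsLocalHom (algebraMap 𝒪 A))
    (hsurj : Function.Surjective (IsLocalRing.residue A ∘ algebraMap 𝒪 A)) (a : A) :
    resHom hloc hsurj a = 0 ↔ a ∈ maximalIdeal A := by
  show (resEquiv hloc hsurj).symm (residue A a) = 0 ↔ _
  rw [map_eq_zero_iff _ (resEquiv hloc hsurj).symm.injective, residue_eq_zero_iff]

lemma resHom_surjective (hloc : IsLocalHom (algebraMap 𝒪 A))
    (hsurj : Function.Surjective (IsLocalRing.residue A ∘ algebraMap 𝒪 A)) :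
    Function.Surjective (resHom hloc hsurj) := by
  intro x
  obtain ⟨o, rfl⟩ := residue_surjective x
  exact ⟨algebraMap 𝒪 A o, by rw [AlgHom.commutes, ResidueField.algebraMap_eq]⟩

/-- Any two `𝒪`-algebra homomorphisms from a local `𝒪`-algebra with residue field `k` to `k`
agree. -/
lemma algHom_residueField_ext (hsurj : Function.Surjective (IsLocalRing.residue A ∘ algebraMap 𝒪 A))
    (u v : A →ₐ[𝒪] ResidueField 𝒪) : u = v := by
  have key : ∀ w : A →ₐ[𝒪] ResidueField 𝒪, ∀ a ∈ maximalIdeal A, w a = 0 := by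
    intro w a ha
    by_contra h
    have hu : IsUnit (w a) := isUnit_iff_ne_zero.mpr h
    obtain ⟨o, ho⟩ := residue_surjective (w a)
    have ho' : IsUnit o := by
      by_contra hn
      have : residue 𝒪 o = 0 := (residue_eq_zero_iff o).mpr ((mem_maximalIdeal o).mpr hn)
      rw [this] at ho
      exact h ho.symm
    have h1 : w (a - algebraMap 𝒪 A o) = 0 := by
      rw [map_sub, AlgHom.commutes, ResidueField.algebraMap_eq, ho, sub_self]
    have h2 : IsUnit (a - algebraMap 𝒪 A o) := by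
      by_contra hn
      have h3 : a - algebraMap 𝒪 A o ∈ maximalIdeal A := (mem_maximalIdeal _).mpr hn
      have h4 : algebraMap 𝒪 A o ∈ maximalIdeal A := by
        have := Ideal.sub_mem _ ha h3
        simpa using this
      exact ((mem_maximalIdeal _).mp h4) (ho'.map (algebraMap 𝒪 A))
    have h5 := h2.map w
    rw [h1] at h5
    exact not_isUnit_zero h5
  ext a
  obtain ⟨o, ho⟩ := hsurj (residue A a)
  have ha : a - algebraMap 𝒪 A o ∈ maximalIdeal A := by
    rw [← Ideal.Quotient.eq_zero_iff_mem, map_sub, sub_eq_zero]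
    exact ho.symm
  have h1 := key u _ ha
  have h2 := key v _ ha
  rw [map_sub, sub_eq_zero] at h1 h2
  rw [h1, h2, AlgHom.commutes, AlgHom.commutes]

end ResHom

section Pair

variable {A B : Type} [CommRing A] [IsLocalRing A] [Algebra 𝒪 A]
  [CommRing B] [IsLocalRing B] [Algebra 𝒪 B]

/-- The fibre product `A ×_k B` as a subalgebra of `A × B`. -/
def fibProd (hA : IsArtinianTestAlgebra 𝒪 A) (hB : IsArtinianTestAlgebra 𝒪 B) :
    Subalgebra 𝒪 (A × B) :=
  AlgHom.equalizer ((resHom hA.isLocalHom hA.residue_surjective).comp (AlgHom.fst 𝒪 A B))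
    ((resHom hB.isLocalHom hB.residue_surjective).comp (AlgHom.snd 𝒪 A B))

variable (hA : IsArtinianTestAlgebra 𝒪 A) (hB : IsArtinianTestAlgebra 𝒪 B)

lemma mem_fibProd_iff (x : A × B) :
    x ∈ fibProd hA hB ↔ resHom hA.isLocalHom hA.residue_surjective x.1 =
      resHom hB.isLocalHom hB.residue_surjective x.2 := Iff.rfl

/-- First projection of the fibre product. -/
def fibFst : fibProd hA hB →ₐ[𝒪] A := (AlgHom.fst 𝒪 A B).comp (fibProd hA hB).val

/-- Second projection of the fibre product. -/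
def fibSnd : fibProd hA hB →ₐ[𝒪] B := (AlgHom.snd 𝒪 A B).comp (fibProd hA hB).val

@[simp] lemma fibFst_apply (x : fibProd hA hB) : fibFst hA hB x = x.1.1 := rfl

@[simp] lemma fibSnd_apply (x : fibProd hA hB) : fibSnd hA hB x = x.1.2 := rfl

lemma fibProd_isUnit_of_ne_zero (x : fibProd hA hB)
    (hx : resHom hA.isLocalHom hA.residue_surjective x.1.1 ≠ 0) : IsUnit x := by
  obtain ⟨⟨a, b⟩, hab⟩ := x
  have hab' : resHom hA.isLocalHom hA.residue_surjective a =
      resHom hB.isLocalHom hB.residue_surjective b := hab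
  simp only at hx
  have ha : IsUnit a := by
    by_contra h
    exact hx ((resHom_eq_zero_iff _ _ a).mpr ((mem_maximalIdeal a).mpr h))
  have hb : IsUnit b := by
    by_contra h
    exact hx (hab' ▸ (resHom_eq_zero_iff _ _ b).mpr ((mem_maximalIdeal b).mpr h))
  obtain ⟨a', ha'⟩ := isUnit_iff_exists_inv.mp ha
  obtain ⟨b', hb'⟩ := isUnit_iff_exists_inv.mp hb
  have h1 : resHom hA.isLocalHom hA.residue_surjective a' =
      resHom hB.isLocalHom hB.residue_surjective b' := by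
    have e1 := congrArg (resHom hA.isLocalHom hA.residue_surjective) ha'
    have e2 := congrArg (resHom hB.isLocalHom hB.residue_surjective) hb'
    rw [map_mul, map_one] at e1 e2
    rw [← hab'] at e2
    exact (eq_inv_of_mul_eq_one_right e1).trans (eq_inv_of_mul_eq_one_right e2).symm
  refine isUnit_iff_exists_inv.mpr ⟨⟨(a', b'), h1⟩, ?_⟩
  apply Subtype.ext
  exact Prod.ext ha' hb'

instance fibProd_nontrivial : Nontrivial (fibProd hA hB) :=
  ⟨⟨0, 1, fun h => by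
    have := congrArg (fun x : fibProd hA hB => x.1.1) h
    exact zero_ne_one this⟩⟩

theorem fibProd_isLocalRing : IsLocalRing (fibProd hA hB) := by
  refine IsLocalRing.of_isUnit_or_isUnit_one_sub_self fun x => ?_
  by_cases hx : resHom hA.isLocalHom hA.residue_surjective x.1.1 = 0
  · right
    refine fibProd_isUnit_of_ne_zero hA hB (1 - x) ?_
    have : (1 - x).1.1 = 1 - x.1.1 := rfl
    rw [this, map_sub, hx, map_one, sub_zero]
    exact one_ne_zero
  · left
    exact fibProd_isUnit_of_ne_zero hA hB x hx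

lemma fibProd_mem_maximalIdeal_iff (x : fibProd hA hB) :
    haveI := fibProd_isLocalRing hA hB
    x ∈ maximalIdeal (fibProd hA hB) ↔ x.1.1 ∈ maximalIdeal A := by
  haveI := fibProd_isLocalRing hA hB
  rw [mem_maximalIdeal, mem_nonunits_iff, mem_maximalIdeal, mem_nonunits_iff]
  constructor
  · intro h hu
    apply h
    refine fibProd_isUnit_of_ne_zero hA hB x ?_
    intro h0
    exact ((mem_maximalIdeal _).mp ((resHom_eq_zero_iff _ _ _).mp h0)) hu
  · intro h hu
    exact h (hu.map (fibFst hA hB))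

theorem fibProd_isArtinianTestAlgebra [Finite A] [Finite B] :
    haveI := fibProd_isLocalRing hA hB
    IsArtinianTestAlgebra 𝒪 (fibProd hA hB) := by
  haveI := fibProd_isLocalRing hA hB
  refine ⟨⟨fun o ho => ?_⟩, fun x => ?_, ?_⟩
  · have h1 := ho.map (fibFst hA hB)
    rw [AlgHom.commutes] at h1
    haveI := hA.isLocalHom
    exact isUnit_of_map_unit (algebraMap 𝒪 A) o h1
  · obtain ⟨y, rfl⟩ := residue_surjective x
    obtain ⟨o, ho⟩ := hA.residue_surjective (residue A y.1.1)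
    refine ⟨o, ?_⟩
    simp only [Function.comp_apply] at ho ⊢
    rw [← sub_eq_zero, ← map_sub, residue_eq_zero_iff, fibProd_mem_maximalIdeal_iff]
    have : (algebraMap 𝒪 (fibProd hA hB) o - y).1.1 = algebraMap 𝒪 A o - y.1.1 := rfl
    rw [this, ← residue_eq_zero_iff, map_sub, ho, sub_self]
  · have : Finite (fibProd hA hB) := Subtype.finite
    infer_instance

lemma fibProd_exists (a : A) (b : B)
    (h : resHom hA.isLocalHom hA.residue_surjective a =
      resHom hB.isLocalHom hB.residue_surjective b) :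
    ∃ x : fibProd hA hB, fibFst hA hB x = a ∧ fibSnd hA hB x = b :=
  ⟨⟨(a, b), h⟩, rfl, rfl⟩

/-- The residue field `k` of `𝒪` is an artinian test algebra. -/
theorem residueField_isArtinianTestAlgebra : IsArtinianTestAlgebra 𝒪 (ResidueField 𝒪) := by
  refine ⟨⟨fun o ho => ?_⟩, fun x => ?_, inferInstance⟩
  · rw [ResidueField.algebraMap_eq] at ho
    by_contra h
    have : residue 𝒪 o = 0 := (residue_eq_zero_iff o).mpr ((mem_maximalIdeal o).mpr h)
    rw [this] at ho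
    exact not_isUnit_zero ho
  · obtain ⟨y, rfl⟩ := residue_surjective x
    obtain ⟨o, rfl⟩ := residue_surjective y
    exact ⟨o, by simp [ResidueField.algebraMap_eq]⟩

variable {P : Type} [CommRing P] [IsLocalRing P] [Algebra 𝒪 P]

include hA hB in
/-- (X3b) descent along a jointly injective pair of maps (no base `C` needed): if `P` embeds into
`A × B` and the two projections of `r` satisfy the condition, so does `r`. -/
theorem Dm_of_pair (h𝒟 : IsDeformationCondition 𝒪 𝒟) [Finite A] [Finite B]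
    (hP : IsArtinianTestAlgebra 𝒪 P) (pA : P →ₐ[𝒪] A) (pB : P →ₐ[𝒪] B)
    (hinj : Function.Injective (fun x => (pA x, pB x))) {r : GQ →* M2 P}
    (hrA : Dm 𝒟 (mapMat (pA : P →+* A) r)) (hrB : Dm 𝒟 (mapMat (pB : P →+* B) r)) :
    Dm 𝒟 r := by
  haveI := fibProd_isLocalRing hA hB
  have hF := fibProd_isArtinianTestAlgebra hA hB
  have hk : IsArtinianTestAlgebra 𝒪 (ResidueField 𝒪) := residueField_isArtinianTestAlgebra
  have hmem : ∀ x : P, (pA.prod pB) x ∈ fibProd hA hB := by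
    intro x
    rw [mem_fibProd_iff]
    exact DFunLike.congr_fun (algHom_residueField_ext hP.residue_surjective
      ((resHom hA.isLocalHom hA.residue_surjective).comp pA)
      ((resHom hB.isLocalHom hB.residue_surjective).comp pB)) x
  let ι : P →ₐ[𝒪] fibProd hA hB := AlgHom.codRestrict (pA.prod pB) _ hmem
  have hιinj : Function.Injective ι := by
    intro x y hxy
    apply hinj
    have := congrArg Subtype.val hxy
    exact this
  have h1 : mapMat ((fibFst hA hB : fibProd hA hB →ₐ[𝒪] A) : fibProd hA hB →+* A)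
      (mapMat (ι : P →+* fibProd hA hB) r) = mapMat (pA : P →+* A) r := by
    ext σ i j; rfl
  have h2 : mapMat ((fibSnd hA hB : fibProd hA hB →ₐ[𝒪] B) : fibProd hA hB →+* B)
      (mapMat (ι : P →+* fibProd hA hB) r) = mapMat (pB : P →+* B) r := by
    ext σ i j; rfl
  have h3 : Dm 𝒟 (mapMat (ι : P →+* fibProd hA hB) r) := by
    refine Dm_of_fibreProduct h𝒟 hA hB hk hF (resHom hA.isLocalHom hA.residue_surjective)
      (resHom hB.isLocalHom hB.residue_surjective) (fibFst hA hB) (fibSnd hA hB) ?_ ?_ ?_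
      (h1 ▸ hrA) (h2 ▸ hrB)
    · exact algHom_residueField_ext hF.residue_surjective _ _
    · intro x y hxy
      apply Subtype.ext
      exact hxy
    · intro a b hab
      exact fibProd_exists hA hB a b hab
  exact Dm_of_injective h𝒟 hP hF ι hιinj h3

end Pair

section Complete

variable {A : Type} [CommRing A] [IsLocalRing A] [IsNoetherianRing A]
  [IsAdicComplete (maximalIdeal A) A] [Algebra 𝒪 A]

/-- A deformation condition is invariant under equivalence over complete noetherian rings. -/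
theorem of_isEquiv_complete (h𝒟 : IsDeformationCondition 𝒪 𝒟)
    (hloc : IsLocalHom (algebraMap 𝒪 A))
    (hsurj : Function.Surjective (IsLocalRing.residue A ∘ algebraMap 𝒪 A))
    {ρ ρ' : GaloisRepAdic A} (e : ρ.IsEquiv ρ') (h : 𝒟 ρ) : 𝒟 ρ' := by
  rw [h𝒟.iff_forall_surjective hloc hsurj] at h ⊢
  intro B _ _ _ hB q hq hqs
  exact h𝒟.of_isEquiv hB (isEquiv_baseChangeAlong _ hq e) (h hB q hq hqs)

/-- (X5) invariance under equivalence, complete noetherian case. -/
theorem Dm_of_isEquiv_complete (h𝒟 : IsDeformationCondition 𝒪 𝒟)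
    (hloc : IsLocalHom (algebraMap 𝒪 A))
    (hsurj : Function.Surjective (IsLocalRing.residue A ∘ algebraMap 𝒪 A))
    {r r' : GQ →* M2 A} (hr : IsAdicCts r) (hr' : IsAdicCts r')
    (he : (ofMat r hr).IsEquiv (ofMat r' hr')) (h : Dm 𝒟 r) : Dm 𝒟 r' :=
  ⟨hr', of_isEquiv_complete h𝒟 hloc hsurj he (h.holds hr)⟩

/-- (X4) over a complete noetherian local ring the condition is tested on artinian quotients. -/
theorem Dm_iff_forall_surjective (h𝒟 : IsDeformationCondition 𝒪 𝒟)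
    (hloc : IsLocalHom (algebraMap 𝒪 A))
    (hsurj : Function.Surjective (IsLocalRing.residue A ∘ algebraMap 𝒪 A))
    (r : GQ →* M2 A) (hr : IsAdicCts r) :
    Dm 𝒟 r ↔ ∀ ⦃B : Type⦄ [CommRing B] [IsLocalRing B] [Algebra 𝒪 B],
      IsArtinianTestAlgebra 𝒪 B → ∀ q : A →ₐ[𝒪] B, Function.Surjective q →
        Dm 𝒟 (mapMat (q : A →+* B) r) := by
  constructor
  · rintro ⟨_, hD⟩ B _ _ _ hB q hqs
    have hq : IsLocalHom (q : A →+* B) := isLocalHom_of_testAlgebra hB q
    refine ⟨hr.map _ hq, ?_⟩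
    have := (h𝒟.iff_forall_surjective hloc hsurj (ofMat r hr)).mp hD hB q hq hqs
    exact h𝒟.of_isEquiv hB (ofMat_baseChangeAlong_isEquiv _ hq r hr) this
  · intro h
    refine ⟨hr, (h𝒟.iff_forall_surjective hloc hsurj (ofMat r hr)).mpr ?_⟩
    intro B _ _ _ hB q hq hqs
    obtain ⟨hr', hD⟩ := h hB q hqs
    exact h𝒟.of_isEquiv hB (isEquiv_symm (ofMat_baseChangeAlong_isEquiv _ hq r hr))
      (by convert hD)

end Complete

/-! ### Aliases in the exact shapes of the blueprint (ASSIGNMENTS v2) -/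

section Aliases

variable {A B C P : Type} [CommRing A] [IsLocalRing A] [Algebra 𝒪 A]
  [CommRing B] [IsLocalRing B] [Algebra 𝒪 B] [CommRing C] [IsLocalRing C] [Algebra 𝒪 C]
  [CommRing P] [IsLocalRing P] [Algebra 𝒪 P]

theorem Dm.map (h𝒟 : IsDeformationCondition 𝒪 𝒟) (hA : IsArtinianTestAlgebra 𝒪 A)
    (hB : IsArtinianTestAlgebra 𝒪 B) (φ : A →ₐ[𝒪] B) (_hφ : IsLocalHom (φ : A →+* B))
    {r : GQ →* M2 A} (h : Dm 𝒟 r) : Dm 𝒟 (mapMat (φ : A →+* B) r) :=
  Dm_map h𝒟 hA hB φ h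

theorem Dm.of_map_injective (h𝒟 : IsDeformationCondition 𝒪 𝒟) (hA : IsArtinianTestAlgebra 𝒪 A)
    (hB : IsArtinianTestAlgebra 𝒪 B) (φ : A →ₐ[𝒪] B) (_hφ : IsLocalHom (φ : A →+* B))
    (hinj : Function.Injective φ) {r : GQ →* M2 A} (h : Dm 𝒟 (mapMat (φ : A →+* B) r)) :
    Dm 𝒟 r :=
  Dm_of_injective h𝒟 hA hB φ hinj h

theorem Dm.of_fibreProduct (h𝒟 : IsDeformationCondition 𝒪 𝒟) (hA : IsArtinianTestAlgebra 𝒪 A)
    (hB : IsArtinianTestAlgebra 𝒪 B) (hC : IsArtinianTestAlgebra 𝒪 C)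
    (hP : IsArtinianTestAlgebra 𝒪 P) (f : A →ₐ[𝒪] C) (g : B →ₐ[𝒪] C) (pA : P →ₐ[𝒪] A)
    (pB : P →ₐ[𝒪] B) (_hpA : IsLocalHom (pA : P →+* A)) (_hpB : IsLocalHom (pB : P →+* B))
    (hcomm : f.comp pA = g.comp pB)
    (hinj : Function.Injective (fun x => (pA x, pB x)))
    (hfib : ∀ a b, f a = g b → ∃ x, pA x = a ∧ pB x = b) {r : GQ →* M2 P}
    (hrA : Dm 𝒟 (mapMat (pA : P →+* A) r)) (hrB : Dm 𝒟 (mapMat (pB : P →+* B) r)) :
    Dm 𝒟 r :=
  Dm_of_fibreProduct h𝒟 hA hB hC hP f g pA pB hcomm hinj hfib hrA hrB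

theorem Dm.of_pair (h𝒟 : IsDeformationCondition 𝒪 𝒟) (hA : IsArtinianTestAlgebra 𝒪 A)
    (hB : IsArtinianTestAlgebra 𝒪 B) [Finite A] [Finite B]
    (hP : IsArtinianTestAlgebra 𝒪 P) (pA : P →ₐ[𝒪] A) (pB : P →ₐ[𝒪] B)
    (hinj : Function.Injective (fun x => (pA x, pB x))) {r : GQ →* M2 P}
    (hrA : Dm 𝒟 (mapMat (pA : P →+* A) r)) (hrB : Dm 𝒟 (mapMat (pB : P →+* B) r)) :
    Dm 𝒟 r :=
  Dm_of_pair hA hB h𝒟 hP pA pB hinj hrA hrB

/-- `𝒟 ρ ↔ Dm 𝒟 r` when `ρ` is equivalent to `ofMat r hr` (artinian case). -/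
theorem Dm.iff_of_isEquiv (h𝒟 : IsDeformationCondition 𝒪 𝒟) (hA : IsArtinianTestAlgebra 𝒪 A)
    {ρ : GaloisRepAdic A} {r : GQ →* M2 A} (hr : IsAdicCts r) (he : ρ.IsEquiv (ofMat r hr)) :
    𝒟 ρ ↔ Dm 𝒟 r :=
  ⟨fun h => ⟨hr, h𝒟.of_isEquiv hA he h⟩, fun h => h𝒟.of_isEquiv hA (isEquiv_symm he) (h.holds hr)⟩

theorem Dm.of_isEquiv (h𝒟 : IsDeformationCondition 𝒪 𝒟) (hA : IsArtinianTestAlgebra 𝒪 A)
    {ρ : GaloisRepAdic A} {r : GQ →* M2 A} (hr : IsAdicCts r) (he : ρ.IsEquiv (ofMat r hr))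
    (h : 𝒟 ρ) : Dm 𝒟 r :=
  (Dm.iff_of_isEquiv h𝒟 hA hr he).mp h

/-- `𝒟 ρ ↔ Dm 𝒟 r` when `ρ` is equivalent to `ofMat r hr` (complete noetherian case). -/
theorem Dm.iff_of_isEquiv_complete [IsNoetherianRing A] [IsAdicComplete (maximalIdeal A) A]
    (h𝒟 : IsDeformationCondition 𝒪 𝒟) (hloc : IsLocalHom (algebraMap 𝒪 A))
    (hsurj : Function.Surjective (IsLocalRing.residue A ∘ algebraMap 𝒪 A))
    {ρ : GaloisRepAdic A} {r : GQ →* M2 A} (hr : IsAdicCts r) (he : ρ.IsEquiv (ofMat r hr)) :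
    𝒟 ρ ↔ Dm 𝒟 r :=
  ⟨fun h => ⟨hr, of_isEquiv_complete h𝒟 hloc hsurj he h⟩,
    fun h => of_isEquiv_complete h𝒟 hloc hsurj (isEquiv_symm he) (h.holds hr)⟩

theorem Dm.iff_forall_surjective [IsNoetherianRing A] [IsAdicComplete (maximalIdeal A) A]
    (h𝒟 : IsDeformationCondition 𝒪 𝒟) (hloc : IsLocalHom (algebraMap 𝒪 A))
    (hsurj : Function.Surjective (IsLocalRing.residue A ∘ algebraMap 𝒪 A))
    (r : GQ →* M2 A) (hr : IsAdicCts r) :
    Dm 𝒟 r ↔ ∀ ⦃B : Type⦄ [CommRing B] [IsLocalRing B] [Algebra 𝒪 B],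
      IsArtinianTestAlgebra 𝒪 B → ∀ q : A →ₐ[𝒪] B, IsLocalHom (q : A →+* B) →
        Function.Surjective q → Dm 𝒟 (mapMat (q : A →+* B) r) := by
  rw [Dm_iff_forall_surjective h𝒟 hloc hsurj r hr]
  constructor
  · intro h B _ _ _ hB q _ hq
    exact h hB q hq
  · intro h B _ _ _ hB q hq
    exact h hB q (isLocalHom_of_testAlgebra hB q) hq

end Aliases

end Fermat.Agent.S53
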