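import Fermat.Prelude.Def_GaloisRep_Adic

open IsLocalRing
open scoped TensorProduct

noncomputable section

namespace Fermat.Agent.S53

/-- The absolute Galois group of `ℚ`. -/
abbrev GQ : Type := AlgebraicClosure ℚ ≃ₐ[ℚ] AlgebraicClosure ℚ

/-- Two by two matrices. -/
abbrev M2 (A : Type) : Type := Matrix (Fin 2) (Fin 2) A

section Basic

variable {A : Type} [CommRing A]

lemma mem_smul_top_pi_iff (I : Ideal A) (v : Fin 2 → A) :
    v ∈ I • (⊤ : Submodule A (Fin 2 → A)) ↔ ∀ i, v i ∈ I := by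
  constructor
  · intro hv
    refine Submodule.smul_induction_on (p := fun v : Fin 2 → A => ∀ i, v i ∈ I) hv ?_ ?_
    · intro a ha w _ i
      simpa using I.mul_mem_right (w i) ha
    · intro x y hx hy i
      simpa using I.add_mem (hx i) (hy i)
  · intro hv
    have : v = ∑ i, v i • (Pi.single i (1 : A) : Fin 2 → A) := by
      ext j
      simp [Finset.sum_apply, Pi.single_apply]
    rw [this]
    exact Submodule.sum_mem _ fun i _ => Submodule.smul_mem_smul (hv i) Submodule.mem_top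

lemma repr_mem_of_mem_smul_top {V : Type} [AddCommGroup V] [Module A V]
    (b : Module.Basis (Fin 2) A V) (I : Ideal A) {v : V}
    (hv : v ∈ I • (⊤ : Submodule A V)) (i : Fin 2) : b.repr v i ∈ I := by
  refine Submodule.smul_induction_on (p := fun v : V => b.repr v i ∈ I) hv ?_ ?_
  · intro a ha w _
    simpa using I.mul_mem_right (b.repr w i) ha
  · intro x y hx hy
    simpa using I.add_mem hx hy

end Basic

section OfMat

variable {A : Type} [CommRing A] [IsLocalRing A]

/-- Adic continuity of a matrix valued representation. -/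
def IsAdicCts (r : GQ →* M2 A) : Prop :=
  ∀ n : ℕ, ∃ L : IntermediateField ℚ (AlgebraicClosure ℚ), FiniteDimensional ℚ L ∧
    ∀ σ : GQ, (∀ x ∈ L, σ x = x) → ∀ i j, (r σ - 1) i j ∈ maximalIdeal A ^ n

/-- The linear action attached to a matrix valued representation. -/
def matAction (r : GQ →* M2 A) : GQ →* Module.End A (Fin 2 → A) where
  toFun σ := Matrix.toLin' (r σ)
  map_one' := by rw [map_one, Matrix.toLin'_one]; rfl
  map_mul' σ τ := by rw [map_mul, Matrix.toLin'_mul]; rfl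

omit [IsLocalRing A] in
@[simp] lemma matAction_apply (r : GQ →* M2 A) (σ : GQ) (v : Fin 2 → A) :
    matAction r σ v = (r σ).mulVec v := rfl

lemma matAction_isAdicContinuous (r : GQ →* M2 A) (hr : IsAdicCts r) :
    GaloisActionIsAdicContinuous A (matAction r) := by
  intro n
  obtain ⟨L, hL, h⟩ := hr n
  refine ⟨L, hL, fun σ hσ v => ?_⟩
  rw [mem_smul_top_pi_iff]
  intro i
  have h0 : matAction r σ v - v = (r σ - 1).mulVec v := by
    rw [Matrix.sub_mulVec, Matrix.one_mulVec]; rfl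
  have h1 : (matAction r σ v - v) i = ∑ j, (r σ - 1) i j * v j := by
    rw [h0]; rfl
  rw [h1]
  exact Ideal.sum_mem _ fun j _ => Ideal.mul_mem_right _ _ (h σ hσ i j)

/-- The `GaloisRepAdic` attached to a continuous matrix valued representation. -/
def ofMat (r : GQ →* M2 A) (hr : IsAdicCts r) : GaloisRepAdic A where
  V := Fin 2 → A
  finrank_eq := by simp
  ρ := matAction r
  isAdicContinuous := matAction_isAdicContinuous r hr

@[simp] lemma ofMat_ρ_apply (r : GQ →* M2 A) (hr : IsAdicCts r) (σ : GQ) (v : Fin 2 → A) :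
    (ofMat r hr).ρ σ v = (r σ).mulVec v := rfl

end OfMat

section ToMat

variable {A : Type} [CommRing A] [IsLocalRing A]

/-- The matrix valued representation attached to a `GaloisRepAdic` and a basis. -/
def toMat (ρ : GaloisRepAdic A) (b : Module.Basis (Fin 2) A ρ.V) : GQ →* M2 A where
  toFun σ := LinearMap.toMatrix b b (ρ.ρ σ)
  map_one' := by rw [map_one]; exact LinearMap.toMatrix_one b
  map_mul' σ τ := by rw [map_mul]; exact LinearMap.toMatrix_mul b _ _

lemma toMat_isAdicCts (ρ : GaloisRepAdic A) (b : Module.Basis (Fin 2) A ρ.V) :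
    IsAdicCts (toMat ρ b) := by
  intro n
  obtain ⟨L, hL, h⟩ := ρ.isAdicContinuous n
  refine ⟨L, hL, fun σ hσ i j => ?_⟩
  have h1 : (toMat ρ b σ - 1) i j = b.repr (ρ.ρ σ (b j) - b j) i := by
    have : (1 : M2 A) = LinearMap.toMatrix b b (1 : Module.End A ρ.V) :=
      (LinearMap.toMatrix_one b).symm
    rw [this]
    show (LinearMap.toMatrix b b (ρ.ρ σ) - LinearMap.toMatrix b b 1) i j = _
    rw [← map_sub, LinearMap.toMatrix_apply]
    rfl
  rw [h1]
  exact repr_mem_of_mem_smul_top b _ (h σ hσ (b j)) i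

/-- Every `GaloisRepAdic` is equivalent to the one of its matrix form in any basis. -/
def equivOfMat (ρ : GaloisRepAdic A) (b : Module.Basis (Fin 2) A ρ.V) :
    GaloisRepAdic.Equiv ρ (ofMat (toMat ρ b) (toMat_isAdicCts ρ b)) where
  toLinearEquiv := b.equivFun
  map_apply σ x := by
    show b.repr (ρ.ρ σ x) = (LinearMap.toMatrix b b (ρ.ρ σ)).mulVec (b.repr x)
    rw [LinearMap.toMatrix_mulVec_repr]

/-- A basis of the underlying module of a `GaloisRepAdic`. -/
def stdBasis (ρ : GaloisRepAdic A) : Module.Basis (Fin 2) A ρ.V :=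
  Module.finBasisOfFinrankEq A ρ.V ρ.finrank_eq

theorem exists_ofMat_isEquiv (ρ : GaloisRepAdic A) :
    ∃ (r : GQ →* M2 A) (hr : IsAdicCts r), ρ.IsEquiv (ofMat r hr) :=
  ⟨_, _, ⟨equivOfMat ρ (stdBasis ρ)⟩⟩

end ToMat

section BaseChange

variable {A B : Type} [CommRing A] [CommRing B]

/-- Entrywise image of a matrix valued representation under a ring homomorphism. -/
def mapMat (φ : A →+* B) (r : GQ →* M2 A) : GQ →* M2 B :=
  ((φ.mapMatrix : M2 A →+* M2 B) : M2 A →* M2 B).comp r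

@[simp] lemma mapMat_apply (φ : A →+* B) (r : GQ →* M2 A) (σ : GQ) :
    mapMat φ r σ = (r σ).map φ := rfl

@[simp] lemma mapMat_apply_apply (φ : A →+* B) (r : GQ →* M2 A) (σ : GQ) (i j : Fin 2) :
    mapMat φ r σ i j = φ (r σ i j) := rfl

lemma mapMat_comp {C : Type} [CommRing C] (ψ : B →+* C) (φ : A →+* B) (r : GQ →* M2 A) :
    mapMat (ψ.comp φ) r = mapMat ψ (mapMat φ r) := by
  ext σ i j; rfl

lemma mapMat_id (r : GQ →* M2 A) : mapMat (RingHom.id A) r = r := by
  ext σ i j; rfl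

/-- The canonical identification `B ⊗[A] (Fin 2 → A) ≃ (Fin 2 → B)`. -/
def piEquiv [Algebra A B] : B ⊗[A] (Fin 2 → A) ≃ₗ[B] (Fin 2 → B) :=
  TensorProduct.piScalarRight A B B (Fin 2)

lemma piEquiv_tmul [Algebra A B] (b : B) (v : Fin 2 → A) (i : Fin 2) :
    piEquiv (b ⊗ₜ[A] v) i = algebraMap A B (v i) * b := by
  simp [piEquiv, Algebra.smul_def]

lemma piEquiv_baseChange [Algebra A B] (M : M2 A) (x : B ⊗[A] (Fin 2 → A)) :
    piEquiv ((Matrix.toLin' M).baseChange B x) =
      (M.map (algebraMap A B)).mulVec (piEquiv x) := by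
  induction x using TensorProduct.induction_on with
  | zero => simp
  | tmul b v =>
    ext i
    rw [LinearMap.baseChange_tmul, piEquiv_tmul]
    simp only [Matrix.toLin'_apply, Matrix.mulVec, dotProduct, Matrix.map_apply, piEquiv_tmul,
      map_sum, map_mul, Finset.sum_mul]
    refine Finset.sum_congr rfl fun j _ => ?_
    ring
  | add x y hx hy => rw [map_add, map_add, hx, hy, map_add, Matrix.mulVec_add]


variable [IsLocalRing A] [IsLocalRing B]

lemma IsAdicCts.map {r : GQ →* M2 A} (hr : IsAdicCts r) (φ : A →+* B) (hφ : IsLocalHom φ) :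
    IsAdicCts (mapMat φ r) := by
  intro n
  obtain ⟨L, hL, h⟩ := hr n
  refine ⟨L, hL, fun σ hσ i j => ?_⟩
  have h1 : (mapMat φ r σ - 1) i j = φ ((r σ - 1) i j) := by
    simp only [Matrix.sub_apply, mapMat_apply_apply, map_sub, Matrix.one_apply]
    split_ifs <;> simp
  rw [h1]
  have hmap : (maximalIdeal A ^ n).map φ ≤ maximalIdeal B ^ n := by
    rw [Ideal.map_pow]
    exact Ideal.pow_right_mono (Ideal.map_le_iff_le_comap.mpr fun a ha =>
      Ideal.mem_comap.mpr (haveI := hφ; map_nonunit φ a ha)) n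
  exact hmap (Ideal.mem_map_of_mem φ (h σ hσ i j))

/-- Base change of `ofMat` is `ofMat` of the entrywise image. -/
def baseChangeEquiv (φ : A →+* B) (hφ : IsLocalHom φ) (r : GQ →* M2 A) (hr : IsAdicCts r) :
    GaloisRepAdic.Equiv ((ofMat r hr).baseChangeAlong φ hφ) (ofMat (mapMat φ r) (hr.map φ hφ)) :=
  letI : Algebra A B := φ.toAlgebra
  { toLinearEquiv := piEquiv
    map_apply := fun σ x => piEquiv_baseChange (r σ) x }

theorem ofMat_baseChangeAlong_isEquiv (φ : A →+* B) (hφ : IsLocalHom φ) (r : GQ →* M2 A)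
    (hr : IsAdicCts r) :
    ((ofMat r hr).baseChangeAlong φ hφ).IsEquiv (ofMat (mapMat φ r) (hr.map φ hφ)) :=
  ⟨baseChangeEquiv φ hφ r hr⟩

end BaseChange

section Conj

variable {A : Type} [CommRing A]

/-- Conjugate of a matrix valued representation by an invertible matrix. -/
def conjMat (M : M2 A) (hM : IsUnit M.det) (r : GQ →* M2 A) : GQ →* M2 A where
  toFun σ := M * r σ * M⁻¹
  map_one' := by rw [map_one, mul_one, Matrix.mul_nonsing_inv M hM]
  map_mul' σ τ := by
    rw [map_mul]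
    calc M * (r σ * r τ) * M⁻¹ = M * r σ * (1 : M2 A) * r τ * M⁻¹ := by
          simp only [mul_one, mul_assoc]
      _ = M * r σ * M⁻¹ * (M * r τ * M⁻¹) := by
          rw [← Matrix.nonsing_inv_mul M hM]; simp only [mul_assoc]

@[simp] lemma conjMat_apply (M : M2 A) (hM : IsUnit M.det) (r : GQ →* M2 A) (σ : GQ) :
    conjMat M hM r σ = M * r σ * M⁻¹ := rfl

lemma conjMat_mul (M : M2 A) (hM : IsUnit M.det) (r : GQ →* M2 A) (σ : GQ) :
    M * r σ = conjMat M hM r σ * M := by
  rw [conjMat_apply, mul_assoc, Matrix.nonsing_inv_mul M hM, mul_one]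

variable [IsLocalRing A]

lemma IsAdicCts.conj {r : GQ →* M2 A} (hr : IsAdicCts r) (M : M2 A) (hM : IsUnit M.det) :
    IsAdicCts (conjMat M hM r) := by
  intro n
  obtain ⟨L, hL, h⟩ := hr n
  refine ⟨L, hL, fun σ hσ i j => ?_⟩
  have h1 : conjMat M hM r σ - 1 = M * (r σ - 1) * M⁻¹ := by
    rw [conjMat_apply, mul_sub, sub_mul, mul_one, Matrix.mul_nonsing_inv M hM]
  rw [h1, Matrix.mul_apply]
  refine Ideal.sum_mem _ fun k _ => Ideal.mul_mem_right _ _ ?_
  rw [Matrix.mul_apply]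
  exact Ideal.sum_mem _ fun l _ => Ideal.mul_mem_left _ _ (h σ hσ l k)

/-- Equivalences between `ofMat`'s are conjugations. -/
theorem ofMat_isEquiv_iff {r r' : GQ →* M2 A} (hr : IsAdicCts r) (hr' : IsAdicCts r') :
    (ofMat r hr).IsEquiv (ofMat r' hr') ↔
      ∃ M : M2 A, IsUnit M.det ∧ ∀ σ, M * r σ = r' σ * M := by
  constructor
  · rintro ⟨e⟩
    let f : (Fin 2 → A) ≃ₗ[A] (Fin 2 → A) := e.toLinearEquiv
    refine ⟨LinearMap.toMatrix' f.toLinearMap, ?_, fun σ => ?_⟩
    · have h1 : (LinearMap.toMatrix' f.toLinearMap).det = LinearMap.det f.toLinearMap := by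
        rw [← LinearMap.det_toLin', Matrix.toLin'_toMatrix']
      rw [h1]
      exact LinearEquiv.isUnit_det' f
    · have h2 : f.toLinearMap ∘ₗ Matrix.toLin' (r σ) = Matrix.toLin' (r' σ) ∘ₗ f.toLinearMap := by
        refine LinearMap.ext fun x => ?_
        exact e.map_apply σ x
      have h3 := congrArg LinearMap.toMatrix' h2
      rwa [LinearMap.toMatrix'_comp, LinearMap.toMatrix'_comp, LinearMap.toMatrix'_toLin',
        LinearMap.toMatrix'_toLin'] at h3
  · rintro ⟨M, hM, h⟩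
    refine ⟨{ toLinearEquiv := Matrix.toLinearEquiv' M (Matrix.invertibleOfIsUnitDet M hM)
              map_apply := fun σ x => ?_ }⟩
    show M.mulVec ((r σ).mulVec x) = (r' σ).mulVec (M.mulVec x)
    rw [Matrix.mulVec_mulVec, Matrix.mulVec_mulVec, h σ]

theorem ofMat_conjMat_isEquiv {r : GQ →* M2 A} (hr : IsAdicCts r) (M : M2 A) (hM : IsUnit M.det) :
    (ofMat r hr).IsEquiv (ofMat (conjMat M hM r) (hr.conj M hM)) :=
  (ofMat_isEquiv_iff hr (hr.conj M hM)).mpr ⟨M, hM, conjMat_mul M hM r⟩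

end Conj

section Residual

variable {k : Type} [Field k]

lemma matAction_eq_one {A : Type} [CommRing A] {r : GQ →* M2 A} {σ : GQ} (h : r σ = 1) :
    matAction r σ = 1 := by
  refine LinearMap.ext fun v => ?_
  rw [matAction_apply, h, Matrix.one_mulVec]; rfl

/-- The `ResidualGaloisRep` attached to a matrix valued representation of finite level. -/
def ofMatRes (rbar : GQ →* M2 k) (h : GaloisFactorsThroughFiniteLevel rbar) :
    ResidualGaloisRep k where
  V := Fin 2 → k
  finrank_eq := by simp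
  ρ := matAction rbar
  factorsThroughFiniteLevel := by
    obtain ⟨L, hL, h1⟩ := h
    exact ⟨L, hL, fun σ hσ => matAction_eq_one (h1 σ hσ)⟩

@[simp] lemma ofMatRes_ρ_apply (rbar : GQ →* M2 k) (h : GaloisFactorsThroughFiniteLevel rbar)
    (σ : GQ) (v : Fin 2 → k) : (ofMatRes rbar h).ρ σ v = (rbar σ).mulVec v := rfl

/-- The matrix valued representation attached to a `ResidualGaloisRep` and a basis. -/
def toMatRes (ρ : ResidualGaloisRep k) (b : Module.Basis (Fin 2) k ρ.V) : GQ →* M2 k where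
  toFun σ := LinearMap.toMatrix b b (ρ.ρ σ)
  map_one' := by rw [map_one]; exact LinearMap.toMatrix_one b
  map_mul' σ τ := by rw [map_mul]; exact LinearMap.toMatrix_mul b _ _

lemma toMatRes_finLevel (ρ : ResidualGaloisRep k) (b : Module.Basis (Fin 2) k ρ.V) :
    GaloisFactorsThroughFiniteLevel (toMatRes ρ b) := by
  obtain ⟨L, hL, h⟩ := ρ.factorsThroughFiniteLevel
  refine ⟨L, hL, fun σ hσ => ?_⟩
  show LinearMap.toMatrix b b (ρ.ρ σ) = 1
  rw [h σ hσ]; exact LinearMap.toMatrix_one b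

/-- Every `ResidualGaloisRep` is equivalent to the one of its matrix form in any basis. -/
def equivOfMatRes (ρ : ResidualGaloisRep k) (b : Module.Basis (Fin 2) k ρ.V) :
    ResidualGaloisRep.Equiv ρ (ofMatRes (toMatRes ρ b) (toMatRes_finLevel ρ b)) where
  toLinearEquiv := b.equivFun
  map_apply σ x := by
    show b.repr (ρ.ρ σ x) = (LinearMap.toMatrix b b (ρ.ρ σ)).mulVec (b.repr x)
    rw [LinearMap.toMatrix_mulVec_repr]

/-- A basis of the underlying space of a `ResidualGaloisRep`. -/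
def stdBasisRes (ρ : ResidualGaloisRep k) : Module.Basis (Fin 2) k ρ.V :=
  Module.finBasisOfFinrankEq k ρ.V ρ.finrank_eq

theorem exists_ofMatRes_isEquiv (ρ : ResidualGaloisRep k) :
    ∃ (rbar : GQ →* M2 k) (h : GaloisFactorsThroughFiniteLevel rbar), ρ.IsEquiv (ofMatRes rbar h) :=
  ⟨_, _, ⟨equivOfMatRes ρ (stdBasisRes ρ)⟩⟩

/-- Equivalences between `ofMatRes`'s are conjugations. -/
theorem ofMatRes_isEquiv_iff {r r' : GQ →* M2 k} (hr : GaloisFactorsThroughFiniteLevel r)
    (hr' : GaloisFactorsThroughFiniteLevel r') :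
    (ofMatRes r hr).IsEquiv (ofMatRes r' hr') ↔
      ∃ M : M2 k, IsUnit M.det ∧ ∀ σ, M * r σ = r' σ * M := by
  constructor
  · rintro ⟨e⟩
    let f : (Fin 2 → k) ≃ₗ[k] (Fin 2 → k) := e.toLinearEquiv
    refine ⟨LinearMap.toMatrix' f.toLinearMap, ?_, fun σ => ?_⟩
    · have h1 : (LinearMap.toMatrix' f.toLinearMap).det = LinearMap.det f.toLinearMap := by
        rw [← LinearMap.det_toLin', Matrix.toLin'_toMatrix']
      rw [h1]
      exact LinearEquiv.isUnit_det' f
    · have h2 : f.toLinearMap ∘ₗ Matrix.toLin' (r σ) = Matrix.toLin' (r' σ) ∘ₗ f.toLinearMap := by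
        refine LinearMap.ext fun x => ?_
        exact e.map_apply σ x
      have h3 := congrArg LinearMap.toMatrix' h2
      rwa [LinearMap.toMatrix'_comp, LinearMap.toMatrix'_comp, LinearMap.toMatrix'_toLin',
        LinearMap.toMatrix'_toLin'] at h3
  · rintro ⟨M, hM, h⟩
    refine ⟨{ toLinearEquiv := Matrix.toLinearEquiv' M (Matrix.invertibleOfIsUnitDet M hM)
              map_apply := fun σ x => ?_ }⟩
    show M.mulVec ((r σ).mulVec x) = (r' σ).mulVec (M.mulVec x)
    rw [Matrix.mulVec_mulVec, Matrix.mulVec_mulVec, h σ]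

lemma finLevel_mapMat {k' : Type} [Field k'] {rbar : GQ →* M2 k}
    (h : GaloisFactorsThroughFiniteLevel rbar) (ψ : k →+* k') :
    GaloisFactorsThroughFiniteLevel (mapMat ψ rbar) := by
  obtain ⟨L, hL, h1⟩ := h
  refine ⟨L, hL, fun σ hσ => ?_⟩
  rw [mapMat_apply, h1 σ hσ]
  exact (RingHom.mapMatrix ψ).map_one

/-- Base change of `ofMatRes` is `ofMatRes` of the entrywise image. -/
def baseChangeEquivRes {k' : Type} [Field k'] (ψ : k →+* k') (rbar : GQ →* M2 k)
    (h : GaloisFactorsThroughFiniteLevel rbar) :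
    ResidualGaloisRep.Equiv ((ofMatRes rbar h).baseChangeAlong ψ)
      (ofMatRes (mapMat ψ rbar) (finLevel_mapMat h ψ)) :=
  letI : Algebra k k' := ψ.toAlgebra
  { toLinearEquiv := piEquiv
    map_apply := fun σ x => piEquiv_baseChange (rbar σ) x }

variable {A : Type} [CommRing A] [IsLocalRing A]

lemma finLevel_residue {r : GQ →* M2 A} (hr : IsAdicCts r) :
    GaloisFactorsThroughFiniteLevel (mapMat (residue A) r) := by
  obtain ⟨L, hL, h⟩ := hr 1
  refine ⟨L, hL, fun σ hσ => ?_⟩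
  ext i j
  have h1 := h σ hσ i j
  rw [pow_one, ← residue_eq_zero_iff, Matrix.sub_apply, map_sub, sub_eq_zero] at h1
  rw [mapMat_apply_apply, h1, Matrix.one_apply, Matrix.one_apply]
  split_ifs <;> simp

/-- The residual representation of `ofMat` is `ofMatRes` of the reduction. -/
def residualEquiv (r : GQ →* M2 A) (hr : IsAdicCts r) :
    ResidualGaloisRep.Equiv (ofMat r hr).residual
      (ofMatRes (mapMat (residue A) r) (finLevel_residue hr)) where
  toLinearEquiv := piEquiv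
  map_apply σ x := piEquiv_baseChange (r σ) x

end Residual

section IsEquivLemmas

variable {A : Type} [CommRing A] [IsLocalRing A] {k : Type} [Field k]

lemma isEquiv_refl (ρ : GaloisRepAdic A) : ρ.IsEquiv ρ := ⟨GaloisRepAdic.Equiv.refl ρ⟩

lemma isEquiv_symm {ρ₁ ρ₂ : GaloisRepAdic A} (h : ρ₁.IsEquiv ρ₂) : ρ₂.IsEquiv ρ₁ :=
  h.elim fun e => ⟨e.symm⟩

lemma isEquiv_trans {ρ₁ ρ₂ ρ₃ : GaloisRepAdic A} (h : ρ₁.IsEquiv ρ₂) (h' : ρ₂.IsEquiv ρ₃) :
    ρ₁.IsEquiv ρ₃ :=
  h.elim fun e => h'.elim fun e' => ⟨e.trans e'⟩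

lemma isEquiv_baseChangeAlong {B : Type} [CommRing B] [IsLocalRing B] (φ : A →+* B)
    (hφ : IsLocalHom φ) {ρ₁ ρ₂ : GaloisRepAdic A} (h : ρ₁.IsEquiv ρ₂) :
    (ρ₁.baseChangeAlong φ hφ).IsEquiv (ρ₂.baseChangeAlong φ hφ) :=
  h.elim fun e => ⟨e.baseChangeAlong φ hφ⟩

lemma isEquiv_residual {ρ₁ ρ₂ : GaloisRepAdic A} (h : ρ₁.IsEquiv ρ₂) :
    ρ₁.residual.IsEquiv ρ₂.residual :=
  h.elim fun e => ⟨e.residual⟩

lemma resIsEquiv_refl (ρ : ResidualGaloisRep k) : ρ.IsEquiv ρ := ⟨ResidualGaloisRep.Equiv.refl ρ⟩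

lemma resIsEquiv_symm {ρ₁ ρ₂ : ResidualGaloisRep k} (h : ρ₁.IsEquiv ρ₂) : ρ₂.IsEquiv ρ₁ :=
  h.elim fun e => ⟨e.symm⟩

lemma resIsEquiv_trans {ρ₁ ρ₂ ρ₃ : ResidualGaloisRep k} (h : ρ₁.IsEquiv ρ₂)
    (h' : ρ₂.IsEquiv ρ₃) : ρ₁.IsEquiv ρ₃ :=
  h.elim fun e => h'.elim fun e' => ⟨e.trans e'⟩

lemma resIsEquiv_baseChangeAlong {k' : Type} [Field k'] (ψ : k →+* k')
    {ρ₁ ρ₂ : ResidualGaloisRep k} (h : ρ₁.IsEquiv ρ₂) :
    (ρ₁.baseChangeAlong ψ).IsEquiv (ρ₂.baseChangeAlong ψ) :=
  h.elim fun e => ⟨e.baseChangeAlong ψ⟩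

end IsEquivLemmas

section Lifting

variable {A : Type} [CommRing A] [IsLocalRing A] {k : Type} [Field k]

/-- Entrywise lift of a matrix over the residue field. -/
lemma exists_map_residue_eq (N : M2 (ResidueField A)) : ∃ M : M2 A, M.map (residue A) = N := by
  choose f hf using fun i j => residue_surjective (R := A) (N i j)
  exact ⟨Matrix.of f, by ext i j; exact hf i j⟩

lemma isUnit_det_of_map_residue {M : M2 A} (h : IsUnit (M.map (residue A)).det) :
    IsUnit M.det := by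
  have h1 : (M.map (residue A)).det = residue A M.det := (RingHom.map_det (residue A) M).symm
  rw [h1] at h
  exact isUnit_of_map_unit (residue A) _ h

theorem ofMat_residual_isEquiv (r : GQ →* M2 A) (hr : IsAdicCts r) :
    (ofMat r hr).residual.IsEquiv (ofMatRes (mapMat (residue A) r) (finLevel_residue hr)) :=
  ⟨residualEquiv r hr⟩

theorem ofMatRes_baseChangeAlong_isEquiv {k' : Type} [Field k'] (ψ : k →+* k')
    (rbar : GQ →* M2 k) (h : GaloisFactorsThroughFiniteLevel rbar) :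
    ((ofMatRes rbar h).baseChangeAlong ψ).IsEquiv (ofMatRes (mapMat ψ rbar) (finLevel_mapMat h ψ)) :=
  ⟨baseChangeEquivRes ψ rbar h⟩

/-- A deformation of a matrix valued residual representation admits a matrix form reducing
exactly to the given residual matrices. -/
theorem exists_ofMat_isEquiv_of_residual (ρ : GaloisRepAdic A) (ψ : k →+* ResidueField A)
    (rbar : GQ →* M2 k) (h : GaloisFactorsThroughFiniteLevel rbar)
    (hres : ρ.residual.IsEquiv ((ofMatRes rbar h).baseChangeAlong ψ)) :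
    ∃ (r : GQ →* M2 A) (hr : IsAdicCts r), ρ.IsEquiv (ofMat r hr) ∧
      mapMat (residue A) r = mapMat ψ rbar := by
  obtain ⟨r₀, hr₀, e₀⟩ := exists_ofMat_isEquiv ρ
  have h1 : (ofMatRes (mapMat (residue A) r₀) (finLevel_residue hr₀)).IsEquiv
      (ofMatRes (mapMat ψ rbar) (finLevel_mapMat h ψ)) :=
    resIsEquiv_trans (resIsEquiv_symm (ofMat_residual_isEquiv r₀ hr₀))
      (resIsEquiv_trans (resIsEquiv_symm (isEquiv_residual e₀))
        (resIsEquiv_trans hres (ofMatRes_baseChangeAlong_isEquiv ψ rbar h)))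
  obtain ⟨N, hN, hNc⟩ := (ofMatRes_isEquiv_iff _ _).mp h1
  obtain ⟨M, rfl⟩ := exists_map_residue_eq N
  have hM : IsUnit M.det := isUnit_det_of_map_residue hN
  refine ⟨conjMat M hM r₀, hr₀.conj M hM, isEquiv_trans e₀ (ofMat_conjMat_isEquiv hr₀ M hM), ?_⟩
  ext σ : 1
  have h2 : M.map (residue A) * (r₀ σ).map (residue A) =
      (conjMat M hM r₀ σ).map (residue A) * M.map (residue A) := by
    rw [← Matrix.map_mul, ← Matrix.map_mul, conjMat_mul M hM r₀ σ]
  have h3 := hNc σ
  rw [mapMat_apply, mapMat_apply] at h3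
  rw [h3] at h2
  rw [mapMat_apply, mapMat_apply]
  have h4 := congrArg (· * (M.map (residue A))⁻¹) h2
  simp only [mul_assoc, Matrix.mul_nonsing_inv _ hN, mul_one] at h4
  exact h4.symm

end Lifting

section FinLevel

variable {A : Type} [CommRing A]

lemma finLevel_of_mapMat_injective {B : Type} [CommRing B] {φ : A →+* B}
    (hφ : Function.Injective φ) {r : GQ →* M2 A}
    (h : GaloisFactorsThroughFiniteLevel (mapMat φ r)) : GaloisFactorsThroughFiniteLevel r := by
  obtain ⟨L, hL, h1⟩ := h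
  refine ⟨L, hL, fun σ hσ => ?_⟩
  ext i j
  apply hφ
  have h2 := congrFun (congrFun (h1 σ hσ) i) j
  rw [mapMat_apply_apply] at h2
  rw [h2, Matrix.one_apply, Matrix.one_apply]
  split_ifs <;> simp

lemma finLevel_of_mapMat_pair {B C : Type} [CommRing B] [CommRing C] (pB : A →+* B)
    (pC : A →+* C) (hinj : ∀ x : A, pB x = 0 → pC x = 0 → x = 0) {r : GQ →* M2 A}
    (hB : GaloisFactorsThroughFiniteLevel (mapMat pB r))
    (hC : GaloisFactorsThroughFiniteLevel (mapMat pC r)) :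
    GaloisFactorsThroughFiniteLevel r := by
  obtain ⟨L, hL, h1⟩ := hB
  obtain ⟨L', hL', h1'⟩ := hC
  refine ⟨L ⊔ L', IntermediateField.finiteDimensional_sup L L', fun σ hσ => ?_⟩
  have hσL : ∀ x ∈ L, σ x = x := fun x hx => hσ x ((le_sup_left : L ≤ L ⊔ L') hx)
  have hσL' : ∀ x ∈ L', σ x = x := fun x hx => hσ x ((le_sup_right : L' ≤ L ⊔ L') hx)
  ext i j
  have h2 := congrFun (congrFun (h1 σ hσL) i) j
  have h2' := congrFun (congrFun (h1' σ hσL') i) j
  rw [mapMat_apply_apply] at h2 h2'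
  rw [← sub_eq_zero]
  apply hinj
  · rw [map_sub, h2, Matrix.one_apply, Matrix.one_apply]; split_ifs <;> simp
  · rw [map_sub, h2', Matrix.one_apply, Matrix.one_apply]; split_ifs <;> simp

lemma finLevel_mapMat' {B : Type} [CommRing B] {r : GQ →* M2 A}
    (h : GaloisFactorsThroughFiniteLevel r) (φ : A →+* B) :
    GaloisFactorsThroughFiniteLevel (mapMat φ r) := by
  obtain ⟨L, hL, h1⟩ := h
  refine ⟨L, hL, fun σ hσ => ?_⟩
  rw [mapMat_apply, h1 σ hσ]
  exact (RingHom.mapMatrix φ).map_one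

variable [IsLocalRing A]

lemma isAdicCts_of_finLevel {r : GQ →* M2 A} (h : GaloisFactorsThroughFiniteLevel r) :
    IsAdicCts r := by
  intro n
  obtain ⟨L, hL, h1⟩ := h
  refine ⟨L, hL, fun σ hσ i j => ?_⟩
  rw [h1 σ hσ, sub_self]
  exact Ideal.zero_mem _

lemma IsAdicCts.finLevel_of_pow_eq_bot {r : GQ →* M2 A} (hr : IsAdicCts r) {n : ℕ}
    (hn : maximalIdeal A ^ n = ⊥) : GaloisFactorsThroughFiniteLevel r := by
  obtain ⟨L, hL, h⟩ := hr n
  refine ⟨L, hL, fun σ hσ => ?_⟩
  ext i j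
  have h1 := h σ hσ i j
  rw [hn, Ideal.mem_bot, Matrix.sub_apply, sub_eq_zero] at h1
  exact h1

lemma isAdicCts_iff_forall_quotient (r : GQ →* M2 A) :
    IsAdicCts r ↔ ∀ n : ℕ, GaloisFactorsThroughFiniteLevel
      (mapMat (Ideal.Quotient.mk (maximalIdeal A ^ n)) r) := by
  constructor
  · intro hr n
    obtain ⟨L, hL, h⟩ := hr n
    refine ⟨L, hL, fun σ hσ => ?_⟩
    ext i j
    have h1 := h σ hσ i j
    rw [Matrix.sub_apply, ← Ideal.Quotient.eq] at h1
    rw [mapMat_apply_apply, h1, Matrix.one_apply, Matrix.one_apply]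
    split_ifs <;> simp
  · intro h n
    obtain ⟨L, hL, h1⟩ := h n
    refine ⟨L, hL, fun σ hσ i j => ?_⟩
    have h2 := congrFun (congrFun (h1 σ hσ) i) j
    rw [mapMat_apply_apply] at h2
    rw [Matrix.sub_apply, ← Ideal.Quotient.eq, h2, Matrix.one_apply, Matrix.one_apply]
    split_ifs <;> simp

end FinLevel

section OfResidual

variable {k : Type} [Field k]

theorem ofResidualGaloisRep_ofMatRes (rbar : GQ →* M2 k)
    (h : GaloisFactorsThroughFiniteLevel rbar) :
    GaloisRepAdic.ofResidualGaloisRep (ofMatRes rbar h) = ofMat rbar (isAdicCts_of_finLevel h) :=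
  rfl

variable {A : Type} [CommRing A] [IsLocalRing A]

theorem ofMat_residual_isEquiv_of_map_eq {r : GQ →* M2 A} (hr : IsAdicCts r)
    (ψ : k →+* ResidueField A) (rbar : GQ →* M2 k) (h : GaloisFactorsThroughFiniteLevel rbar)
    (hmap : mapMat (residue A) r = mapMat ψ rbar) :
    (ofMat r hr).residual.IsEquiv ((ofMatRes rbar h).baseChangeAlong ψ) := by
  refine resIsEquiv_trans (ofMat_residual_isEquiv r hr)
    (resIsEquiv_symm (resIsEquiv_trans (ofMatRes_baseChangeAlong_isEquiv ψ rbar h) ?_))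
  have : ∀ (r₁ r₂ : GQ →* M2 (ResidueField A)) (h₁ : GaloisFactorsThroughFiniteLevel r₁)
      (h₂ : GaloisFactorsThroughFiniteLevel r₂), r₁ = r₂ →
      (ofMatRes r₁ h₁).IsEquiv (ofMatRes r₂ h₂) := by
    rintro r₁ _ h₁ h₂ rfl
    exact resIsEquiv_refl _
  exact this _ _ _ _ hmap.symm

/-- The deformation condition "reduces to `ρbar`" only depends on `ρbar` up to equivalence. -/
theorem residual_isEquiv_congr {ρbar ρbar' : ResidualGaloisRep k} (hb : ρbar.IsEquiv ρbar')
    (ρ : GaloisRepAdic A) (ψ : k →+* ResidueField A) :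
    ρ.residual.IsEquiv (ρbar.baseChangeAlong ψ) ↔ ρ.residual.IsEquiv (ρbar'.baseChangeAlong ψ) :=
  ⟨fun h => resIsEquiv_trans h (resIsEquiv_baseChangeAlong ψ hb),
    fun h => resIsEquiv_trans h (resIsEquiv_baseChangeAlong ψ (resIsEquiv_symm hb))⟩

end OfResidual

end Fermat.Agent.S53

end
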