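import Fermat.Agent.S53.Schur
import Fermat.Agent.S53.MatrixRep

set_option autoImplicit false

namespace Fermat.Agent.S53

open IsLocalRing

section SchurMat

/-- the matrix span statement is equivalent to the `End` span statement for `matAction`. -/
theorem matAction_span_eq_top_iff {A : Type} [CommRing A] (r : GQ →* M2 A) :
    Submodule.span A (Set.range (matAction r)) = ⊤ ↔ Submodule.span A (Set.range r) = ⊤ := by
  rw [← Schur.span_range_toMatrix_eq_top_iff (Pi.basisFun A (Fin 2)) (fun σ => matAction r σ)]
  have : (fun σ => LinearMap.toMatrix (Pi.basisFun A (Fin 2)) (Pi.basisFun A (Fin 2))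
      (matAction r σ)) = fun σ => r σ := by
    funext σ
    rw [LinearMap.toMatrix_eq_toMatrix']
    exact LinearMap.toMatrix'_toLin' (r σ)
  rw [this]

/-- Burnside in matrix form: the matrix form of an absolutely irreducible residual
representation spans the full matrix algebra. -/
theorem mat_span_eq_top {k : Type} [Field k] (ρbar : ResidualGaloisRep k)
    (habs : ρbar.IsAbsolutelyIrreducible) (rbar : GQ →* M2 k)
    (h : GaloisFactorsThroughFiniteLevel rbar) (he : ρbar.IsEquiv (ofMatRes rbar h)) :
    Submodule.span k (Set.range rbar) = ⊤ := by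
  obtain ⟨e⟩ := he
  have h1 : Submodule.span k (Set.range (ofMatRes rbar h).ρ) = ⊤ :=
    Schur.residual_span_eq_top_of_equiv e.symm (Schur.residual_span_eq_top ρbar habs)
  exact (matAction_span_eq_top_iff rbar).1 h1

/-- spanning is preserved by `mapMat`. -/
theorem mat_span_eq_top_mapMat {A B : Type} [CommRing A] [CommRing B] (φ : A →+* B)
    (r : GQ →* M2 A) (h : Submodule.span A (Set.range r) = ⊤) :
    Submodule.span B (Set.range (mapMat φ r)) = ⊤ :=
  Schur.matrix_span_map_eq_top φ (fun σ => r σ) h

/-- Nakayama: if the reduction of `r` spans, then `r` spans. -/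
theorem mat_span_eq_top_of_residue {A : Type} [CommRing A] [IsLocalRing A] (r : GQ →* M2 A)
    (h : Submodule.span (ResidueField A) (Set.range (mapMat (residue A) r)) = ⊤) :
    Submodule.span A (Set.range r) = ⊤ :=
  Schur.matrix_span_eq_top_of_map_residue (fun σ => r σ) h

/-- Schur in matrix form from spanning. -/
theorem mat_schur_of_span {A : Type} [CommRing A] (r : GQ →* M2 A)
    (h : Submodule.span A (Set.range r) = ⊤) (X : M2 A) (hX : ∀ g, X * r g = r g * X) :
    ∃ x : A, X = x • 1 := by
  obtain ⟨x, hx⟩ := Schur.matrix_scalar_of_commute_span (fun σ => r σ) h X hX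
  refine ⟨x, ?_⟩
  rw [hx]
  ext i j
  simp [Matrix.scalar_apply, Matrix.diagonal_apply, Matrix.one_apply]

/-- spanning implies that no coordinate line is stable: some `r g` has a nonzero `(1,0)` entry.
More generally every entry functional is nonzero on the image. -/
theorem exists_entry_ne_zero_of_span {A : Type} [CommRing A] [Nontrivial A] (r : GQ →* M2 A)
    (h : Submodule.span A (Set.range r) = ⊤) (i j : Fin 2) : ∃ g, r g i j ≠ 0 := by
  by_contra hcon
  push Not at hcon
  have hle : Submodule.span A (Set.range r) ≤ LinearMap.ker (Matrix.entryLinearMap A A i j) := by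
    rw [Submodule.span_le]
    rintro _ ⟨g, rfl⟩
    exact hcon g
  rw [h, top_le_iff, LinearMap.ker_eq_top] at hle
  have := congrArg (fun f : M2 A →ₗ[A] A => f (Matrix.single i j 1)) hle
  simp at this

/-- Over a local ring, spanning gives an element whose `(i,j)` entry is a unit. -/
theorem exists_entry_isUnit_of_span {A : Type} [CommRing A] [IsLocalRing A] (r : GQ →* M2 A)
    (h : Submodule.span A (Set.range r) = ⊤) (i j : Fin 2) : ∃ g, IsUnit (r g i j) := by
  have h1 := mat_span_eq_top_mapMat (residue A) r h
  obtain ⟨g, hg⟩ := exists_entry_ne_zero_of_span (mapMat (residue A) r) h1 i j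
  refine ⟨g, ?_⟩
  rw [mapMat_apply_apply] at hg
  by_contra hu
  exact hg ((residue_eq_zero_iff _).2 ((mem_maximalIdeal _).2 hu))

/-- A lift of a spanning residual matrix representation spans. -/
theorem mat_span_eq_top_of_lift {k A : Type} [Field k] [CommRing A] [IsLocalRing A]
    (rbar : GQ →* M2 k) (hspan : Submodule.span k (Set.range rbar) = ⊤)
    (ψ : k →+* ResidueField A) (r : GQ →* M2 A) (hr : mapMat (residue A) r = mapMat ψ rbar) :
    Submodule.span A (Set.range r) = ⊤ := by
  apply mat_span_eq_top_of_residue
  rw [hr]
  exact mat_span_eq_top_mapMat ψ rbar hspan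

/-- Schur over the residue field of `A` for the reduction of a lift of a spanning residual
matrix representation (the hypothesis `hschur` of `rep_slice_unique`). -/
theorem residue_schur_of_lift {k A : Type} [Field k] [CommRing A] [IsLocalRing A]
    (rbar : GQ →* M2 k) (hspan : Submodule.span k (Set.range rbar) = ⊤)
    (ψ : k →+* ResidueField A) (r : GQ →* M2 A) (hr : mapMat (residue A) r = mapMat ψ rbar)
    (X : M2 (ResidueField A))
    (hX : ∀ g, X * (residue A).mapMatrix (r g) = (residue A).mapMatrix (r g) * X) :
    ∃ x : ResidueField A, X = x • 1 := by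
  have h1 : Submodule.span (ResidueField A) (Set.range (mapMat (residue A) r)) = ⊤ := by
    rw [hr]
    exact mat_span_eq_top_mapMat ψ rbar hspan
  exact mat_schur_of_span (mapMat (residue A) r) h1 X hX

/-- Schur over `A` itself for a lift of a spanning residual matrix representation. -/
theorem schur_of_lift {k A : Type} [Field k] [CommRing A] [IsLocalRing A]
    (rbar : GQ →* M2 k) (hspan : Submodule.span k (Set.range rbar) = ⊤)
    (ψ : k →+* ResidueField A) (r : GQ →* M2 A) (hr : mapMat (residue A) r = mapMat ψ rbar)
    (X : M2 A) (hX : ∀ g, X * r g = r g * X) : ∃ x : A, X = x • 1 :=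
  mat_schur_of_span r (mat_span_eq_top_of_lift rbar hspan ψ r hr) X hX

end SchurMat

end Fermat.Agent.S53
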