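import Mathlib

set_option autoImplicit false

namespace Fermat.Agent.S53

open IsLocalRing Matrix

variable {A : Type*} [CommRing A]

/-- Slice normalisation: `N e₁ = e₂` and one pinned entry of `M`. -/
def IsSliced (N M : Matrix (Fin 2) (Fin 2) A) (i j : Fin 2) (c : A) : Prop :=
  N 0 0 = 0 ∧ N 1 0 = 1 ∧ M i j = c

theorem eq_add_smul_of_comm_companion (N' Q N : Matrix (Fin 2) (Fin 2) A)
    (h0 : N 0 0 = 0) (h1 : N 1 0 = 1) (h0' : N' 0 0 = 0) (h1' : N' 1 0 = 1)
    (hQN : Q * N = N' * Q) :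
    Q = Q 0 0 • (1 : Matrix (Fin 2) (Fin 2) A) + Q 1 0 • N' := by
  have e00 := congr_fun (congr_fun hQN 0) 0
  have e10 := congr_fun (congr_fun hQN 1) 0
  simp [Matrix.mul_apply, Fin.sum_univ_two, h0, h1, h0', h1'] at e00 e10
  ext a b
  fin_cases a <;> fin_cases b <;> simp [h0', h1', e00, e10]
  all_goals ring

theorem adjugate_add_smul (x y : A) (N : Matrix (Fin 2) (Fin 2) A) :
    adjugate (x • (1 : Matrix (Fin 2) (Fin 2) A) + y • N) =
      x • (1 : Matrix (Fin 2) (Fin 2) A) + y • adjugate N := by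
  ext a b
  fin_cases a <;> fin_cases b <;> simp [Matrix.adjugate_fin_two]

theorem slice_unique [IsLocalRing A] (N M N' M' : Matrix (Fin 2) (Fin 2) A) (i j : Fin 2) (c : A)
    (h : IsSliced N M i j c) (h' : IsSliced N' M' i j c)
    (hu : IsUnit ((M * N - N * M) i j))
    (Q : Matrix (Fin 2) (Fin 2) A) (hQ : IsUnit Q.det)
    (hQN : Q * N = N' * Q) (hQM : Q * M = M' * Q)
    (hQ10 : Q 1 0 ∈ maximalIdeal A) :
    ∃ x : A, IsUnit x ∧ Q = x • (1 : Matrix (Fin 2) (Fin 2) A) := by
  obtain ⟨h0, h1, hc⟩ := h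
  obtain ⟨h0', h1', hc'⟩ := h'
  set x := Q 0 0 with hx
  set y := Q 1 0 with hy
  have hQeq : Q = x • (1 : Matrix (Fin 2) (Fin 2) A) + y • N' :=
    eq_add_smul_of_comm_companion N' Q N h0 h1 h0' h1' hQN
  -- `Q` commutes with `N'`, hence `N = N'`
  have hcomm : N' * Q = Q * N' := by
    rw [hQeq]; simp [mul_add, add_mul]
  have hQinv : IsUnit Q := (Matrix.isUnit_iff_isUnit_det Q).mpr hQ
  have hNN' : N = N' := by
    have : Q * N = Q * N' := by rw [hQN, hcomm]
    exact hQinv.mul_left_cancel this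
  subst hNN'
  -- `x` is a unit
  have hxu : IsUnit x := by
    have hdet : Q.det = Q 0 0 * Q 1 1 - Q 0 1 * Q 1 0 := Matrix.det_fin_two Q
    have h1 : IsUnit (Q 0 0 * Q 1 1) := by
      have hmem : Q 0 1 * Q 1 0 ∈ maximalIdeal A := Ideal.mul_mem_left _ _ hQ10
      have : Q 0 0 * Q 1 1 = Q.det + Q 0 1 * Q 1 0 := by rw [hdet]; ring
      rw [this]
      by_contra hnu
      have hm : Q.det + Q 0 1 * Q 1 0 ∈ maximalIdeal A := (mem_maximalIdeal _).mpr hnu
      have : Q.det ∈ maximalIdeal A := by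
        have := Ideal.sub_mem _ hm hmem
        simpa using this
      exact ((mem_maximalIdeal _).mp this) hQ
    exact isUnit_of_mul_isUnit_left h1
  -- the difference `D = M' - M`
  have hD : (M' - M) * Q = -(y • (M * N - N * M)) := by
    have e1 : Q * M = x • M + y • (N * M) := by
      rw [hQeq]; simp [add_mul]
    have e2 : M' * Q = x • M' + y • (M' * N) := by
      rw [hQeq]; simp [mul_add]
    have e3 : (M' - M) * Q = x • (M' - M) + y • ((M' - M) * N) := by
      rw [hQeq]; simp [mul_add]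
    rw [e3]
    have : x • M + y • (N * M) = x • M' + y • (M' * N) := by rw [← e1, ← e2, hQM]
    have h4 : x • (M' - M) = y • (N * M) - y • (M' * N) := by
      rw [smul_sub, sub_eq_sub_iff_add_eq_add, ← this, add_comm]
    rw [h4, sub_mul, smul_sub, smul_sub]
    abel
  have hD2 : Q.det • (M' - M) = -(y • ((M * N - N * M) * adjugate Q)) := by
    have := congrArg (· * adjugate Q) hD
    simp only [mul_assoc, Matrix.mul_adjugate] at this
    rw [Matrix.mul_smul, mul_one] at this
    rw [this]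
    simp
  have hadj : adjugate Q = x • (1 : Matrix (Fin 2) (Fin 2) A) + y • adjugate N := by
    conv_lhs => rw [hQeq]
    exact adjugate_add_smul x y N
  have hentry := congr_fun (congr_fun hD2 i) j
  simp only [Matrix.smul_apply, Matrix.sub_apply, Matrix.neg_apply, hc, hc', sub_self,
    smul_eq_mul, mul_zero] at hentry
  -- the `(i,j)` entry of `(M N - N M) * adjugate Q` is a unit
  have hunit : IsUnit (((M * N - N * M) * adjugate Q) i j) := by
    rw [hadj, mul_add, Matrix.mul_smul, Matrix.mul_smul, mul_one]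
    simp only [Matrix.add_apply, Matrix.smul_apply, smul_eq_mul]
    have h1 : IsUnit (x * (M * N - N * M) i j) := hxu.mul hu
    have h2 : y * ((M * N - N * M) * adjugate N) i j ∈ maximalIdeal A :=
      Ideal.mul_mem_right _ _ hQ10
    by_contra hnu
    have hm := (mem_maximalIdeal _).mpr hnu
    have := Ideal.sub_mem _ hm h2
    rw [add_sub_cancel_right] at this
    exact ((mem_maximalIdeal _).mp this) h1
  have hy0 : y = 0 := by
    have : y * ((M * N - N * M) * adjugate Q) i j = 0 := by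
      have := hentry
      rw [eq_comm, neg_eq_zero] at this
      exact this
    exact (hunit.mul_left_eq_zero).mp this
  refine ⟨x, hxu, ?_⟩
  rw [hQeq, hy0]
  simp


/-! ### Existence of the sliced representative -/

/-- all entries of a matrix lie in an ideal -/
def EntriesIn (I : Ideal A) (X : Matrix (Fin 2) (Fin 2) A) : Prop := ∀ a b, X a b ∈ I

theorem EntriesIn.add {I : Ideal A} {X Y : Matrix (Fin 2) (Fin 2) A}
    (hX : EntriesIn I X) (hY : EntriesIn I Y) : EntriesIn I (X + Y) :=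
  fun a b => I.add_mem (hX a b) (hY a b)

theorem EntriesIn.sub {I : Ideal A} {X Y : Matrix (Fin 2) (Fin 2) A}
    (hX : EntriesIn I X) (hY : EntriesIn I Y) : EntriesIn I (X - Y) :=
  fun a b => I.sub_mem (hX a b) (hY a b)

theorem EntriesIn.mul_left {I : Ideal A} {X : Matrix (Fin 2) (Fin 2) A}
    (hX : EntriesIn I X) (Y : Matrix (Fin 2) (Fin 2) A) : EntriesIn I (Y * X) := by
  intro a b
  rw [Matrix.mul_apply]
  exact I.sum_mem fun k _ => I.mul_mem_left _ (hX k b)

theorem EntriesIn.mul_right {I : Ideal A} {X : Matrix (Fin 2) (Fin 2) A}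
    (hX : EntriesIn I X) (Y : Matrix (Fin 2) (Fin 2) A) : EntriesIn I (X * Y) := by
  intro a b
  rw [Matrix.mul_apply]
  exact I.sum_mem fun k _ => I.mul_mem_right _ (hX a k)

theorem EntriesIn.smul {I : Ideal A} {y : A} (hy : y ∈ I) (X : Matrix (Fin 2) (Fin 2) A) :
    EntriesIn I (y • X) := by
  intro a b
  rw [Matrix.smul_apply, smul_eq_mul]
  exact I.mul_mem_right _ hy

/-- conjugating by a matrix congruent to `1` does not change entries modulo the ideal -/
theorem entriesIn_conj_sub {I : Ideal A} (P : Matrix (Fin 2) (Fin 2) A) (hP : IsUnit P.det)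
    (hP1 : EntriesIn I (P - 1)) (X : Matrix (Fin 2) (Fin 2) A) :
    EntriesIn I (P⁻¹ * X * P - X) := by
  have h : P⁻¹ * X * P - X = P⁻¹ * (X * (P - 1) - (P - 1) * X) := by
    have h1 : P⁻¹ * P = 1 := Matrix.nonsing_inv_mul P hP
    rw [mul_sub, mul_sub, sub_mul, mul_one, one_mul, mul_sub, mul_sub]
    rw [← mul_assoc P⁻¹ P X, h1, one_mul, mul_assoc]
    abel
  rw [h]
  exact ((hP1.mul_left X).sub (hP1.mul_right X)).mul_left _

theorem isUnit_of_sub_mem [IsLocalRing A] {u v : A} (hu : IsUnit u)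
    (h : v - u ∈ maximalIdeal A) : IsUnit v := by
  by_contra hnu
  have hm : v ∈ maximalIdeal A := (mem_maximalIdeal _).mpr hnu
  have : u ∈ maximalIdeal A := by
    have := Ideal.sub_mem _ hm h
    simpa using this
  exact ((mem_maximalIdeal _).mp this) hu


/-- Hensel for a (possibly non-monic) quadratic with unit linear coefficient and constant term
in the maximal ideal. -/
theorem exists_root_quadratic [IsLocalRing A] [IsAdicComplete (maximalIdeal A) A]
    (α β γ : A) (hα : α ∈ maximalIdeal A) (hβ : IsUnit β) :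
    ∃ y ∈ maximalIdeal A, α + β * y + γ * y ^ 2 = 0 := by
  classical
  have hH : HenselianRing A (maximalIdeal A) := inferInstance
  let f : Polynomial A := Polynomial.X ^ 2 + Polynomial.C β * Polynomial.X + Polynomial.C (α * γ)
  have hfm : f.Monic := by
    have h1 : (Polynomial.C β * Polynomial.X + Polynomial.C (α * γ)).degree < 2 := by
      refine lt_of_le_of_lt (Polynomial.degree_add_le _ _) ?_
      refine max_lt ?_ ?_
      · refine lt_of_le_of_lt (Polynomial.degree_C_mul_X_le β) ?_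
        norm_num
      · refine lt_of_le_of_lt Polynomial.degree_C_le ?_
        norm_num
    have : f = Polynomial.X ^ 2 + (Polynomial.C β * Polynomial.X + Polynomial.C (α * γ)) := by
      simp only [f]; ring
    rw [this]
    exact Polynomial.monic_X_pow_add h1
  have hf0 : f.eval 0 ∈ maximalIdeal A := by
    simp only [f, Polynomial.eval_add, Polynomial.eval_pow, Polynomial.eval_X, Polynomial.eval_mul,
      Polynomial.eval_C]
    simp only [ne_eq, OfNat.ofNat_ne_zero, not_false_eq_true, zero_pow, mul_zero, add_zero,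
      zero_add]
    exact Ideal.mul_mem_right _ _ hα
  have hf' : IsUnit (Ideal.Quotient.mk (maximalIdeal A) (f.derivative.eval 0)) := by
    have : f.derivative.eval 0 = β := by
      simp [f, Polynomial.derivative_pow]
    rw [this]
    exact hβ.map _
  obtain ⟨z, hz, hz0⟩ := hH.is_henselian f hfm 0 hf0 hf'
  rw [sub_zero] at hz0
  have hzroot : z ^ 2 + β * z + α * γ = 0 := by
    have := hz
    simp only [Polynomial.IsRoot, f, Polynomial.eval_add, Polynomial.eval_pow, Polynomial.eval_X,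
      Polynomial.eval_mul, Polynomial.eval_C] at this
    exact this
  have hu : IsUnit (β + z) := isUnit_of_sub_mem hβ (by simpa using hz0)
  obtain ⟨u, hu'⟩ := hu
  refine ⟨-α * ↑u⁻¹, Ideal.mul_mem_right _ _ (by simpa using hα), ?_⟩
  have hy1 : (β + z) * (-α * ↑u⁻¹) = -α := by
    rw [← hu']
    have : (u : A) * (-α * ↑u⁻¹) = -α * ((u : A) * ↑u⁻¹) := by ring
    rw [this, Units.mul_inv, mul_one]
  have hy2 : z = γ * (-α * ↑u⁻¹) := by
    have h3 : (β + z) * (z - γ * (-α * ↑u⁻¹)) = 0 := by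
      have : (β + z) * (z - γ * (-α * ↑u⁻¹)) = (z ^ 2 + β * z) - γ * ((β + z) * (-α * ↑u⁻¹)) := by
        ring
      rw [this, hy1]
      linear_combination hzroot
    have h4 : IsUnit (β + z) := ⟨u, hu'⟩
    have := (h4.mul_right_eq_zero).mp h3
    exact sub_eq_zero.mp this
  have : α + β * (-α * ↑u⁻¹) + γ * (-α * ↑u⁻¹) ^ 2
      = α + (β + γ * (-α * ↑u⁻¹)) * (-α * ↑u⁻¹) := by ring
  rw [this, ← hy2, hy1]
  ring


theorem quad_identity (N M : Matrix (Fin 2) (Fin 2) A) (i j : Fin 2) (c y : A) :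
    ((1 + y • adjugate N) * M * (1 + y • N)) i j - c * (1 + y • N).det =
      (M i j - c) + ((M * N - N * M) i j + N.trace * (M i j - c)) * y +
        ((adjugate N * M * N) i j - c * N.det) * y ^ 2 := by
  fin_cases i <;> fin_cases j <;>
    simp [Matrix.mul_apply, Fin.sum_univ_two, Matrix.adjugate_fin_two, Matrix.det_fin_two,
      Matrix.trace_fin_two, Matrix.add_apply, Matrix.one_apply, Matrix.vecMul, dotProduct] <;>
    ring

/-- Step 1: conjugate so that `N e₁ = e₂`. -/
theorem slice_step_one [IsLocalRing A] (N : Matrix (Fin 2) (Fin 2) A)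
    (hN0 : N 0 0 ∈ maximalIdeal A) (hN1 : N 1 0 - 1 ∈ maximalIdeal A) :
    ∃ P : Matrix (Fin 2) (Fin 2) A, IsUnit P.det ∧ EntriesIn (maximalIdeal A) (P - 1) ∧
      (P⁻¹ * N * P) 0 0 = 0 ∧ (P⁻¹ * N * P) 1 0 = 1 := by
  refine ⟨!![1, N 0 0; 0, N 1 0], ?_, ?_, ?_⟩
  · rw [Matrix.det_fin_two_of]
    simp only [one_mul, mul_zero, sub_zero]
    exact isUnit_of_sub_mem isUnit_one hN1
  · intro a b
    fin_cases a <;> fin_cases b <;> simp [hN0, hN1]
  · set P : Matrix (Fin 2) (Fin 2) A := !![1, N 0 0; 0, N 1 0] with hPdef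
    have hdet : IsUnit P.det := by
      rw [hPdef, Matrix.det_fin_two_of]
      simp only [one_mul, mul_zero, sub_zero]
      exact isUnit_of_sub_mem isUnit_one hN1
    have hinv : P⁻¹ * P = 1 := Matrix.nonsing_inv_mul P hdet
    -- first column of `N * P` is the second column of `P`
    have hcol : ∀ k, (N * P) k 0 = P k 1 := by
      intro k
      fin_cases k <;> simp [hPdef, Matrix.mul_apply, Fin.sum_univ_two]
    have hkey : ∀ k, (P⁻¹ * N * P) k 0 = (1 : Matrix (Fin 2) (Fin 2) A) k 1 := by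
      intro k
      rw [mul_assoc, Matrix.mul_apply, ← hinv, Matrix.mul_apply]
      exact Finset.sum_congr rfl fun l _ => by rw [hcol l]
    exact ⟨by simpa using hkey 0, by simpa using hkey 1⟩

/-- Step 2: with `N e₁ = e₂`, conjugate by `1 + y N` to pin the `(i,j)` entry of `M`. -/
theorem slice_step_two [IsLocalRing A] [IsAdicComplete (maximalIdeal A) A]
    (N M : Matrix (Fin 2) (Fin 2) A) (i j : Fin 2) (c : A)
    (hu : IsUnit ((M * N - N * M) i j)) (hc : M i j - c ∈ maximalIdeal A) :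
    ∃ P : Matrix (Fin 2) (Fin 2) A, IsUnit P.det ∧ EntriesIn (maximalIdeal A) (P - 1) ∧
      P⁻¹ * N * P = N ∧ (P⁻¹ * M * P) i j = c := by
  have hβ : IsUnit ((M * N - N * M) i j + N.trace * (M i j - c)) :=
    isUnit_of_sub_mem hu (by simpa using Ideal.mul_mem_left _ _ hc)
  obtain ⟨y, hy, hroot⟩ := exists_root_quadratic (M i j - c)
    ((M * N - N * M) i j + N.trace * (M i j - c)) ((adjugate N * M * N) i j - c * N.det) hc hβ
  set P : Matrix (Fin 2) (Fin 2) A := 1 + y • N with hPdef
  have hdetval : P.det = 1 + y * N.trace + y ^ 2 * N.det := by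
    rw [hPdef, Matrix.det_fin_two, Matrix.det_fin_two, Matrix.trace_fin_two]
    simp [Matrix.add_apply]
    ring
  have hdet : IsUnit P.det := by
    refine isUnit_of_sub_mem isUnit_one ?_
    rw [hdetval]
    have : 1 + y * N.trace + y ^ 2 * N.det - 1 = y * (N.trace + y * N.det) := by ring
    rw [this]
    exact Ideal.mul_mem_right _ _ hy
  have hadj : adjugate P = 1 + y • adjugate N := by
    have := adjugate_add_smul (1 : A) y N
    simpa [hPdef] using this
  have hcomm : N * P = P * N := by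
    rw [hPdef]; simp [mul_add, add_mul]
  have hmulinv : P * P⁻¹ = 1 := Matrix.mul_nonsing_inv P hdet
  have hinvmul : P⁻¹ * P = 1 := Matrix.nonsing_inv_mul P hdet
  refine ⟨P, hdet, ?_, ?_, ?_⟩
  · have : P - 1 = y • N := by rw [hPdef]; abel
    rw [this]
    exact EntriesIn.smul hy N
  · rw [mul_assoc, hcomm, ← mul_assoc, hinvmul, one_mul]
  · have hq := quad_identity N M i j c y
    rw [← hadj, ← hPdef] at hq
    have hzero : (adjugate P * M * P) i j - c * P.det = 0 := by
      rw [hq]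
      linear_combination hroot
    have hval : (adjugate P * M * P) i j = c * P.det := sub_eq_zero.mp hzero
    rw [Matrix.inv_def, Matrix.smul_mul, Matrix.smul_mul, Matrix.smul_apply, hval, smul_eq_mul]
    rw [mul_comm c, ← mul_assoc, Ring.inverse_mul_cancel _ hdet, one_mul]

theorem slice_exists [IsLocalRing A] [IsAdicComplete (maximalIdeal A) A]
    (N M : Matrix (Fin 2) (Fin 2) A) (i j : Fin 2) (c : A)
    (hN0 : N 0 0 ∈ maximalIdeal A) (hN1 : N 1 0 - 1 ∈ maximalIdeal A)
    (hu : IsUnit ((M * N - N * M) i j)) (hc : M i j - c ∈ maximalIdeal A) :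
    ∃ P : Matrix (Fin 2) (Fin 2) A, IsUnit P.det ∧ (∀ a b, (P - 1) a b ∈ maximalIdeal A) ∧
      IsSliced (P⁻¹ * N * P) (P⁻¹ * M * P) i j c := by
  obtain ⟨P1, hP1det, hP1one, h00, h10⟩ := slice_step_one N hN0 hN1
  set N1 := P1⁻¹ * N * P1 with hN1def
  set M1 := P1⁻¹ * M * P1 with hM1def
  have hP1inv : P1 * P1⁻¹ = 1 := Matrix.mul_nonsing_inv P1 hP1det
  have hcommutator : M1 * N1 - N1 * M1 = P1⁻¹ * (M * N - N * M) * P1 := by
    rw [hN1def, hM1def]
    have e1 : P1⁻¹ * M * P1 * (P1⁻¹ * N * P1) = P1⁻¹ * (M * N) * P1 := by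
      calc P1⁻¹ * M * P1 * (P1⁻¹ * N * P1) = P1⁻¹ * M * (P1 * P1⁻¹) * N * P1 := by
            simp only [mul_assoc]
        _ = P1⁻¹ * (M * N) * P1 := by rw [hP1inv, mul_one]; simp only [mul_assoc]
    have e2 : P1⁻¹ * N * P1 * (P1⁻¹ * M * P1) = P1⁻¹ * (N * M) * P1 := by
      calc P1⁻¹ * N * P1 * (P1⁻¹ * M * P1) = P1⁻¹ * N * (P1 * P1⁻¹) * M * P1 := by
            simp only [mul_assoc]
        _ = P1⁻¹ * (N * M) * P1 := by rw [hP1inv, mul_one]; simp only [mul_assoc]
    rw [e1, e2, mul_sub, sub_mul]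
  have hu1 : IsUnit ((M1 * N1 - N1 * M1) i j) := by
    rw [hcommutator]
    refine isUnit_of_sub_mem hu ?_
    have := entriesIn_conj_sub P1 hP1det hP1one (M * N - N * M) i j
    simpa using this
  have hc1 : M1 i j - c ∈ maximalIdeal A := by
    have h1 := entriesIn_conj_sub P1 hP1det hP1one M i j
    have : M1 i j - c = (P1⁻¹ * M * P1 - M) i j + (M i j - c) := by
      rw [hM1def, Matrix.sub_apply]; ring
    rw [this]
    exact Ideal.add_mem _ h1 hc
  obtain ⟨P2, hP2det, hP2one, hN2, hM2⟩ := slice_step_two N1 M1 i j c hu1 hc1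
  refine ⟨P1 * P2, ?_, ?_, ?_⟩
  · rw [Matrix.det_mul]; exact hP1det.mul hP2det
  · have : P1 * P2 - 1 = (P1 - 1) * P2 + (P2 - 1) := by
      rw [sub_mul, one_mul]; abel
    rw [this]
    exact (hP1one.mul_right P2).add hP2one
  · have hconj : ∀ X : Matrix (Fin 2) (Fin 2) A,
        (P1 * P2)⁻¹ * X * (P1 * P2) = P2⁻¹ * (P1⁻¹ * X * P1) * P2 := by
      intro X
      rw [Matrix.mul_inv_rev]
      simp only [mul_assoc]
    rw [hconj N, hconj M, ← hN1def, ← hM1def, hN2]
    exact ⟨h00, h10, hM2⟩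


/-! ### Representation-level corollaries -/

/-- Uniqueness of the sliced representative of a conjugacy class, given Schur's lemma for the
reduction. -/
theorem rep_slice_unique [IsLocalRing A] {G : Type*} [Monoid G]
    (r r' : G →* Matrix (Fin 2) (Fin 2) A) (g0 g1 : G) (i j : Fin 2) (c : A)
    (h : IsSliced (r g0) (r g1) i j c) (h' : IsSliced (r' g0) (r' g1) i j c)
    (hu : IsUnit ((r g1 * r g0 - r g0 * r g1) i j))
    (hres : ∀ g a b, r g a b - r' g a b ∈ maximalIdeal A)
    (hschur : ∀ X : Matrix (Fin 2) (Fin 2) (ResidueField A),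
      (∀ g, X * (residue A).mapMatrix (r g) = (residue A).mapMatrix (r g) * X) →
        ∃ x : ResidueField A, X = x • (1 : Matrix (Fin 2) (Fin 2) (ResidueField A)))
    (Q : Matrix (Fin 2) (Fin 2) A) (hQ : IsUnit Q.det) (hQr : ∀ g, Q * r g = r' g * Q) :
    r = r' := by
  have hmapeq : ∀ g, (residue A).mapMatrix (r g) = (residue A).mapMatrix (r' g) := by
    intro g
    ext a b
    simp only [RingHom.mapMatrix_apply, Matrix.map_apply]
    have := hres g a b
    rw [← residue_eq_zero_iff, map_sub, sub_eq_zero] at this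
    exact this
  have hcomm : ∀ g, (residue A).mapMatrix Q * (residue A).mapMatrix (r g) =
      (residue A).mapMatrix (r g) * (residue A).mapMatrix Q := by
    intro g
    rw [← map_mul, hQr g, map_mul, hmapeq g]
  obtain ⟨x, hx⟩ := hschur _ hcomm
  have hQ10 : Q 1 0 ∈ maximalIdeal A := by
    have := congr_fun (congr_fun hx 1) 0
    simp only [RingHom.mapMatrix_apply, Matrix.map_apply, Matrix.smul_apply, smul_eq_mul] at this
    rw [← residue_eq_zero_iff, this]
    simp
  obtain ⟨y, hy, hQy⟩ := slice_unique (r g0) (r g1) (r' g0) (r' g1) i j c h h' hu Q hQ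
    (hQr g0) (hQr g1) hQ10
  ext g a b
  have h1 := hQr g
  rw [hQy, Matrix.smul_mul, Matrix.mul_smul, one_mul, mul_one] at h1
  have h2 := congr_fun (congr_fun h1 a) b
  simp only [Matrix.smul_apply, smul_eq_mul] at h2
  exact hy.mul_left_cancel h2

/-- Conjugation of a matrix representation by an invertible matrix. -/
noncomputable def conjRep {G : Type*} [Monoid G] (P : Matrix (Fin 2) (Fin 2) A)
    (hP : IsUnit P.det) (r : G →* Matrix (Fin 2) (Fin 2) A) : G →* Matrix (Fin 2) (Fin 2) A where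
  toFun g := P⁻¹ * r g * P
  map_one' := by rw [map_one, mul_one, Matrix.nonsing_inv_mul P hP]
  map_mul' g h := by
    rw [map_mul]
    have h1 : P * P⁻¹ = 1 := Matrix.mul_nonsing_inv P hP
    calc P⁻¹ * (r g * r h) * P = P⁻¹ * r g * (P * P⁻¹) * r h * P := by
          rw [h1, mul_one]; simp only [mul_assoc]
      _ = P⁻¹ * r g * P * (P⁻¹ * r h * P) := by simp only [mul_assoc]

@[simp] theorem conjRep_apply {G : Type*} [Monoid G] (P : Matrix (Fin 2) (Fin 2) A)
    (hP : IsUnit P.det) (r : G →* Matrix (Fin 2) (Fin 2) A) (g : G) :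
    conjRep P hP r g = P⁻¹ * r g * P := rfl

theorem mul_conjRep {G : Type*} [Monoid G] (P : Matrix (Fin 2) (Fin 2) A)
    (hP : IsUnit P.det) (r : G →* Matrix (Fin 2) (Fin 2) A) (g : G) :
    P * conjRep P hP r g = r g * P := by
  rw [conjRep_apply, ← mul_assoc, ← mul_assoc, Matrix.mul_nonsing_inv P hP, one_mul]

/-- Existence of a sliced conjugate of a representation (by a matrix congruent to `1`). -/
theorem rep_slice_exists [IsLocalRing A] [IsAdicComplete (maximalIdeal A) A]
    {G : Type*} [Monoid G] (r : G →* Matrix (Fin 2) (Fin 2) A) (g0 g1 : G) (i j : Fin 2) (c : A)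
    (hN0 : r g0 0 0 ∈ maximalIdeal A) (hN1 : r g0 1 0 - 1 ∈ maximalIdeal A)
    (hu : IsUnit ((r g1 * r g0 - r g0 * r g1) i j)) (hc : r g1 i j - c ∈ maximalIdeal A) :
    ∃ (P : Matrix (Fin 2) (Fin 2) A) (hP : IsUnit P.det),
      (∀ a b, (P - 1) a b ∈ maximalIdeal A) ∧
      IsSliced (conjRep P hP r g0) (conjRep P hP r g1) i j c ∧
      (∀ g a b, conjRep P hP r g a b - r g a b ∈ maximalIdeal A) := by
  obtain ⟨P, hP, hP1, hs⟩ := slice_exists (r g0) (r g1) i j c hN0 hN1 hu hc
  refine ⟨P, hP, hP1, hs, fun g a b => ?_⟩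
  exact entriesIn_conj_sub P hP hP1 (r g) a b


/-- The unit condition on the commutator entry only depends on the matrices modulo the maximal
ideal. -/
theorem isUnit_commutator_of_entriesIn [IsLocalRing A] (N M N' M' : Matrix (Fin 2) (Fin 2) A)
    (hN : EntriesIn (maximalIdeal A) (N' - N)) (hM : EntriesIn (maximalIdeal A) (M' - M))
    (i j : Fin 2) (hu : IsUnit ((M * N - N * M) i j)) :
    IsUnit ((M' * N' - N' * M') i j) := by
  refine isUnit_of_sub_mem hu ?_
  have h : M' * N' - N' * M' - (M * N - N * M) =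
      (M' * (N' - N) + (M' - M) * N) - (N' * (M' - M) + (N' - N) * M) := by
    simp only [mul_sub, sub_mul]; abel
  have := ((hN.mul_left M').add (hM.mul_right N)).sub ((hM.mul_left N').add (hN.mul_right M)) i j
  rw [← h] at this
  simpa using this

/-! ### Slice data over the residue field -/

/-- conjugating by `[e₁ | N e₁]` puts `N` in companion form -/
theorem companion_conj (N : Matrix (Fin 2) (Fin 2) A) (hb : IsUnit (N 1 0)) :
    IsUnit (!![1, N 0 0; 0, N 1 0] : Matrix (Fin 2) (Fin 2) A).det ∧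
      ((!![1, N 0 0; 0, N 1 0] : Matrix (Fin 2) (Fin 2) A)⁻¹ * N * !![1, N 0 0; 0, N 1 0]) 0 0 = 0 ∧
      ((!![1, N 0 0; 0, N 1 0] : Matrix (Fin 2) (Fin 2) A)⁻¹ * N * !![1, N 0 0; 0, N 1 0]) 1 0 = 1 := by
  set P : Matrix (Fin 2) (Fin 2) A := !![1, N 0 0; 0, N 1 0] with hPdef
  have hdet : IsUnit P.det := by
    rw [hPdef, Matrix.det_fin_two_of]
    simpa using hb
  have hinv : P⁻¹ * P = 1 := Matrix.nonsing_inv_mul P hdet
  have hcol : ∀ k, (N * P) k 0 = P k 1 := by
    intro k
    fin_cases k <;> simp [hPdef, Matrix.mul_apply, Fin.sum_univ_two]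
  have hkey : ∀ k, (P⁻¹ * N * P) k 0 = (1 : Matrix (Fin 2) (Fin 2) A) k 1 := by
    intro k
    rw [mul_assoc, Matrix.mul_apply, ← hinv, Matrix.mul_apply]
    exact Finset.sum_congr rfl fun l _ => by rw [hcol l]
  exact ⟨hdet, by simpa using hkey 0, by simpa using hkey 1⟩

/-- Over a field: an irreducible representation with scalar commutant has slice data. -/
theorem exists_slice_data {k : Type*} [Field k] {G : Type*} [Monoid G]
    (rbar : G →* Matrix (Fin 2) (Fin 2) k)
    (hirr : ∃ g, rbar g 1 0 ≠ 0)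
    (hschur : ∀ X : Matrix (Fin 2) (Fin 2) k, (∀ g, X * rbar g = rbar g * X) →
      ∃ x : k, X = x • (1 : Matrix (Fin 2) (Fin 2) k)) :
    ∃ (P : Matrix (Fin 2) (Fin 2) k) (hP : IsUnit P.det) (g0 g1 : G) (i j : Fin 2),
      conjRep P hP rbar g0 0 0 = 0 ∧ conjRep P hP rbar g0 1 0 = 1 ∧
      (conjRep P hP rbar g1 * conjRep P hP rbar g0 -
        conjRep P hP rbar g0 * conjRep P hP rbar g1) i j ≠ 0 := by
  obtain ⟨g0, hg0⟩ := hirr
  obtain ⟨hdet, h00, h10⟩ := companion_conj (rbar g0) (isUnit_iff_ne_zero.mpr hg0)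
  set P : Matrix (Fin 2) (Fin 2) k := !![1, rbar g0 0 0; 0, rbar g0 1 0] with hPdef
  have hPinv : P * P⁻¹ = 1 := Matrix.mul_nonsing_inv P hdet
  have hinvP : P⁻¹ * P = 1 := Matrix.nonsing_inv_mul P hdet
  -- `N0 := P⁻¹ rbar(g0) P` is not scalar, so it is not in the commutant of `conjRep`
  by_contra hcon
  push Not at hcon
  have hall : ∀ g1, conjRep P hdet rbar g1 * conjRep P hdet rbar g0 =
      conjRep P hdet rbar g0 * conjRep P hdet rbar g1 := by
    intro g1
    have := hcon P hdet g0 g1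
    ext i j
    have h3 := this i j h00 h10
    rw [Matrix.sub_apply, sub_eq_zero] at h3
    exact h3
  -- transport to the commutant of `rbar`
  have hcomm : ∀ g, (P * conjRep P hdet rbar g0 * P⁻¹) * rbar g =
      rbar g * (P * conjRep P hdet rbar g0 * P⁻¹) := by
    intro g
    have hg : rbar g = P * conjRep P hdet rbar g * P⁻¹ := by
      rw [mul_conjRep, mul_assoc, hPinv, mul_one]
    rw [hg]
    calc P * conjRep P hdet rbar g0 * P⁻¹ * (P * conjRep P hdet rbar g * P⁻¹)
        = P * (conjRep P hdet rbar g0 * (P⁻¹ * P) * conjRep P hdet rbar g) * P⁻¹ := by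
          simp only [mul_assoc]
      _ = P * (conjRep P hdet rbar g * (P⁻¹ * P) * conjRep P hdet rbar g0) * P⁻¹ := by
          rw [hinvP, mul_one, mul_one, hall g]
      _ = P * conjRep P hdet rbar g * P⁻¹ * (P * conjRep P hdet rbar g0 * P⁻¹) := by
          simp only [mul_assoc]
  obtain ⟨x, hx⟩ := hschur _ hcomm
  have hN0 : conjRep P hdet rbar g0 = x • (1 : Matrix (Fin 2) (Fin 2) k) := by
    have h1 : conjRep P hdet rbar g0 = P⁻¹ * (P * conjRep P hdet rbar g0 * P⁻¹) * P := by
      simp only [mul_assoc]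
      rw [hinvP, mul_one, ← mul_assoc, hinvP, one_mul]
    rw [h1, hx, Matrix.mul_smul, Matrix.smul_mul, mul_one, hinvP]
  have := congr_fun (congr_fun hN0 1) 0
  rw [conjRep_apply, h10] at this
  simp at this

end Fermat.Agent.S53
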