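import Fermat.Agent.S53.MatrixRep
import Fermat.Prelude.Def_GaloisRep_DeformationRingData
import Fermat.Prelude.Def_GaloisRep_DeformationCondition

open IsLocalRing

noncomputable section

namespace Fermat.Agent.S53.Universal

open Fermat.Agent.S53

section Quot

variable (A : Type) [CommRing A] [IsLocalRing A]

lemma pow_succ_ne_top (n : ℕ) : maximalIdeal A ^ (n + 1) ≠ ⊤ := by
  intro h
  have h1 : maximalIdeal A ^ (n + 1) ≤ maximalIdeal A := Ideal.pow_le_self (Nat.succ_ne_zero n)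
  rw [h] at h1
  exact (maximalIdeal.isMaximal A).ne_top (top_le_iff.mp h1)

instance nontrivialQuot (n : ℕ) : Nontrivial (A ⧸ maximalIdeal A ^ (n + 1)) :=
  Ideal.Quotient.nontrivial_iff.mpr (pow_succ_ne_top A n)

instance isLocalRingQuot (n : ℕ) : IsLocalRing (A ⧸ maximalIdeal A ^ (n + 1)) :=
  IsLocalRing.of_surjective' (Ideal.Quotient.mk _) Ideal.Quotient.mk_surjective

lemma isLocalHom_mk (n : ℕ) :
    IsLocalHom (Ideal.Quotient.mk (maximalIdeal A ^ (n + 1))) := by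
  refine isLocalHom_of_le_jacobson_bot _ ?_
  exact (Ideal.pow_le_self (Nat.succ_ne_zero n)).trans (maximalIdeal_le_jacobson _)

lemma maximalIdeal_quot_eq (n : ℕ) :
    maximalIdeal (A ⧸ maximalIdeal A ^ (n + 1)) =
      (maximalIdeal A).map (Ideal.Quotient.mk (maximalIdeal A ^ (n + 1))) := by
  have := isLocalHom_mk A n
  apply le_antisymm
  · intro x hx
    obtain ⟨a, rfl⟩ := Ideal.Quotient.mk_surjective x
    refine Ideal.mem_map_of_mem _ ?_
    rw [mem_maximalIdeal, mem_nonunits_iff] at hx ⊢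
    exact fun ha => hx (ha.map _)
  · rw [Ideal.map_le_iff_le_comap]
    intro a ha
    rw [Ideal.mem_comap, mem_maximalIdeal, mem_nonunits_iff]
    rw [mem_maximalIdeal, mem_nonunits_iff] at ha
    exact fun h => ha (isUnit_of_map_unit _ a h)

lemma maximalIdeal_quot_pow (n : ℕ) :
    maximalIdeal (A ⧸ maximalIdeal A ^ (n + 1)) ^ (n + 1) = ⊥ := by
  rw [maximalIdeal_quot_eq, ← Ideal.map_pow, Ideal.map_quotient_self]

end Quot

section TestAlg

variable {𝒪 : Type} [CommRing 𝒪]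

lemma isArtinianTestAlgebra_quot (A : Type) [CommRing A] [IsLocalRing A] [IsNoetherianRing A]
    [Algebra 𝒪 A] [IsLocalHom (algebraMap 𝒪 A)]
    (hres : Function.Surjective (residue A ∘ algebraMap 𝒪 A)) (n : ℕ) :
    GaloisRep.IsArtinianTestAlgebra 𝒪 (A ⧸ maximalIdeal A ^ (n + 1)) where
  isLocalHom := by
    have := isLocalHom_mk A n
    constructor
    intro a ha
    have h1 : algebraMap 𝒪 (A ⧸ maximalIdeal A ^ (n + 1)) a =
        Ideal.Quotient.mk _ (algebraMap 𝒪 A a) := rfl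
    rw [h1] at ha
    exact isUnit_of_map_unit (algebraMap 𝒪 A) a (isUnit_of_map_unit _ _ ha)
  residue_surjective := by
    have := isLocalHom_mk A n
    intro x
    obtain ⟨y, rfl⟩ := residue_surjective x
    obtain ⟨a, rfl⟩ := Ideal.Quotient.mk_surjective y
    obtain ⟨c, hc⟩ := hres (residue A a)
    refine ⟨c, ?_⟩
    simp only [Function.comp_apply] at hc ⊢
    have h1 : algebraMap 𝒪 (A ⧸ maximalIdeal A ^ (n + 1)) c =
        Ideal.Quotient.mk _ (algebraMap 𝒪 A c) := rfl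
    rw [h1, ← sub_eq_zero, ← map_sub, ← map_sub, residue_eq_zero_iff]
    rw [← sub_eq_zero, ← map_sub, residue_eq_zero_iff] at hc
    rw [maximalIdeal_quot_eq]
    exact Ideal.mem_map_of_mem _ hc
  isArtinian := by
    rw [isArtinianRing_iff_isNilpotent_maximalIdeal]
    exact ⟨n + 1, maximalIdeal_quot_pow A n⟩

end TestAlg

section IsEquivLemmas

variable {A : Type} [CommRing A] [IsLocalRing A]

lemma ofMat_isEquiv_of_eq {r r' : GQ →* M2 A} (hr : IsAdicCts r) (hr' : IsAdicCts r')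
    (h : r = r') : (ofMat r hr).IsEquiv (ofMat r' hr') := by
  subst h
  exact ⟨GaloisRepAdic.Equiv.refl _⟩

end IsEquivLemmas

section Main

variable {𝒪 : Type} [CommRing 𝒪]

/-- Universality over complete Noetherian local `𝒪`-algebras from universality over
Artinian test algebras, for a rigidified (sliced) deformation problem. -/
theorem existsUnique_algHom
    (𝒟 : ∀ ⦃A : Type⦄ [CommRing A] [IsLocalRing A] [Algebra 𝒪 A], GaloisRepAdic A → Prop)
    (h𝒟 : GaloisRep.IsDeformationCondition 𝒪 𝒟)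
    (Sl : ∀ ⦃A : Type⦄ [CommRing A] [IsLocalRing A] [Algebra 𝒪 A], (GQ →* M2 A) → Prop)
    (Sl_cts : ∀ ⦃A : Type⦄ [CommRing A] [IsLocalRing A] [Algebra 𝒪 A] (r : GQ →* M2 A),
      Sl r → IsAdicCts r)
    (Sl_map : ∀ ⦃A B : Type⦄ [CommRing A] [IsLocalRing A] [Algebra 𝒪 A]
      [CommRing B] [IsLocalRing B] [Algebra 𝒪 B] (φ : A →ₐ[𝒪] B),
      IsLocalHom (φ : A →+* B) → ∀ r : GQ →* M2 A, Sl r → Sl (mapMat (φ : A →+* B) r))
    {R : Type} [CommRing R] [IsLocalRing R] [Algebra 𝒪 R] (rR : GQ →* M2 R) (hrR : Sl rR)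
    (hex : ∀ (B : Type) [CommRing B] [IsLocalRing B] [Algebra 𝒪 B],
      GaloisRep.IsArtinianTestAlgebra 𝒪 B → ∀ (r : GQ →* M2 B) (hr : Sl r),
        𝒟 (ofMat r (Sl_cts r hr)) →
          ∃ φ : R →ₐ[𝒪] B, IsLocalHom (φ : R →+* B) ∧ mapMat (φ : R →+* B) rR = r)
    (huniq : ∀ (B : Type) [CommRing B] [IsLocalRing B] [Algebra 𝒪 B],
      GaloisRep.IsArtinianTestAlgebra 𝒪 B → ∀ φ φ' : R →ₐ[𝒪] B,
        IsLocalHom (φ : R →+* B) → IsLocalHom (φ' : R →+* B) →
        mapMat (φ : R →+* B) rR = mapMat (φ' : R →+* B) rR → φ = φ')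
    (A : Type) [CommRing A] [IsLocalRing A] [IsNoetherianRing A]
    [IsAdicComplete (maximalIdeal A) A] [Algebra 𝒪 A] [IsLocalHom (algebraMap 𝒪 A)]
    (hres : Function.Surjective (residue A ∘ algebraMap 𝒪 A))
    (ρA : GaloisRepAdic A) (hρA : 𝒟 ρA)
    (r : GQ →* M2 A) (hr : Sl r) (hrρ : ρA.IsEquiv (ofMat r (Sl_cts r hr)))
    (hrig : ∀ (r' : GQ →* M2 A) (hr' : Sl r'),
      (ofMat r' (Sl_cts r' hr')).IsEquiv (ofMat r (Sl_cts r hr)) → r' = r) :
    ∃! φ : R →ₐ[𝒪] A, ∃ hφ : IsLocalHom (φ : R →+* A),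
      ((ofMat rR (Sl_cts rR hrR)).baseChangeAlong (φ : R →+* A) hφ).IsEquiv ρA := by
  classical
  -- the Artinian quotients of `A`
  have hT : ∀ n, GaloisRep.IsArtinianTestAlgebra 𝒪 (A ⧸ maximalIdeal A ^ (n + 1)) :=
    isArtinianTestAlgebra_quot A hres
  let q : ∀ n : ℕ, A →ₐ[𝒪] A ⧸ maximalIdeal A ^ (n + 1) :=
    fun n => Ideal.Quotient.mkₐ 𝒪 (maximalIdeal A ^ (n + 1))
  have hqloc : ∀ n, IsLocalHom ((q n : A →ₐ[𝒪] _) : A →+* A ⧸ maximalIdeal A ^ (n + 1)) :=
    fun n => isLocalHom_mk A n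
  have hqsurj : ∀ n, Function.Surjective (q n) := fun n => Ideal.Quotient.mkₐ_surjective 𝒪 _
  have hSl : ∀ n, Sl (mapMat ((q n : A →ₐ[𝒪] _) : A →+* A ⧸ maximalIdeal A ^ (n + 1)) r) :=
    fun n => Sl_map (q n) (hqloc n) r hr
  have hD : ∀ n, 𝒟 (ofMat (mapMat ((q n : A →ₐ[𝒪] _) : A →+* A ⧸ maximalIdeal A ^ (n + 1)) r)
      (Sl_cts _ (hSl n))) := by
    intro n
    have h1 : 𝒟 (ρA.baseChangeAlong ((q n : A →ₐ[𝒪] _) : A →+* A ⧸ maximalIdeal A ^ (n + 1))
        (hqloc n)) :=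
      (h𝒟.iff_forall_surjective ‹IsLocalHom (algebraMap 𝒪 A)› hres ρA).mp hρA (hT n) (q n)
        (hqloc n) (hqsurj n)
    refine h𝒟.of_isEquiv (hT n) ?_ h1
    exact isEquiv_trans (isEquiv_baseChangeAlong _ _ hrρ)
      (ofMat_baseChangeAlong_isEquiv _ _ r _)
  choose g hgloc hg using fun n => hex _ (hT n) _ (hSl n) (hD n)
  -- transition maps between the quotients
  have hle : ∀ {m n : ℕ}, m ≤ n → maximalIdeal A ^ (n + 1) ≤ maximalIdeal A ^ (m + 1) :=
    fun h => Ideal.pow_le_pow_right (Nat.succ_le_succ h)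
  have hfacloc : ∀ {m n : ℕ} (h : m ≤ n),
      IsLocalHom ((Ideal.Quotient.factorₐ 𝒪 (hle h) : _ →ₐ[𝒪] _) :
        (A ⧸ maximalIdeal A ^ (n + 1)) →+* (A ⧸ maximalIdeal A ^ (m + 1))) := by
    intro m n h
    constructor
    intro x hx
    obtain ⟨a, rfl⟩ := Ideal.Quotient.mk_surjective x
    have h1 : IsUnit (Ideal.Quotient.mk (maximalIdeal A ^ (m + 1)) a) := by simpa using hx
    have := isLocalHom_mk A m
    exact (isUnit_of_map_unit _ a h1).map _
  -- compatibility of the `g n`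
  have hcompat : ∀ {m n : ℕ} (h : m ≤ n), (Ideal.Quotient.factorₐ 𝒪 (hle h)).comp (g n) = g m := by
    intro m n h
    refine huniq _ (hT m) _ _ ?_ (hgloc m) ?_
    · constructor
      intro x hx
      have h1 : IsUnit ((Ideal.Quotient.factorₐ 𝒪 (hle h) : _ →ₐ[𝒪] _) (g n x)) := hx
      have h2 : IsUnit (g n x) := (hfacloc h).map_nonunit _ h1
      exact (hgloc n).map_nonunit x h2
    · rw [hg m]
      ext σ i j
      have h1 := congrArg (fun M : GQ →* M2 (A ⧸ maximalIdeal A ^ (n + 1)) => M σ i j) (hg n)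
      simp only [mapMat_apply_apply] at h1
      show (Ideal.Quotient.factorₐ 𝒪 (hle h)) (g n (rR σ i j)) = q m (r σ i j)
      rw [show (g n : R →+* _) (rR σ i j) = g n (rR σ i j) from rfl] at h1
      rw [h1]
      rfl
  -- the compatible system `R → A ⧸ 𝔪 ^ n`
  let f : ∀ n : ℕ, R →ₐ[𝒪] A ⧸ maximalIdeal A ^ n := fun n =>
    (Ideal.Quotient.factorₐ 𝒪 (Ideal.pow_le_pow_right (Nat.le_succ n))).comp (g n)
  have hf : ∀ {m n : ℕ} (hmn : m ≤ n),
      (Ideal.Quotient.factorₐ 𝒪 (Ideal.pow_le_pow_right hmn)).comp (f n) = f m := by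
    intro m n hmn
    ext x
    have h1 : g m x = (Ideal.Quotient.factorₐ 𝒪 (hle hmn)) (g n x) := by
      rw [← hcompat hmn]; rfl
    obtain ⟨a, ha⟩ := Ideal.Quotient.mk_surjective (g n x)
    simp only [f, AlgHom.comp_apply, h1, ← ha]
    rfl
  let φ : R →ₐ[𝒪] A := IsAdicComplete.liftAlgHom (maximalIdeal A) f hf
  have hφq : ∀ n x, q n (φ x) = g n x := by
    intro n x
    have h1 : Ideal.Quotient.mk (maximalIdeal A ^ (n + 1)) (φ x) = f (n + 1) x :=
      IsAdicComplete.mk_liftAlgHom (maximalIdeal A) f hf (n + 1) x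
    have h2 : g n x = (Ideal.Quotient.factorₐ 𝒪 (hle (Nat.le_succ n))) (g (n + 1) x) := by
      rw [← hcompat (Nat.le_succ n)]; rfl
    show Ideal.Quotient.mk (maximalIdeal A ^ (n + 1)) (φ x) = g n x
    rw [h1, h2]
    rfl
  -- separatedness of `A`
  have hsep : ∀ a b : A, (∀ n, q n a = q n b) → a = b := by
    intro a b hab
    rw [← sub_eq_zero, ← Ideal.mem_bot,
      ← Ideal.iInf_pow_eq_bot_of_isLocalRing (maximalIdeal A) (maximalIdeal.isMaximal A).ne_top,
      Ideal.mem_iInf]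
    intro i
    cases i with
    | zero => simp
    | succ n =>
      have := hab n
      rwa [← sub_eq_zero, ← map_sub, show q n (a - b) = Ideal.Quotient.mk _ (a - b) from rfl,
        Ideal.Quotient.eq_zero_iff_mem] at this
  have hφr : mapMat (φ : R →+* A) rR = r := by
    ext σ i j
    refine hsep _ _ fun n => ?_
    have h1 := congrArg (fun M : GQ →* M2 (A ⧸ maximalIdeal A ^ (n + 1)) => M σ i j) (hg n)
    simp only [mapMat_apply_apply] at h1
    show q n (φ (rR σ i j)) = q n (r σ i j)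
    rw [hφq]
    exact h1
  have hφloc : IsLocalHom (φ : R →+* A) := by
    constructor
    intro x hx
    have h1 : IsUnit (q 0 (φ x)) := IsUnit.map (q 0) hx
    rw [hφq] at h1
    exact (hgloc 0).map_nonunit x h1
  refine ⟨φ, ⟨hφloc, ?_⟩, ?_⟩
  · refine isEquiv_trans (ofMat_baseChangeAlong_isEquiv _ hφloc rR (Sl_cts rR hrR)) ?_
    exact isEquiv_trans (ofMat_isEquiv_of_eq _ _ hφr) (isEquiv_symm hrρ)
  · rintro φ' ⟨hφ', he⟩
    have hφ'r : mapMat (φ' : R →+* A) rR = r := by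
      refine hrig _ (Sl_map φ' hφ' rR hrR) ?_
      refine isEquiv_trans
        (isEquiv_symm (ofMat_baseChangeAlong_isEquiv _ hφ' rR (Sl_cts rR hrR))) ?_
      exact isEquiv_trans he hrρ
    refine IsAdicComplete.algHom_ext (maximalIdeal A) fun n => ?_
    cases n with
    | zero =>
      have : Subsingleton (A ⧸ maximalIdeal A ^ 0) := by
        rw [Ideal.Quotient.subsingleton_iff, pow_zero, Ideal.one_eq_top]
      exact AlgHom.ext fun x => Subsingleton.elim _ _
    | succ n =>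
      refine huniq _ (hT n) _ _ ?_ ?_ ?_
      · constructor
        intro x hx
        have h1 : IsUnit (q n (φ' x)) := hx
        exact hφ'.map_nonunit x ((hqloc n).map_nonunit _ h1)
      · constructor
        intro x hx
        have h1 : IsUnit (q n (φ x)) := hx
        exact hφloc.map_nonunit x ((hqloc n).map_nonunit _ h1)
      · ext σ i j
        have h1 := congrArg (fun M : GQ →* M2 A => M σ i j) hφ'r
        have h2 := congrArg (fun M : GQ →* M2 A => M σ i j) hφr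
        simp only [mapMat_apply_apply] at h1 h2
        show q n (φ' (rR σ i j)) = q n (φ (rR σ i j))
        rw [show (φ' : R →+* A) (rR σ i j) = φ' (rR σ i j) from rfl] at h1
        rw [show (φ : R →+* A) (rR σ i j) = φ (rR σ i j) from rfl] at h2
        rw [h1, h2]

end Main

end Fermat.Agent.S53.Universal
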