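import Fermat.Agent.S53.Defs
import Fermat.Agent.S53.Slice
import Fermat.Agent.S53.SchurMat
import Fermat.Agent.S53.Universal

/-! Normal form of deformations (unique sliced lift) and the concrete form of universality. -/

open IsLocalRing

noncomputable section

namespace Fermat.Agent.S53

section NormalForm

variable {𝒪 : Type} [CommRing 𝒪] [IsLocalRing 𝒪] {c : SliceCtx 𝒪}

section Basic

variable {A : Type} [CommRing A] [IsLocalRing A] [Algebra 𝒪 A] [IsLocalHom (algebraMap 𝒪 A)]

/-- Entrywise form of the `res` field. -/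
lemma IsSlicedLift.residue_apply {r : GQ →* M2 A} (h : IsSlicedLift c r) (σ : GQ) (a b : Fin 2) :
    residue A (r σ a b) = ResidueField.map (algebraMap 𝒪 A) (c.rbar σ a b) := by
  have := congrArg (fun M : GQ →* M2 (ResidueField A) => M σ a b) h.res
  simpa only [mapMat_apply_apply] using this

/-- Matrix form of the `res` field. -/
lemma IsSlicedLift.mapMatrix_apply {r : GQ →* M2 A} (h : IsSlicedLift c r) (σ : GQ) :
    (residue A).mapMatrix (r σ) =
      (ResidueField.map (algebraMap 𝒪 A)).mapMatrix (c.rbar σ) := by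
  ext a b
  exact h.residue_apply σ a b

lemma nf_sub_mem_of_residue_eq {x y : A} (h : residue A x = residue A y) :
    x - y ∈ maximalIdeal A := by
  rw [← residue_eq_zero_iff, map_sub, h, sub_self]

/-- The commutator entry of a lift of valid slice data is a unit. -/
lemma nf_isUnit_commutator_of_res (hc : c.Valid) {r : GQ →* M2 A}
    (hres : mapMat (residue A) r = mapMat (ResidueField.map (algebraMap 𝒪 A)) c.rbar) :
    IsUnit ((r c.g1 * r c.g0 - r c.g0 * r c.g1) c.i c.j) := by
  have hm : ∀ σ, (residue A).mapMatrix (r σ) =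
      (ResidueField.map (algebraMap 𝒪 A)).mapMatrix (c.rbar σ) := by
    intro σ
    have := congrArg (fun M : GQ →* M2 (ResidueField A) => M σ) hres
    simpa only [mapMat_apply, RingHom.mapMatrix_apply] using this
  have h1 : (residue A).mapMatrix (r c.g1 * r c.g0 - r c.g0 * r c.g1) =
      (ResidueField.map (algebraMap 𝒪 A)).mapMatrix
        (c.rbar c.g1 * c.rbar c.g0 - c.rbar c.g0 * c.rbar c.g1) := by
    simp only [map_sub, map_mul, hm]
  have h2 := congrFun (congrFun h1 c.i) c.j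
  simp only [RingHom.mapMatrix_apply, Matrix.map_apply] at h2
  by_contra hnu
  have h3 : residue A ((r c.g1 * r c.g0 - r c.g0 * r c.g1) c.i c.j) = 0 :=
    (residue_eq_zero_iff _).mpr ((mem_maximalIdeal _).mpr hnu)
  rw [h2] at h3
  exact hc.hcomm ((map_eq_zero _).mp h3)

/-- `ResidueField.map` of the structure map on residues of elements of `𝒪`. -/
lemma nf_residueMap_residue (t : 𝒪) :
    ResidueField.map (algebraMap 𝒪 A) (residue 𝒪 t) = residue A (algebraMap 𝒪 A t) :=
  ResidueField.map_residue (algebraMap 𝒪 A) t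

end Basic

section Map

variable {A B : Type} [CommRing A] [IsLocalRing A] [Algebra 𝒪 A] [IsLocalHom (algebraMap 𝒪 A)]
  [CommRing B] [IsLocalRing B] [Algebra 𝒪 B] [IsLocalHom (algebraMap 𝒪 B)]

/-- (N1) Sliced lifts are preserved by local algebra homomorphisms. -/
theorem IsSlicedLift.map {r : GQ →* M2 A} (h : IsSlicedLift c r) (φ : A →ₐ[𝒪] B)
    (hφ : IsLocalHom (φ : A →+* B)) : IsSlicedLift c (mapMat (φ : A →+* B) r) where
  cts := h.cts.map _ hφ
  res := by
    ext σ a b
    rw [mapMat_apply_apply, mapMat_apply_apply, mapMat_apply_apply]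
    obtain ⟨t, ht⟩ := residue_surjective (c.rbar σ a b)
    have h1 := h.residue_apply σ a b
    rw [← ht, nf_residueMap_residue] at h1 ⊢
    have h2 : r σ a b - algebraMap 𝒪 A t ∈ maximalIdeal A := nf_sub_mem_of_residue_eq h1
    have h3 : (φ : A →+* B) (r σ a b - algebraMap 𝒪 A t) ∈ maximalIdeal B := by
      rw [mem_maximalIdeal, mem_nonunits_iff] at h2 ⊢
      exact fun hu => h2 (hφ.map_nonunit _ hu)
    rw [map_sub, ← residue_eq_zero_iff, map_sub, sub_eq_zero] at h3
    rw [h3]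
    congr 1
    exact φ.commutes t
  h00 := by rw [mapMat_apply_apply, h.h00, map_zero]
  h10 := by rw [mapMat_apply_apply, h.h10, map_one]
  hij := by
    rw [mapMat_apply_apply, h.hij]
    exact φ.commutes c.c0

end Map

section Exists

variable {A : Type} [CommRing A] [IsLocalRing A]

lemma nf_isAdicCts_conjRep {r : GQ →* M2 A} (hr : IsAdicCts r) (P : M2 A) (hP : IsUnit P.det) :
    IsAdicCts (conjRep P hP r) := by
  intro n
  obtain ⟨L, hL, h⟩ := hr n
  refine ⟨L, hL, fun σ hσ i j => ?_⟩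
  have h1 : conjRep P hP r σ - 1 = P⁻¹ * (r σ - 1) * P := by
    rw [conjRep_apply, mul_sub, sub_mul, mul_one, Matrix.nonsing_inv_mul P hP]
  rw [h1, Matrix.mul_apply]
  refine Ideal.sum_mem _ fun k _ => Ideal.mul_mem_right _ _ ?_
  rw [Matrix.mul_apply]
  exact Ideal.sum_mem _ fun l _ => Ideal.mul_mem_left _ _ (h σ hσ l k)

lemma nf_ofMat_conjRep_isEquiv {r : GQ →* M2 A} (hr : IsAdicCts r) (P : M2 A) (hP : IsUnit P.det) :
    (ofMat r hr).IsEquiv (ofMat (conjRep P hP r) (nf_isAdicCts_conjRep hr P hP)) :=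
  isEquiv_symm ((ofMat_isEquiv_iff _ _).mpr ⟨P, hP, fun σ => mul_conjRep P hP r σ⟩)

variable [Algebra 𝒪 A] [IsLocalHom (algebraMap 𝒪 A)]

/-- (N2) Every deformation of the matrix form of the residual representation over a complete
local `𝒪`-algebra is equivalent to the representation of a sliced lift. -/
theorem exists_slicedLift (hc : c.Valid) [IsAdicComplete (maximalIdeal A) A]
    (ρA : GaloisRepAdic A)
    (hres : ρA.residual.IsEquiv ((ofMatRes c.rbar hc.finiteLevel).baseChangeAlong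
      (ResidueField.map (algebraMap 𝒪 A)))) :
    ∃ (r : GQ →* M2 A) (h : IsSlicedLift c r), ρA.IsEquiv (ofMat r h.cts) := by
  obtain ⟨r, hr, he, hmap⟩ :=
    exists_ofMat_isEquiv_of_residual ρA (ResidueField.map (algebraMap 𝒪 A)) c.rbar
      hc.finiteLevel hres
  have hentry : ∀ σ a b,
      residue A (r σ a b) = ResidueField.map (algebraMap 𝒪 A) (c.rbar σ a b) := by
    intro σ a b
    have := congrArg (fun M : GQ →* M2 (ResidueField A) => M σ a b) hmap
    simpa only [mapMat_apply_apply] using this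
  have hN0 : r c.g0 0 0 ∈ maximalIdeal A := by
    rw [← residue_eq_zero_iff, hentry, hc.h00, map_zero]
  have hN1 : r c.g0 1 0 - 1 ∈ maximalIdeal A := by
    rw [← residue_eq_zero_iff, map_sub, hentry, hc.h10, map_one, map_one, sub_self]
  have hu := nf_isUnit_commutator_of_res hc hmap
  have hcc : r c.g1 c.i c.j - algebraMap 𝒪 A c.c0 ∈ maximalIdeal A := by
    rw [← residue_eq_zero_iff, map_sub, hentry, ← hc.hc0, nf_residueMap_residue, sub_self]
  obtain ⟨P, hP, -, hs, hcong⟩ :=
    rep_slice_exists r c.g0 c.g1 c.i c.j (algebraMap 𝒪 A c.c0) hN0 hN1 hu hcc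
  have hsl : IsSlicedLift c (conjRep P hP r) :=
    { cts := nf_isAdicCts_conjRep hr P hP
      res := by
        rw [← hmap]
        ext σ a b
        rw [mapMat_apply_apply, mapMat_apply_apply, ← sub_eq_zero, ← map_sub,
          residue_eq_zero_iff]
        exact hcong σ a b
      h00 := hs.1
      h10 := hs.2.1
      hij := hs.2.2 }
  exact ⟨conjRep P hP r, hsl, isEquiv_trans he (nf_ofMat_conjRep_isEquiv hr P hP)⟩

/-- (N3) Two sliced lifts with equivalent representations are equal. -/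
theorem slicedLift_unique (hc : c.Valid)
    (hspan : Submodule.span (ResidueField 𝒪) (Set.range c.rbar) = ⊤)
    {r r' : GQ →* M2 A} (h : IsSlicedLift c r) (h' : IsSlicedLift c r')
    (he : (ofMat r h.cts).IsEquiv (ofMat r' h'.cts)) : r = r' := by
  obtain ⟨Q, hQ, hQr⟩ := (ofMat_isEquiv_iff h.cts h'.cts).mp he
  refine rep_slice_unique r r' c.g0 c.g1 c.i c.j (algebraMap 𝒪 A c.c0)
    ⟨h.h00, h.h10, h.hij⟩ ⟨h'.h00, h'.h10, h'.hij⟩ (nf_isUnit_commutator_of_res hc h.res)
    (fun g a b => nf_sub_mem_of_residue_eq ((h.residue_apply g a b).trans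
      (h'.residue_apply g a b).symm))
    (residue_schur_of_lift c.rbar hspan (ResidueField.map (algebraMap 𝒪 A)) r h.res)
    Q hQ hQr

/-- (N4) The residual representation of a sliced lift. -/
theorem slicedLift_residual (hc : c.Valid) {r : GQ →* M2 A} (h : IsSlicedLift c r) :
    (ofMat r h.cts).residual.IsEquiv ((ofMatRes c.rbar hc.finiteLevel).baseChangeAlong
      (ResidueField.map (algebraMap 𝒪 A))) :=
  ofMat_residual_isEquiv_of_map_eq h.cts _ c.rbar hc.finiteLevel h.res

end Exists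

section Wiring

/-- (N5) Universality over complete Noetherian local `𝒪`-algebras from universality over
Artinian test algebras, for sliced lifts. -/
theorem existsUnique_algHom_sliced
    (𝒟 : ∀ ⦃A : Type⦄ [CommRing A] [IsLocalRing A] [Algebra 𝒪 A], GaloisRepAdic A → Prop)
    (h𝒟 : GaloisRep.IsDeformationCondition 𝒪 𝒟) (hc : c.Valid)
    (hspan : Submodule.span (ResidueField 𝒪) (Set.range c.rbar) = ⊤)
    {R : Type} [CommRing R] [IsLocalRing R] [Algebra 𝒪 R] [IsLocalHom (algebraMap 𝒪 R)]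
    (rR : GQ →* M2 R) (hrR : IsSlicedLift c rR)
    (hex : ∀ (B : Type) [CommRing B] [IsLocalRing B] [Algebra 𝒪 B]
      [IsLocalHom (algebraMap 𝒪 B)],
      GaloisRep.IsArtinianTestAlgebra 𝒪 B → ∀ (r : GQ →* M2 B) (hr : IsSlicedLift c r),
        𝒟 (ofMat r hr.cts) →
          ∃ φ : R →ₐ[𝒪] B, IsLocalHom (φ : R →+* B) ∧ mapMat (φ : R →+* B) rR = r)
    (huniq : ∀ (B : Type) [CommRing B] [IsLocalRing B] [Algebra 𝒪 B]
      [IsLocalHom (algebraMap 𝒪 B)],
      GaloisRep.IsArtinianTestAlgebra 𝒪 B → ∀ φ φ' : R →ₐ[𝒪] B,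
        IsLocalHom (φ : R →+* B) → IsLocalHom (φ' : R →+* B) →
        mapMat (φ : R →+* B) rR = mapMat (φ' : R →+* B) rR → φ = φ')
    (A : Type) [CommRing A] [IsLocalRing A] [IsNoetherianRing A]
    [IsAdicComplete (maximalIdeal A) A] [Algebra 𝒪 A] [IsLocalHom (algebraMap 𝒪 A)]
    (hres : Function.Surjective (residue A ∘ algebraMap 𝒪 A))
    (ρA : GaloisRepAdic A) (hρA : 𝒟 ρA)
    (hρres : ρA.residual.IsEquiv ((ofMatRes c.rbar hc.finiteLevel).baseChangeAlong
      (ResidueField.map (algebraMap 𝒪 A)))) :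
    ∃! φ : R →ₐ[𝒪] A, ∃ hφ : IsLocalHom (φ : R →+* A),
      ((ofMat rR hrR.cts).baseChangeAlong (φ : R →+* A) hφ).IsEquiv ρA := by
  obtain ⟨r, hr, hrρ⟩ := exists_slicedLift hc ρA hρres
  let Sl : ∀ ⦃B : Type⦄ [CommRing B] [IsLocalRing B] [Algebra 𝒪 B], (GQ →* M2 B) → Prop :=
    fun B _ _ _ r => ∃ h : IsLocalHom (algebraMap 𝒪 B), @IsSlicedLift 𝒪 _ _ c B _ _ _ h r
  have Sl_cts : ∀ ⦃B : Type⦄ [CommRing B] [IsLocalRing B] [Algebra 𝒪 B] (r : GQ →* M2 B),
      Sl r → IsAdicCts r := by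
    intro B _ _ _ r ⟨hB, hsl⟩
    exact hsl.cts
  have Sl_map : ∀ ⦃B C : Type⦄ [CommRing B] [IsLocalRing B] [Algebra 𝒪 B]
      [CommRing C] [IsLocalRing C] [Algebra 𝒪 C] (φ : B →ₐ[𝒪] C),
      IsLocalHom (φ : B →+* C) → ∀ r : GQ →* M2 B, Sl r → Sl (mapMat (φ : B →+* C) r) := by
    intro B C _ _ _ _ _ _ φ hφ r ⟨hB, hsl⟩
    have hC : IsLocalHom (algebraMap 𝒪 C) := by
      constructor
      intro a ha
      have h1 : IsUnit ((φ : B →+* C) (algebraMap 𝒪 B a)) := by
        have : (φ : B →+* C) (algebraMap 𝒪 B a) = algebraMap 𝒪 C a := φ.commutes a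
        rw [this]; exact ha
      exact hB.map_nonunit a (hφ.map_nonunit _ h1)
    exact ⟨hC, hsl.map φ hφ⟩
  exact Universal.existsUnique_algHom 𝒟 h𝒟 Sl Sl_cts Sl_map rR ⟨inferInstance, hrR⟩
    (fun B _ _ _ hT r hsl hD => by
      obtain ⟨hB, hsl'⟩ := hsl
      exact hex B hT r hsl' hD)
    (fun B _ _ _ hT φ φ' hφ hφ' hm => by
      have := hT.isLocalHom
      exact huniq B hT φ φ' hφ hφ' hm)
    A hres ρA hρA r ⟨inferInstance, hr⟩ hrρ
    (fun r' hr' he => by
      obtain ⟨hA', hsl'⟩ := hr'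
      exact slicedLift_unique hc hspan hsl' hr he)

end Wiring

end NormalForm

end Fermat.Agent.S53
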