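import Fermat.Agent.S53.KerEv
import Fermat.Agent.S53.NormalForm
import Fermat.Agent.S53.DmAxioms

/-! Basic API of deformation ideals (`IsDefIdeal`): residues of evaluations, `I ≤ nbar`,
the maximal ideal of `BigS ⧸ I`, `nbar ^ n ≤ ker (ev s)`, and `nbar` itself is a deformation
ideal. -/

set_option autoImplicit false
set_option linter.unusedSectionVars false
set_option linter.style.haveILetI false

open IsLocalRing

namespace Fermat.Agent.S53

variable {𝒪 : Type} [CommRing 𝒪] [IsLocalRing 𝒪] {c : SliceCtx 𝒪}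
  {𝒟 : ∀ ⦃A : Type⦄ [CommRing A] [IsLocalRing A] [Algebra 𝒪 A], GaloisRepAdic A → Prop}

section Residue

variable {B : Type} [CommRing B] [IsLocalRing B] [Algebra 𝒪 B] [IsLocalHom (algebraMap 𝒪 B)]

/-- The residue of the evaluation of `p : BigS 𝒪` at a sliced lift `s` is the image of the
residual evaluation of `p`. -/
theorem IsSlicedLift.residue_ev {s : GQ →* M2 B} (hs : IsSlicedLift c s) (p : BigS 𝒪) :
    residue B (ev (fun σ => s σ) p) =
      ResidueField.map (algebraMap 𝒪 B) (ev (fun σ => c.rbar σ) p) := by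
  have key : ((residue B).comp ((ev (fun σ => s σ) : BigS 𝒪 →ₐ[𝒪] B) : BigS 𝒪 →+* B)) =
      ((ResidueField.map (algebraMap 𝒪 B)).comp
        ((ev (fun σ => c.rbar σ) : BigS 𝒪 →ₐ[𝒪] ResidueField 𝒪) :
          BigS 𝒪 →+* ResidueField 𝒪)) := by
    apply MvPolynomial.ringHom_ext
    · intro a
      simp only [RingHom.comp_apply, RingHom.coe_coe]
      rw [← MvPolynomial.algebraMap_eq, AlgHom.commutes, AlgHom.commutes,
        ResidueField.algebraMap_eq, ResidueField.map_residue]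
    · rintro ⟨σ, a, b⟩
      simp only [RingHom.comp_apply, RingHom.coe_coe, ev_X]
      exact hs.residue_apply σ a b
  exact DFunLike.congr_fun key p

/-- An element of `BigS 𝒪` evaluates into the maximal ideal at a sliced lift iff it lies in
`nbar c`. -/
theorem IsSlicedLift.ev_mem_maximalIdeal_iff {s : GQ →* M2 B} (hs : IsSlicedLift c s)
    (p : BigS 𝒪) : ev (fun σ => s σ) p ∈ maximalIdeal B ↔ p ∈ nbar c := by
  rw [← residue_eq_zero_iff, hs.residue_ev, map_eq_zero]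
  rfl

/-- `nbar c` is the preimage of the maximal ideal under the evaluation at a sliced lift. -/
theorem IsSlicedLift.comap_ev_maximalIdeal {s : GQ →* M2 B} (hs : IsSlicedLift c s) :
    (maximalIdeal B).comap (ev (fun σ => s σ) : BigS 𝒪 →ₐ[𝒪] B) = nbar c := by
  ext p
  rw [Ideal.mem_comap]
  exact hs.ev_mem_maximalIdeal_iff p

/-- The kernel of the evaluation at a sliced lift is contained in `nbar c`. -/
theorem IsSlicedLift.ker_ev_le_nbar {s : GQ →* M2 B} (hs : IsSlicedLift c s) :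
    RingHom.ker (ev (fun σ => s σ) : BigS 𝒪 →ₐ[𝒪] B) ≤ nbar c := by
  intro p hp
  rw [← hs.ev_mem_maximalIdeal_iff]
  rw [RingHom.mem_ker] at hp
  rw [hp]
  exact zero_mem _

/-- If `𝔪_B ^ n = 0` then `nbar c ^ n` is killed by the evaluation at a sliced lift over `B`. -/
theorem pow_nbar_le_ker_ev {s : GQ →* M2 B} (hs : IsSlicedLift c s) {n : ℕ}
    (hn : maximalIdeal B ^ n = ⊥) :
    nbar c ^ n ≤ RingHom.ker (ev (fun σ => s σ) : BigS 𝒪 →ₐ[𝒪] B) := by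
  have h1 : nbar c ^ n ≤ ((maximalIdeal B).comap (ev (fun σ => s σ) : BigS 𝒪 →ₐ[𝒪] B)) ^ n := by
    rw [hs.comap_ev_maximalIdeal]
  refine h1.trans ((Ideal.le_comap_pow _ n).trans ?_)
  rw [hn]
  exact le_of_eq rfl

end Residue

theorem nbar_ne_top (c : SliceCtx 𝒪) : nbar c ≠ ⊤ :=
  RingHom.ker_ne_top _

section DefIdeal

variable {I : Ideal (BigS 𝒪)}

theorem IsDefIdeal.finite (hI : IsDefIdeal c 𝒟 I) : Finite (BigS 𝒪 ⧸ I) := hI.1

theorem IsDefIdeal.isLocalRing (hI : IsDefIdeal c 𝒟 I) : IsLocalRing (BigS 𝒪 ⧸ I) := by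
  obtain ⟨_, h, _⟩ := hI
  exact h

theorem IsDefIdeal.isLocalHom (hI : IsDefIdeal c 𝒟 I) [IsLocalRing (BigS 𝒪 ⧸ I)] :
    IsLocalHom (algebraMap 𝒪 (BigS 𝒪 ⧸ I)) := by
  obtain ⟨_, _, h, _⟩ := hI
  exact h

theorem IsDefIdeal.isRepIdeal (hI : IsDefIdeal c 𝒟 I) : IsRepIdeal I := by
  obtain ⟨_, _, _, h, _⟩ := hI
  exact h

theorem IsDefIdeal.isSlicedLift (hI : IsDefIdeal c 𝒟 I) [IsLocalRing (BigS 𝒪 ⧸ I)]
    [IsLocalHom (algebraMap 𝒪 (BigS 𝒪 ⧸ I))] : IsSlicedLift c (canRep I hI.isRepIdeal) := by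
  obtain ⟨_, _, _, _, h, _⟩ := hI
  exact h

theorem IsDefIdeal.dm (hI : IsDefIdeal c 𝒟 I) [IsLocalRing (BigS 𝒪 ⧸ I)] :
    Dm 𝒟 (canRep I hI.isRepIdeal) := by
  obtain ⟨_, _, _, _, _, h⟩ := hI
  exact h

/-- The evaluation at the canonical representation is the quotient map. -/
theorem ev_canRep (I : Ideal (BigS 𝒪)) (h : IsRepIdeal I) :
    (ev (fun σ => canRep I h σ) : BigS 𝒪 →ₐ[𝒪] BigS 𝒪 ⧸ I) = Ideal.Quotient.mkₐ 𝒪 I := by
  apply MvPolynomial.algHom_ext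
  rintro ⟨σ, a, b⟩
  rw [ev_X]
  rfl

theorem ev_canRep_apply (I : Ideal (BigS 𝒪)) (h : IsRepIdeal I) (p : BigS 𝒪) :
    ev (fun σ => canRep I h σ) p = Ideal.Quotient.mk I p := by
  rw [ev_canRep]
  rfl

theorem ker_ev_canRep (I : Ideal (BigS 𝒪)) (h : IsRepIdeal I) :
    RingHom.ker (ev (fun σ => canRep I h σ) : BigS 𝒪 →ₐ[𝒪] BigS 𝒪 ⧸ I) = I := by
  ext p
  rw [RingHom.mem_ker, ev_canRep_apply, Ideal.Quotient.eq_zero_iff_mem]

/-- For a deformation ideal `I`, the preimage of the maximal ideal of `BigS 𝒪 ⧸ I` is `nbar c`. -/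
theorem IsDefIdeal.comap_maximalIdeal (hI : IsDefIdeal c 𝒟 I) [IsLocalRing (BigS 𝒪 ⧸ I)] :
    (maximalIdeal (BigS 𝒪 ⧸ I)).comap (Ideal.Quotient.mk I) = nbar c := by
  haveI := hI.isLocalHom
  have h := hI.isSlicedLift.comap_ev_maximalIdeal
  rw [← h]
  ext p
  rw [Ideal.mem_comap, Ideal.mem_comap, ev_canRep_apply]

theorem IsDefIdeal.mk_mem_maximalIdeal_iff (hI : IsDefIdeal c 𝒟 I) [IsLocalRing (BigS 𝒪 ⧸ I)]
    (p : BigS 𝒪) : Ideal.Quotient.mk I p ∈ maximalIdeal (BigS 𝒪 ⧸ I) ↔ p ∈ nbar c := by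
  rw [← hI.comap_maximalIdeal, Ideal.mem_comap]

/-- The maximal ideal of `BigS 𝒪 ⧸ I` is the image of `nbar c`. -/
theorem IsDefIdeal.maximalIdeal_eq_map (hI : IsDefIdeal c 𝒟 I) [IsLocalRing (BigS 𝒪 ⧸ I)] :
    maximalIdeal (BigS 𝒪 ⧸ I) = (nbar c).map (Ideal.Quotient.mk I) := by
  rw [← hI.comap_maximalIdeal, Ideal.map_comap_of_surjective _ Ideal.Quotient.mk_surjective]

/-- A deformation ideal is contained in `nbar c`. -/
theorem IsDefIdeal.le_nbar (hI : IsDefIdeal c 𝒟 I) : I ≤ nbar c := by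
  haveI := hI.isLocalRing
  haveI := hI.isLocalHom
  have h := hI.isSlicedLift.ker_ev_le_nbar
  rwa [ker_ev_canRep] at h

theorem IsDefIdeal.ne_top (hI : IsDefIdeal c 𝒟 I) : I ≠ ⊤ := fun h =>
  nbar_ne_top c (top_le_iff.mp (h ▸ hI.le_nbar))

/-- `𝔪 ^ n = 0` in `BigS 𝒪 ⧸ I` iff `nbar c ^ n ≤ I`. -/
theorem IsDefIdeal.pow_maximalIdeal_eq_bot_iff (hI : IsDefIdeal c 𝒟 I)
    [IsLocalRing (BigS 𝒪 ⧸ I)] (n : ℕ) :
    maximalIdeal (BigS 𝒪 ⧸ I) ^ n = ⊥ ↔ nbar c ^ n ≤ I := by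
  rw [hI.maximalIdeal_eq_map, ← Ideal.map_pow, Ideal.map_eq_bot_iff_le_ker, Ideal.mk_ker]

/-- Every deformation ideal contains a power of `nbar c`. -/
theorem IsDefIdeal.exists_pow_nbar_le (hI : IsDefIdeal c 𝒟 I) : ∃ n, nbar c ^ n ≤ I := by
  haveI := hI.isLocalRing
  haveI := hI.finite
  obtain ⟨n, hn⟩ := (isArtinianRing_iff_isNilpotent_maximalIdeal (BigS 𝒪 ⧸ I)).mp inferInstance
  exact ⟨n, (hI.pow_maximalIdeal_eq_bot_iff n).mp hn⟩

end DefIdeal

section Nbar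

/-- The residual representation is a sliced lift of itself over `k`. -/
theorem isSlicedLift_rbar (hc : c.Valid)
    [IsLocalHom (algebraMap 𝒪 (ResidueField 𝒪))] : IsSlicedLift c c.rbar where
  cts := isAdicCts_of_finLevel hc.finiteLevel
  res := by
    ext σ a b
    rw [mapMat_apply_apply, mapMat_apply_apply]
    obtain ⟨t, ht⟩ := residue_surjective (c.rbar σ a b)
    rw [← ht, ResidueField.map_residue, ResidueField.algebraMap_eq]
  h00 := hc.h00
  h10 := hc.h10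
  hij := by rw [ResidueField.algebraMap_eq, hc.hc0]

/-- `nbar c` is a deformation ideal as soon as the residual representation satisfies `𝒟`. -/
theorem isDefIdeal_nbar [Finite (ResidueField 𝒪)] (hc : c.Valid)
    (h𝒟 : GaloisRep.IsDeformationCondition 𝒪 𝒟) (hbarD : Dm 𝒟 c.rbar) :
    IsDefIdeal c 𝒟 (nbar c) := by
  have hk : GaloisRep.IsArtinianTestAlgebra 𝒪 (ResidueField 𝒪) :=
    residueField_isArtinianTestAlgebra
  haveI := hk.isLocalHom
  exact isDefIdeal_ker_ev c h𝒟 hk c.rbar (isSlicedLift_rbar hc) hbarD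

end Nbar

end Fermat.Agent.S53
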