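import Fermat.Agent.S53.Defs

/-! Deformation ideals of `BigS`: kernels of evaluations at sliced deformations (L3). -/

set_option autoImplicit false

open IsLocalRing

namespace Fermat.Agent.S53

variable {𝒪 : Type} [CommRing 𝒪] [IsLocalRing 𝒪]

section Finite

/-- An Artinian test algebra over `𝒪` with finite residue field is a finite ring. -/
theorem ke_finite_of_isArtinianTestAlgebra [Finite (ResidueField 𝒪)] {A : Type} [CommRing A]
    [IsLocalRing A] [Algebra 𝒪 A] (hA : GaloisRep.IsArtinianTestAlgebra 𝒪 A) : Finite A := by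
  have := hA.isLocalHom
  have := hA.isArtinian
  have hsurj : Function.Surjective (ResidueField.map (algebraMap 𝒪 A)) := by
    intro x
    obtain ⟨a, rfl⟩ := hA.residue_surjective x
    exact ⟨residue 𝒪 a, by rw [ResidueField.map_residue]; rfl⟩
  have : Finite (ResidueField A) := Finite.of_surjective _ hsurj
  obtain ⟨n, hn⟩ := (isArtinianRing_iff_isNilpotent_maximalIdeal A).mp inferInstance
  have h1 : Finite (A ⧸ (⊥ : Ideal A)) :=
    (finite_quotient_iff (R := A)).mpr ⟨n, by rw [hn]; exact le_refl _⟩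
  exact Finite.of_equiv _ (RingEquiv.quotientBot A).toEquiv

end Finite

section Sub

variable {A B : Type} [CommRing A] [IsLocalRing A] [Algebra 𝒪 A] [CommRing B] [Algebra 𝒪 B]

/-- in a finite ring, an element which becomes a unit in an overring is a unit -/
theorem ke_isUnit_of_map_isUnit_of_finite [Finite B] (ι : B →+* A) (hι : Function.Injective ι)
    {b : B} (hb : IsUnit (ι b)) : IsUnit b := by
  have hinj : Function.Injective (fun x : B => b * x) := by
    intro x y hxy
    apply hι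
    have : ι b * ι x = ι b * ι y := by rw [← map_mul, ← map_mul]; exact congrArg ι hxy
    exact hb.mul_left_cancel this
  obtain ⟨b', hb'⟩ := (Finite.injective_iff_surjective.mp hinj) 1
  exact IsUnit.of_mul_eq_one b' hb'

/-- a finite ring embedded in a local ring is local -/
theorem ke_isLocalRing_of_injective [Finite B] [Nontrivial B] (ι : B →+* A)
    (hι : Function.Injective ι) : IsLocalRing B := by
  refine IsLocalRing.of_isUnit_or_isUnit_one_sub_self fun b => ?_
  rcases IsLocalRing.isUnit_or_isUnit_one_sub_self (ι b) with h | h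
  · exact Or.inl (ke_isUnit_of_map_isUnit_of_finite ι hι h)
  · refine Or.inr (ke_isUnit_of_map_isUnit_of_finite ι hι ?_)
    rwa [map_sub, map_one]

theorem ke_isLocalHom_of_injective_of_finite [Finite B] (ι : B →+* A)
    (hι : Function.Injective ι) : IsLocalHom ι :=
  ⟨fun _ hb => ke_isUnit_of_map_isUnit_of_finite ι hι hb⟩

end Sub

section Transfer

variable {A B : Type} [CommRing A] [IsLocalRing A] [Algebra 𝒪 A] [IsLocalHom (algebraMap 𝒪 A)]
  [CommRing B] [IsLocalRing B] [Algebra 𝒪 B] [IsLocalHom (algebraMap 𝒪 B)]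

/-- sliced-ness descends along an injective local homomorphism -/
theorem ke_isSlicedLift_of_injective (c : SliceCtx 𝒪) (ι : B →ₐ[𝒪] A)
    (hι : Function.Injective ι) [IsLocalHom (ι : B →+* A)] (r : GQ →* M2 B)
    (hcts : IsAdicCts r) (hs : IsSlicedLift c (mapMat (ι : B →+* A) r)) :
    IsSlicedLift c r := by
  refine ⟨hcts, ?_, ?_, ?_, ?_⟩
  · ext σ a b
    have hκ : Function.Injective (ResidueField.map (ι : B →+* A)) :=
      (ResidueField.map (ι : B →+* A)).injective
    apply hκ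
    have h1 := congrArg (fun f : GQ →* M2 (ResidueField A) => f σ a b) hs.res
    simp only [mapMat_apply_apply] at h1 ⊢
    rw [ResidueField.map_residue]
    have h2 : (ResidueField.map (ι : B →+* A)) ((ResidueField.map (algebraMap 𝒪 B))
        (c.rbar σ a b)) = (ResidueField.map (algebraMap 𝒪 A)) (c.rbar σ a b) := by
      obtain ⟨x, hx⟩ := residue_surjective (c.rbar σ a b)
      rw [← hx, ResidueField.map_residue, ResidueField.map_residue, ResidueField.map_residue]
      congr 1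
      exact ι.commutes x
    rw [h2]
    exact h1
  · apply hι
    rw [map_zero]
    exact hs.h00
  · apply hι
    rw [map_one]
    exact hs.h10
  · apply hι
    rw [AlgHom.commutes]
    exact hs.hij

/-- the matrix form of a deformation condition descends along injective homomorphisms of
Artinian test algebras -/
theorem ke_dm_of_injective {𝒟 : ∀ ⦃A : Type⦄ [CommRing A] [IsLocalRing A] [Algebra 𝒪 A],
      GaloisRepAdic A → Prop} (h𝒟 : GaloisRep.IsDeformationCondition 𝒪 𝒟)
    (hA : GaloisRep.IsArtinianTestAlgebra 𝒪 A) (hB : GaloisRep.IsArtinianTestAlgebra 𝒪 B)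
    (ι : B →ₐ[𝒪] A) (hι : Function.Injective ι) (hloc : IsLocalHom (ι : B →+* A))
    (r : GQ →* M2 B) (hcts : IsAdicCts r) (hD : Dm 𝒟 (mapMat (ι : B →+* A) r)) :
    Dm 𝒟 r := by
  obtain ⟨hr', hD'⟩ := hD
  refine ⟨hcts, ?_⟩
  have he := ofMat_baseChangeAlong_isEquiv (ι : B →+* A) hloc r hcts
  have h1 : 𝒟 ((ofMat r hcts).baseChangeAlong (ι : B →+* A) hloc) :=
    h𝒟.of_isEquiv hA (isEquiv_symm he) hD'
  exact h𝒟.of_baseChangeAlong_injective hB hA ι hloc hι h1

end Transfer

section KerEv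

variable {A : Type} [CommRing A] [IsLocalRing A] [Algebra 𝒪 A] [IsLocalHom (algebraMap 𝒪 A)]

/-- The quotient of `BigS` by the kernel of an evaluation, as a subalgebra of the target. -/
noncomputable def kerEvLift (s : GQ →* M2 A) :
    (BigS 𝒪 ⧸ RingHom.ker (ev (fun σ => s σ) : BigS 𝒪 →ₐ[𝒪] A)) →ₐ[𝒪] A :=
  Ideal.kerLiftAlg (ev (fun σ => s σ) : BigS 𝒪 →ₐ[𝒪] A)

theorem kerEvLift_injective (s : GQ →* M2 A) :
    Function.Injective (kerEvLift (𝒪 := 𝒪) s) :=
  Ideal.kerLiftAlg_injective _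

theorem kerEvLift_canFam (s : GQ →* M2 A) (σ : GQ) :
    (canFam (RingHom.ker (ev (fun σ => s σ) : BigS 𝒪 →ₐ[𝒪] A)) σ).map (kerEvLift (𝒪 := 𝒪) s) =
      s σ := by
  ext a b
  simp only [Matrix.map_apply, canFam, Xmat_apply]
  show Ideal.kerLiftAlg (ev (fun σ => s σ) : BigS 𝒪 →ₐ[𝒪] A)
    (Ideal.Quotient.mk _ (MvPolynomial.X (σ, a, b))) = s σ a b
  rw [Ideal.kerLiftAlg_mk, ev_X]

theorem mapMat_kerEvLift_canRep (s : GQ →* M2 A)
    (h : IsRepIdeal (RingHom.ker (ev (fun σ => s σ) : BigS 𝒪 →ₐ[𝒪] A))) :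
    mapMat ((kerEvLift (𝒪 := 𝒪) s : _ →ₐ[𝒪] A) : _ →+* A) (canRep _ h) = s := by
  ext σ a b
  have := congrFun (congrFun (kerEvLift_canFam (𝒪 := 𝒪) s σ) a) b
  rw [Matrix.map_apply] at this
  rw [mapMat_apply_apply]
  exact this

/-- (L3) The kernel of the evaluation at a sliced deformation of type `𝒟` over an Artinian
test algebra is a deformation ideal. -/
theorem isDefIdeal_ker_ev [Finite (ResidueField 𝒪)] (c : SliceCtx 𝒪)
    {𝒟 : ∀ ⦃A : Type⦄ [CommRing A] [IsLocalRing A] [Algebra 𝒪 A], GaloisRepAdic A → Prop}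
    (h𝒟 : GaloisRep.IsDeformationCondition 𝒪 𝒟)
    (hA : GaloisRep.IsArtinianTestAlgebra 𝒪 A) (s : GQ →* M2 A) (hs : IsSlicedLift c s)
    (hD : Dm 𝒟 s) :
    IsDefIdeal c 𝒟 (RingHom.ker (ev (fun σ => s σ) : BigS 𝒪 →ₐ[𝒪] A)) := by
  classical
  set I := RingHom.ker (ev (fun σ => s σ) : BigS 𝒪 →ₐ[𝒪] A) with hI
  set ι : (BigS 𝒪 ⧸ I) →ₐ[𝒪] A := kerEvLift s with hιdef
  have hι : Function.Injective ι := kerEvLift_injective s
  have hmapfam : ∀ σ, (canFam I σ).map ι = s σ := kerEvLift_canFam s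
  have hAfin : Finite A := ke_finite_of_isArtinianTestAlgebra hA
  have hBfin : Finite (BigS 𝒪 ⧸ I) := Finite.of_injective ι hι
  have hBnt : Nontrivial (BigS 𝒪 ⧸ I) := (ι : (BigS 𝒪 ⧸ I) →+* A).domain_nontrivial
  have hBloc : IsLocalRing (BigS 𝒪 ⧸ I) :=
    ke_isLocalRing_of_injective (ι : (BigS 𝒪 ⧸ I) →+* A) hι
  have hιloc : IsLocalHom (ι : (BigS 𝒪 ⧸ I) →+* A) :=
    ke_isLocalHom_of_injective_of_finite (ι : (BigS 𝒪 ⧸ I) →+* A) hι
  have hOloc : IsLocalHom (algebraMap 𝒪 (BigS 𝒪 ⧸ I)) := by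
    refine ⟨fun a ha => ?_⟩
    have h1 : IsUnit (ι (algebraMap 𝒪 (BigS 𝒪 ⧸ I) a)) := ha.map ι
    rw [AlgHom.commutes] at h1
    exact isUnit_of_map_unit (algebraMap 𝒪 A) a h1
  have hmapinj : Function.Injective
      (fun M : M2 (BigS 𝒪 ⧸ I) => M.map ι) := Matrix.map_injective hι
  have hrep : IsRepIdeal I := by
    refine ⟨?_, fun σ τ => ?_⟩
    · apply hmapinj
      show (canFam I 1).map ι = (1 : M2 (BigS 𝒪 ⧸ I)).map ι
      rw [hmapfam, map_one, Matrix.map_one _ (map_zero ι) (map_one ι)]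
    · apply hmapinj
      show (canFam I (σ * τ)).map ι = (canFam I σ * canFam I τ).map ι
      rw [Matrix.map_mul, hmapfam, hmapfam, hmapfam, map_mul]
  have hmap : mapMat (ι : (BigS 𝒪 ⧸ I) →+* A) (canRep I hrep) = s := by
    ext σ a b
    have := congrFun (congrFun (hmapfam σ) a) b
    rw [Matrix.map_apply] at this
    rw [mapMat_apply_apply]
    exact this
  obtain ⟨n, hn⟩ := (isArtinianRing_iff_isNilpotent_maximalIdeal A).mp hA.isArtinian
  have hsfin : GaloisFactorsThroughFiniteLevel s := hs.cts.finLevel_of_pow_eq_bot hn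
  have hcfin : GaloisFactorsThroughFiniteLevel (canRep I hrep) :=
    finLevel_of_mapMat_injective (φ := (ι : (BigS 𝒪 ⧸ I) →+* A)) hι (by rw [hmap]; exact hsfin)
  have hcts : IsAdicCts (canRep I hrep) := isAdicCts_of_finLevel hcfin
  have hB : GaloisRep.IsArtinianTestAlgebra 𝒪 (BigS 𝒪 ⧸ I) := by
    refine ⟨hOloc, fun x => ?_, inferInstance⟩
    obtain ⟨y, rfl⟩ := residue_surjective x
    obtain ⟨a, ha⟩ := hA.residue_surjective (residue A (ι y))
    refine ⟨a, ?_⟩
    simp only [Function.comp_apply] at ha ⊢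
    rw [← sub_eq_zero, ← map_sub, residue_eq_zero_iff] at ha ⊢
    rw [mem_maximalIdeal, mem_nonunits_iff] at ha ⊢
    intro hu
    apply ha
    have := hu.map ι
    rwa [map_sub, AlgHom.commutes] at this
  refine ⟨hBfin, hBloc, hOloc, hrep, ?_, ?_⟩
  · exact ke_isSlicedLift_of_injective c ι hι (canRep I hrep) hcts (by rw [hmap]; exact hs)
  · exact ke_dm_of_injective h𝒟 hA hB ι hι hιloc (canRep I hrep) hcts (by rw [hmap]; exact hD)

end KerEv

end Fermat.Agent.S53
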