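import Fermat.Agent.S53.DmAxioms
import Fermat.Agent.S53.NormalForm
import Fermat.Agent.S53.KerEv

/-! Closure properties of deformation ideals: quotients are artinian test algebras,
enlarging, intersections. -/

set_option autoImplicit false
set_option linter.unusedSectionVars false
set_option linter.style.haveILetI false

open IsLocalRing GaloisRep

noncomputable section

namespace Fermat.Agent.S53

variable {𝒪 : Type} [CommRing 𝒪] [IsLocalRing 𝒪] {c : SliceCtx 𝒪}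
  {𝒟 : ∀ ⦃A : Type⦄ [CommRing A] [IsLocalRing A] [Algebra 𝒪 A], GaloisRepAdic A → Prop}

/-- The residual evaluation `BigS 𝒪 → k`. -/
def dii_evk (c : SliceCtx 𝒪) : BigS 𝒪 →ₐ[𝒪] ResidueField 𝒪 := ev (fun σ => c.rbar σ)

lemma dii_nbar_eq_ker_evk (c : SliceCtx 𝒪) : nbar c = RingHom.ker (dii_evk c) := rfl

lemma dii_nbar_ne_top (c : SliceCtx 𝒪) : nbar c ≠ ⊤ := by
  rw [dii_nbar_eq_ker_evk]
  exact RingHom.ker_ne_top _

/-- The residual evaluation on a quotient by an ideal contained in `nbar`. -/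
def dii_evkQ (c : SliceCtx 𝒪) (I : Ideal (BigS 𝒪)) (hI : I ≤ nbar c) :
    (BigS 𝒪 ⧸ I) →ₐ[𝒪] ResidueField 𝒪 :=
  Ideal.Quotient.liftₐ I (dii_evk c) (fun _ ha => hI ha)

@[simp] lemma dii_evkQ_mk (I : Ideal (BigS 𝒪)) (hI : I ≤ nbar c) (p : BigS 𝒪) :
    dii_evkQ c I hI (Ideal.Quotient.mk I p) = dii_evk c p := rfl

lemma dii_evkQ_surjective (I : Ideal (BigS 𝒪)) (hI : I ≤ nbar c) :
    Function.Surjective (dii_evkQ c I hI) := by
  intro x
  obtain ⟨o, rfl⟩ := residue_surjective x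
  exact ⟨algebraMap 𝒪 _ o, by rw [AlgHom.commutes, ResidueField.algebraMap_eq]⟩

lemma dii_isLocalHom_algebraMap_quot (I : Ideal (BigS 𝒪)) (hI : I ≤ nbar c) :
    IsLocalHom (algebraMap 𝒪 (BigS 𝒪 ⧸ I)) := by
  refine ⟨fun o ho => ?_⟩
  have h1 := ho.map (dii_evkQ c I hI)
  rw [AlgHom.commutes, ResidueField.algebraMap_eq] at h1
  by_contra h
  have : residue 𝒪 o = 0 := (residue_eq_zero_iff o).mpr ((mem_maximalIdeal o).mpr h)
  rw [this] at h1
  exact not_isUnit_zero h1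

/-- In a local quotient `BigS ⧸ I` with `I ≤ nbar`, the maximal ideal is the kernel of the
residual evaluation. -/
lemma dii_mem_maximalIdeal_quot_iff (I : Ideal (BigS 𝒪)) (hI : I ≤ nbar c)
    [IsLocalRing (BigS 𝒪 ⧸ I)] (x : BigS 𝒪 ⧸ I) :
    x ∈ maximalIdeal (BigS 𝒪 ⧸ I) ↔ dii_evkQ c I hI x = 0 := by
  have hmax : (RingHom.ker (dii_evkQ c I hI : (BigS 𝒪 ⧸ I) →+* ResidueField 𝒪)).IsMaximal :=
    RingHom.ker_isMaximal_of_surjective _ (dii_evkQ_surjective I hI)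
  have := IsLocalRing.eq_maximalIdeal hmax
  rw [← this, RingHom.mem_ker]
  rfl

lemma dii_residue_surjective_quot (I : Ideal (BigS 𝒪)) (hI : I ≤ nbar c)
    [IsLocalRing (BigS 𝒪 ⧸ I)] :
    Function.Surjective (IsLocalRing.residue (BigS 𝒪 ⧸ I) ∘ algebraMap 𝒪 (BigS 𝒪 ⧸ I)) := by
  intro x
  obtain ⟨y, rfl⟩ := residue_surjective x
  obtain ⟨o, ho⟩ := residue_surjective (dii_evkQ c I hI y)
  refine ⟨o, ?_⟩
  simp only [Function.comp_apply]
  rw [← sub_eq_zero, ← map_sub, residue_eq_zero_iff, dii_mem_maximalIdeal_quot_iff I hI, map_sub,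
    AlgHom.commutes, ResidueField.algebraMap_eq, ho, sub_self]

/-- A finite local quotient `BigS ⧸ I` with `I ≤ nbar` is an artinian test algebra. -/
theorem dii_isArtinianTestAlgebra_quot_of_le (I : Ideal (BigS 𝒪)) (hI : I ≤ nbar c)
    [IsLocalRing (BigS 𝒪 ⧸ I)] [Finite (BigS 𝒪 ⧸ I)] :
    IsArtinianTestAlgebra 𝒪 (BigS 𝒪 ⧸ I) :=
  ⟨dii_isLocalHom_algebraMap_quot I hI, dii_residue_surjective_quot I hI, inferInstance⟩

/-- The `res` field of `IsSlicedLift` for the canonical representation, in terms of `dii_evkQ`. -/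
lemma dii_canRep_res_of_le (I : Ideal (BigS 𝒪)) (hI : I ≤ nbar c) [IsLocalRing (BigS 𝒪 ⧸ I)]
    [IsLocalHom (algebraMap 𝒪 (BigS 𝒪 ⧸ I))] (h : IsRepIdeal I) :
    mapMat (residue (BigS 𝒪 ⧸ I)) (canRep I h) =
      mapMat (ResidueField.map (algebraMap 𝒪 (BigS 𝒪 ⧸ I))) c.rbar := by
  ext σ a b
  rw [mapMat_apply_apply, mapMat_apply_apply]
  obtain ⟨t, ht⟩ := residue_surjective (c.rbar σ a b)
  rw [← ht, ResidueField.map_residue, ← sub_eq_zero, ← map_sub, residue_eq_zero_iff,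
    dii_mem_maximalIdeal_quot_iff I hI, map_sub, AlgHom.commutes, canRep_apply, dii_evkQ_mk,
    ResidueField.algebraMap_eq, ht, sub_eq_zero]
  simp [dii_evk]

/-- A deformation ideal is contained in `nbar`. -/
theorem IsDefIdeal.dii_le_nbar {I : Ideal (BigS 𝒪)} (hI : IsDefIdeal c 𝒟 I) : I ≤ nbar c := by
  obtain ⟨_, hloc, hO, hrep, hs, _⟩ := hI
  intro p hp
  rw [dii_nbar_eq_ker_evk, RingHom.mem_ker]
  -- the residue field of `BigS ⧸ I` is `k`; `dii_evk` is the composite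
  have hres : ∀ σ a b, residue (BigS 𝒪 ⧸ I) (Ideal.Quotient.mk I (MvPolynomial.X (σ, a, b))) =
      ResidueField.map (algebraMap 𝒪 (BigS 𝒪 ⧸ I)) (c.rbar σ a b) := by
    intro σ a b
    have := hs.residue_apply σ a b
    rwa [canRep_apply] at this
  -- both `residue ∘ mk` and `map ∘ dii_evk` are ring homs `BigS → ResidueField (BigS/I)`
  have key : ((residue (BigS 𝒪 ⧸ I)).comp (Ideal.Quotient.mk I) : BigS 𝒪 →+* _) =
      (ResidueField.map (algebraMap 𝒪 (BigS 𝒪 ⧸ I))).comp (dii_evk c : BigS 𝒪 →+* _) := by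
    apply MvPolynomial.ringHom_ext
    · intro o
      simp only [RingHom.coe_comp, Function.comp_apply]
      have h1 : (dii_evk c : BigS 𝒪 →+* _) (MvPolynomial.C o) = residue 𝒪 o := by
        show dii_evk c (MvPolynomial.C o) = _
        rw [← MvPolynomial.algebraMap_eq, AlgHom.commutes, ResidueField.algebraMap_eq]
      rw [h1, ResidueField.map_residue]
      rfl
    · rintro ⟨σ, a, b⟩
      simp only [RingHom.coe_comp, Function.comp_apply]
      rw [hres]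
      congr 1
      simp [dii_evk]
  have h2 := congrArg (fun f : BigS 𝒪 →+* _ => f p) key
  simp only [RingHom.coe_comp, Function.comp_apply] at h2
  rw [Ideal.Quotient.eq_zero_iff_mem.mpr hp, map_zero] at h2
  exact ((map_eq_zero_iff _ (ResidueField.map (algebraMap 𝒪 (BigS 𝒪 ⧸ I))).injective).mp
    h2.symm)

/-- The quotient by a deformation ideal is an artinian test algebra. -/
theorem IsDefIdeal.isArtinianTestAlgebra {I : Ideal (BigS 𝒪)} (hI : IsDefIdeal c 𝒟 I) :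
    ∃ _ : IsLocalRing (BigS 𝒪 ⧸ I), IsArtinianTestAlgebra 𝒪 (BigS 𝒪 ⧸ I) := by
  have hle := hI.dii_le_nbar
  obtain ⟨hfin, hloc, hO, hrep, hs, _⟩ := hI
  exact ⟨hloc, dii_isArtinianTestAlgebra_quot_of_le I hle⟩

section OfLe

variable [Finite (ResidueField 𝒪)]

/-- Deformation ideals are closed under enlarging inside `nbar`. -/
theorem IsDefIdeal.of_le (h𝒟 : IsDeformationCondition 𝒪 𝒟) {I J : Ideal (BigS 𝒪)}
    (hI : IsDefIdeal c 𝒟 I) (hIJ : I ≤ J) (hJ : J ≤ nbar c) : IsDefIdeal c 𝒟 J := by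
  have hIle := hI.dii_le_nbar
  obtain ⟨hIloc, hItest⟩ := hI.isArtinianTestAlgebra
  obtain ⟨hfin, _, hO, hrep, hs, hD⟩ := hI
  have hJne : J ≠ ⊤ := fun h => dii_nbar_ne_top c (top_le_iff.mp (h ▸ hJ))
  have hJnt : Nontrivial (BigS 𝒪 ⧸ J) := Ideal.Quotient.nontrivial_iff.mpr hJne
  let φ : (BigS 𝒪 ⧸ I) →ₐ[𝒪] (BigS 𝒪 ⧸ J) := Ideal.Quotient.factorₐ 𝒪 hIJ
  have hφs : Function.Surjective φ := Ideal.Quotient.factor_surjective hIJ
  have hJfin : Finite (BigS 𝒪 ⧸ J) := Finite.of_surjective φ hφs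
  have hJloc : IsLocalRing (BigS 𝒪 ⧸ J) :=
    IsLocalRing.of_surjective' (φ : (BigS 𝒪 ⧸ I) →+* (BigS 𝒪 ⧸ J)) hφs
  have hJO : IsLocalHom (algebraMap 𝒪 (BigS 𝒪 ⧸ J)) := dii_isLocalHom_algebraMap_quot J hJ
  have hJtest : IsArtinianTestAlgebra 𝒪 (BigS 𝒪 ⧸ J) := dii_isArtinianTestAlgebra_quot_of_le J hJ
  have hφloc : IsLocalHom (φ : (BigS 𝒪 ⧸ I) →+* (BigS 𝒪 ⧸ J)) :=
    isLocalHom_of_testAlgebra hJtest φ
  have hfam : ∀ σ, canFam J σ = (canFam I σ).map φ := by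
    intro σ
    ext a b
    rfl
  have hJrep : IsRepIdeal J := by
    refine ⟨?_, fun σ τ => ?_⟩
    · rw [hfam, hrep.map_one, Matrix.map_one _ (map_zero φ) (map_one φ)]
    · rw [hfam, hfam, hfam, hrep.map_mul, Matrix.map_mul]
  have hmap : canRep J hJrep = mapMat (φ : (BigS 𝒪 ⧸ I) →+* (BigS 𝒪 ⧸ J)) (canRep I hrep) := by
    ext σ a b
    rfl
  refine ⟨hJfin, hJloc, hJO, hJrep, ?_, ?_⟩
  · rw [hmap]
    exact hs.map φ hφloc
  · rw [hmap]
    exact Dm_map h𝒟 hItest hJtest φ hD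

end OfLe

section Inf

variable [Finite (ResidueField 𝒪)]

/-- Deformation ideals are closed under finite intersections. -/
theorem IsDefIdeal.inf (h𝒟 : IsDeformationCondition 𝒪 𝒟) {I J : Ideal (BigS 𝒪)}
    (hI : IsDefIdeal c 𝒟 I) (hJ : IsDefIdeal c 𝒟 J) : IsDefIdeal c 𝒟 (I ⊓ J) := by
  have hIle := hI.dii_le_nbar
  have hJle := hJ.dii_le_nbar
  obtain ⟨hIloc, hItest⟩ := hI.isArtinianTestAlgebra
  obtain ⟨hJloc, hJtest⟩ := hJ.isArtinianTestAlgebra
  obtain ⟨hIfin, _, hIO, hIrep, hIs, hID⟩ := hI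
  obtain ⟨hJfin, _, hJO, hJrep, hJs, hJD⟩ := hJ
  have hKle : I ⊓ J ≤ nbar c := inf_le_left.trans hIle
  let pA : (BigS 𝒪 ⧸ (I ⊓ J)) →ₐ[𝒪] (BigS 𝒪 ⧸ I) := Ideal.Quotient.factorₐ 𝒪 inf_le_left
  let pB : (BigS 𝒪 ⧸ (I ⊓ J)) →ₐ[𝒪] (BigS 𝒪 ⧸ J) := Ideal.Quotient.factorₐ 𝒪 inf_le_right
  have hinj : Function.Injective (fun x : BigS 𝒪 ⧸ (I ⊓ J) => (pA x, pB x)) := by
    intro x y hxy
    obtain ⟨p, rfl⟩ := Ideal.Quotient.mk_surjective x
    obtain ⟨q, rfl⟩ := Ideal.Quotient.mk_surjective y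
    have h1 : Ideal.Quotient.mk I p = Ideal.Quotient.mk I q := congrArg Prod.fst hxy
    have h2 : Ideal.Quotient.mk J p = Ideal.Quotient.mk J q := congrArg Prod.snd hxy
    rw [Ideal.Quotient.eq] at h1 h2 ⊢
    exact ⟨h1, h2⟩
  have hKfin : Finite (BigS 𝒪 ⧸ (I ⊓ J)) := Finite.of_injective _ hinj
  have hKne : I ⊓ J ≠ ⊤ := fun h => dii_nbar_ne_top c (top_le_iff.mp (h ▸ hKle))
  have hKnt : Nontrivial (BigS 𝒪 ⧸ (I ⊓ J)) := Ideal.Quotient.nontrivial_iff.mpr hKne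
  -- units of the quotient are detected by the residual evaluation
  have hunit : ∀ x : BigS 𝒪 ⧸ (I ⊓ J), dii_evkQ c (I ⊓ J) hKle x ≠ 0 → IsUnit x := by
    intro x hx
    let ι : (BigS 𝒪 ⧸ (I ⊓ J)) →+* (BigS 𝒪 ⧸ I) × (BigS 𝒪 ⧸ J) :=
      (pA : _ →+* _).prod (pB : _ →+* _)
    have hι : Function.Injective ι := hinj
    obtain ⟨p, rfl⟩ := Ideal.Quotient.mk_surjective x
    have hp : dii_evk c p ≠ 0 := hx
    have h1 : IsUnit (Ideal.Quotient.mk I p) := by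
      by_contra hn
      have := (dii_mem_maximalIdeal_quot_iff I hIle _).mp ((mem_maximalIdeal _).mpr hn)
      exact hp this
    have h2 : IsUnit (Ideal.Quotient.mk J p) := by
      by_contra hn
      have := (dii_mem_maximalIdeal_quot_iff J hJle _).mp ((mem_maximalIdeal _).mpr hn)
      exact hp this
    have h3 : IsUnit (ι (Ideal.Quotient.mk (I ⊓ J) p)) := Prod.isUnit_iff.mpr ⟨h1, h2⟩
    -- finite ring: injective multiplication is surjective
    have hmulinj : Function.Injective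
        (fun y : BigS 𝒪 ⧸ (I ⊓ J) => Ideal.Quotient.mk (I ⊓ J) p * y) := by
      intro y z hyz
      apply hι
      have : ι (Ideal.Quotient.mk (I ⊓ J) p) * ι y = ι (Ideal.Quotient.mk (I ⊓ J) p) * ι z := by
        rw [← map_mul, ← map_mul]; exact congrArg ι hyz
      exact h3.mul_left_cancel this
    obtain ⟨b', hb'⟩ := (Finite.injective_iff_surjective.mp hmulinj) 1
    exact IsUnit.of_mul_eq_one b' hb'
  have hKloc : IsLocalRing (BigS 𝒪 ⧸ (I ⊓ J)) := by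
    refine IsLocalRing.of_isUnit_or_isUnit_one_sub_self fun x => ?_
    by_cases hx : dii_evkQ c (I ⊓ J) hKle x = 0
    · right
      apply hunit
      rw [map_sub, map_one, hx, sub_zero]
      exact one_ne_zero
    · left
      exact hunit x hx
  have hKO : IsLocalHom (algebraMap 𝒪 (BigS 𝒪 ⧸ (I ⊓ J))) := dii_isLocalHom_algebraMap_quot _ hKle
  have hKtest : IsArtinianTestAlgebra 𝒪 (BigS 𝒪 ⧸ (I ⊓ J)) :=
    dii_isArtinianTestAlgebra_quot_of_le _ hKle
  have hinjA : Function.Injective (fun M : M2 (BigS 𝒪 ⧸ (I ⊓ J)) => (M.map pA, M.map pB)) := by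
    intro M N hMN
    ext a b
    apply hinj
    have h1 := congrFun (congrFun (congrArg Prod.fst hMN) a) b
    have h2 := congrFun (congrFun (congrArg Prod.snd hMN) a) b
    exact Prod.ext h1 h2
  have hfamA : ∀ σ, (canFam (I ⊓ J) σ).map pA = canFam I σ := fun σ => by ext a b; rfl
  have hfamB : ∀ σ, (canFam (I ⊓ J) σ).map pB = canFam J σ := fun σ => by ext a b; rfl
  have hKrep : IsRepIdeal (I ⊓ J) := by
    refine ⟨?_, fun σ τ => ?_⟩
    · apply hinjA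
      simp only [hfamA, hfamB, hIrep.map_one, hJrep.map_one,
        Matrix.map_one _ (map_zero pA) (map_one pA), Matrix.map_one _ (map_zero pB) (map_one pB)]
    · apply hinjA
      simp only [hfamA, hfamB, hIrep.map_mul, hJrep.map_mul, Matrix.map_mul]
  have hmapA : mapMat (pA : _ →+* _) (canRep (I ⊓ J) hKrep) = canRep I hIrep := by
    ext σ a b; rfl
  have hmapB : mapMat (pB : _ →+* _) (canRep (I ⊓ J) hKrep) = canRep J hJrep := by
    ext σ a b; rfl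
  have hDK : Dm 𝒟 (canRep (I ⊓ J) hKrep) :=
    Dm_of_pair hItest hJtest h𝒟 hKtest pA pB hinj (hmapA ▸ hID) (hmapB ▸ hJD)
  refine ⟨hKfin, hKloc, hKO, hKrep, ⟨hDK.isAdicCts, dii_canRep_res_of_le _ hKle hKrep, ?_, ?_, ?_⟩,
    hDK⟩
  · have h1 : pA (canRep (I ⊓ J) hKrep c.g0 0 0) = pA 0 := by
      rw [map_zero]; exact hIs.h00
    have h2 : pB (canRep (I ⊓ J) hKrep c.g0 0 0) = pB 0 := by
      rw [map_zero]; exact hJs.h00
    exact hinj (Prod.ext h1 h2)
  · have h1 : pA (canRep (I ⊓ J) hKrep c.g0 1 0) = pA 1 := by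
      rw [map_one]; exact hIs.h10
    have h2 : pB (canRep (I ⊓ J) hKrep c.g0 1 0) = pB 1 := by
      rw [map_one]; exact hJs.h10
    exact hinj (Prod.ext h1 h2)
  · have h1 : pA (canRep (I ⊓ J) hKrep c.g1 c.i c.j) = pA (algebraMap 𝒪 _ c.c0) := by
      rw [AlgHom.commutes]; exact hIs.hij
    have h2 : pB (canRep (I ⊓ J) hKrep c.g1 c.i c.j) = pB (algebraMap 𝒪 _ c.c0) := by
      rw [AlgHom.commutes]; exact hJs.hij
    exact hinj (Prod.ext h1 h2)

end Inf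

end Fermat.Agent.S53
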