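import Mathlib

/-! Abstract lattice lemma behind the level ideals of S53: a family of ideals closed under
finite intersections and enlarging, with uniformly bounded finite quotients, has least elements
above each power of the ambient maximal ideal. -/

set_option autoImplicit false

namespace Fermat.Agent.S53

section LevelLattice

variable {S : Type*} [CommRing S]

/-- Axioms on a predicate `P` on ideals, relative to an ideal `𝔫`. -/
structure LevelAxioms (𝔫 : Ideal S) (P : Ideal S → Prop) : Prop where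
  le : ∀ I, P I → I ≤ 𝔫
  up : ∀ I J, P I → I ≤ J → J ≤ 𝔫 → P J
  inf : ∀ I J, P I → P J → P (I ⊓ J)
  fin : ∀ I, P I → Finite (S ⧸ I)
  top : P 𝔫
  bound : ∀ m : ℕ, ∃ N : ℕ, ∀ I, P I → 𝔫 ^ m ≤ I → Nat.card (S ⧸ I) ≤ N

/-- The smallest `P`-ideal containing `𝔫 ^ m` (when it exists). -/
def levelOf (𝔫 : Ideal S) (P : Ideal S → Prop) (m : ℕ) : Ideal S :=
  sInf {J | P J ∧ 𝔫 ^ m ≤ J}

variable {𝔫 : Ideal S} {P : Ideal S → Prop}

theorem levelOf_le {m : ℕ} {J : Ideal S} (hJ : P J) (hm : 𝔫 ^ m ≤ J) : levelOf 𝔫 P m ≤ J :=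
  sInf_le ⟨hJ, hm⟩

theorem levelOf_succ_le (m : ℕ) : levelOf 𝔫 P (m + 1) ≤ levelOf 𝔫 P m :=
  sInf_le_sInf fun _ hJ => ⟨hJ.1, (Ideal.pow_le_pow_right (Nat.le_succ m)).trans hJ.2⟩

theorem levelOf_antitone : Antitone (levelOf 𝔫 P) :=
  antitone_nat_of_succ_le levelOf_succ_le

theorem LevelAxioms.quotient_factor_injective (H : LevelAxioms 𝔫 P) {I J : Ideal S}
    (hIJ : I ≤ J) (hI : P I) (hcard : Nat.card (S ⧸ I) ≤ Nat.card (S ⧸ J)) : J ≤ I := by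
  have := H.fin I hI
  have hsurj : Function.Surjective (Ideal.Quotient.factor hIJ) :=
    Ideal.Quotient.factor_surjective hIJ
  have hbij := hsurj.bijective_of_nat_card_le hcard
  intro x hx
  have h1 : Ideal.Quotient.factor hIJ (Ideal.Quotient.mk I x) = Ideal.Quotient.factor hIJ 0 := by
    rw [Ideal.Quotient.factor_mk, map_zero]
    exact Ideal.Quotient.eq_zero_iff_mem.mpr hx
  exact Ideal.Quotient.eq_zero_iff_mem.mp (hbij.1 h1)

theorem LevelAxioms.levelOf_mem (H : LevelAxioms 𝔫 P) {m : ℕ} (hm : 1 ≤ m) :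
    P (levelOf 𝔫 P m) ∧ 𝔫 ^ m ≤ levelOf 𝔫 P m := by
  set T : Set (Ideal S) := {J | P J ∧ 𝔫 ^ m ≤ J} with hT
  obtain ⟨N, hN⟩ := H.bound m
  have hne : (T.image fun J => Nat.card (S ⧸ J)).Nonempty :=
    ⟨_, 𝔫, ⟨H.top, Ideal.pow_le_self (Nat.one_le_iff_ne_zero.mp hm)⟩, rfl⟩
  have hbdd : BddAbove (T.image fun J => Nat.card (S ⧸ J)) := by
    refine ⟨N, ?_⟩
    rintro _ ⟨J, hJ, rfl⟩
    exact hN J hJ.1 hJ.2
  obtain ⟨J₀, hJ₀, hJ₀max⟩ := Nat.sSup_mem hne hbdd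
  have hleast : ∀ J ∈ T, J₀ ≤ J := by
    intro J hJ
    have hinf : J₀ ⊓ J ∈ T := ⟨H.inf _ _ hJ₀.1 hJ.1, le_inf hJ₀.2 hJ.2⟩
    have hcard : Nat.card (S ⧸ (J₀ ⊓ J)) ≤ Nat.card (S ⧸ J₀) := by
      rw [show Nat.card (S ⧸ J₀) = _ from hJ₀max]
      exact le_csSup hbdd ⟨_, hinf, rfl⟩
    exact (H.quotient_factor_injective inf_le_left hinf.1 hcard).trans inf_le_right
  have heq : levelOf 𝔫 P m = J₀ :=
    le_antisymm (sInf_le hJ₀) (le_sInf hleast)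
  rw [heq]
  exact hJ₀

theorem LevelAxioms.levelOf_prop (H : LevelAxioms 𝔫 P) {m : ℕ} (hm : 1 ≤ m) :
    P (levelOf 𝔫 P m) := (H.levelOf_mem hm).1

theorem LevelAxioms.pow_le_levelOf (H : LevelAxioms 𝔫 P) {m : ℕ} (hm : 1 ≤ m) :
    𝔫 ^ m ≤ levelOf 𝔫 P m := (H.levelOf_mem hm).2

theorem LevelAxioms.levelOf_le_self (H : LevelAxioms 𝔫 P) {m : ℕ} (hm : 1 ≤ m) :
    levelOf 𝔫 P m ≤ 𝔫 := H.le _ (H.levelOf_prop hm)

theorem LevelAxioms.levelOf_one (H : LevelAxioms 𝔫 P) : levelOf 𝔫 P 1 = 𝔫 :=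
  le_antisymm (H.levelOf_le_self le_rfl) (by simpa using H.pow_le_levelOf (le_refl 1))

theorem LevelAxioms.levelOf_eq_sup (H : LevelAxioms 𝔫 P) {m : ℕ} (hm : 1 ≤ m) :
    levelOf 𝔫 P m = levelOf 𝔫 P (m + 1) ⊔ 𝔫 ^ m := by
  refine le_antisymm ?_ (sup_le (levelOf_succ_le m) (H.pow_le_levelOf hm))
  refine levelOf_le ?_ le_sup_right
  refine H.up _ _ (H.levelOf_prop (Nat.le_add_left 1 m)) le_sup_left ?_
  exact sup_le (H.levelOf_le_self (Nat.le_add_left 1 m))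
    (Ideal.pow_le_self (Nat.one_le_iff_ne_zero.mp hm))

theorem LevelAxioms.levelOf_zero (H : LevelAxioms 𝔫 P) (h𝔫 : 𝔫 ≠ ⊤) : levelOf 𝔫 P 0 = ⊤ := by
  have : {J | P J ∧ 𝔫 ^ 0 ≤ J} = (∅ : Set (Ideal S)) := by
    ext J
    simp only [pow_zero, Ideal.one_eq_top, top_le_iff, Set.mem_ofPred_eq, Set.mem_empty_iff_false,
      iff_false, not_and]
    rintro hJ rfl
    exact h𝔫 (top_le_iff.mp (H.le _ hJ))
  rw [levelOf, this, sInf_empty]

end LevelLattice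

end Fermat.Agent.S53
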