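import Fermat.Agent.S53.Defs

/-! The `𝒪`-algebra structure on the dual numbers used by `GaloisRep.TangentFinite`, and the
matrix (sliced) form of tangent finiteness. -/

open IsLocalRing

noncomputable section

namespace Fermat.Agent.S53

variable (𝒪 : Type) [CommRing 𝒪] [IsLocalRing 𝒪]

/-- The `𝒪`-algebra structure on `k[ε]` used by `GaloisRep.TangentFinite`. -/
@[reducible] def dualAlgebra : Algebra 𝒪 (DualNumber (ResidueField 𝒪)) :=
  ((algebraMap (ResidueField 𝒪) (DualNumber (ResidueField 𝒪))).comp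
    (algebraMap 𝒪 (ResidueField 𝒪))).toAlgebra

lemma dualAlgebra_algebraMap_apply (x : 𝒪) :
    letI := dualAlgebra 𝒪
    algebraMap 𝒪 (DualNumber (ResidueField 𝒪)) x =
      algebraMap (ResidueField 𝒪) (DualNumber (ResidueField 𝒪)) (residue 𝒪 x) := rfl

lemma isLocalHom_algebraMap_dualNumber (K : Type) [Field K] :
    IsLocalHom (algebraMap K (DualNumber K)) := by
  refine ⟨fun a ha => ?_⟩
  rcases eq_or_ne a 0 with rfl | h
  · rw [map_zero] at ha
    exact absurd ha not_isUnit_zero
  · exact isUnit_iff_ne_zero.mpr h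

lemma isLocalHom_dualAlgebra :
    letI := dualAlgebra 𝒪
    IsLocalHom (algebraMap 𝒪 (DualNumber (ResidueField 𝒪))) := by
  letI := dualAlgebra 𝒪
  haveI := isLocalHom_algebraMap_dualNumber (ResidueField 𝒪)
  haveI : IsLocalHom (algebraMap 𝒪 (ResidueField 𝒪)) := by
    change IsLocalHom (residue 𝒪)
    infer_instance
  exact RingHom.isLocalHom_comp _ _

lemma residue_dualNumber_surjective (K : Type) [Field K] :
    Function.Surjective (residue (DualNumber K) ∘ algebraMap K (DualNumber K)) := by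
  intro y
  obtain ⟨x, rfl⟩ := residue_surjective y
  refine ⟨TrivSqZeroExt.fst x, ?_⟩
  simp only [Function.comp_apply]
  rw [← sub_eq_zero, ← map_sub, residue_eq_zero_iff, mem_maximalIdeal, mem_nonunits_iff,
    TrivSqZeroExt.isUnit_iff_isUnit_fst]
  simp [TrivSqZeroExt.algebraMap_eq_inl]

lemma residue_surjective_dualAlgebra :
    letI := dualAlgebra 𝒪
    Function.Surjective (residue (DualNumber (ResidueField 𝒪)) ∘
      algebraMap 𝒪 (DualNumber (ResidueField 𝒪))) := by
  letI := dualAlgebra 𝒪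
  intro y
  obtain ⟨x, rfl⟩ := residue_dualNumber_surjective (ResidueField 𝒪) y
  obtain ⟨x, rfl⟩ := residue_surjective x
  exact ⟨x, rfl⟩

/-- Matrix form of tangent finiteness: there are only finitely many sliced lifts of type `𝒟`
over the dual numbers. -/
def SlicedTangentFinite (c : SliceCtx 𝒪)
    (𝒟 : ∀ ⦃A : Type⦄ [CommRing A] [IsLocalRing A] [Algebra 𝒪 A], GaloisRepAdic A → Prop) : Prop :=
  letI := dualAlgebra 𝒪
  haveI := isLocalHom_dualAlgebra 𝒪
  Finite {r : GQ →* M2 (DualNumber (ResidueField 𝒪)) // IsSlicedLift c r ∧ Dm 𝒟 r}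

end Fermat.Agent.S53

end
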