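import Fermat.Agent.S53.Defs
import Fermat.Agent.S53.DmAxioms
import Fermat.Agent.S53.NormalForm
import Fermat.Agent.S53.TangentDefs
import Fermat.Agent.S53.KerEv
import Fermat.Agent.S53.LevelLattice
import Fermat.Agent.S53.DefIdeal
import Fermat.Agent.S53.DefIdealInf
import Fermat.Agent.S53.Count

/-! P-D2: the uniform cardinality bound for deformation ideals containing a power of `nbar`
(field `bound` of `LevelAxioms`). -/

set_option autoImplicit false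
set_option linter.unusedSectionVars false
set_option linter.style.haveILetI false

open IsLocalRing GaloisRep

noncomputable section

namespace Fermat.Agent.S53

variable {𝒪 : Type} [CommRing 𝒪] [IsLocalRing 𝒪]
  {𝒟 : ∀ ⦃A : Type⦄ [CommRing A] [IsLocalRing A] [Algebra 𝒪 A], GaloisRepAdic A → Prop}

section Dual

/-- The dual numbers over a finite residue field form an Artinian test algebra. -/
theorem lv_dualNumber_isArtinianTestAlgebra [Finite (ResidueField 𝒪)] :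
    letI := dualAlgebra 𝒪
    IsArtinianTestAlgebra 𝒪 (DualNumber (ResidueField 𝒪)) := by
  letI := dualAlgebra 𝒪
  refine ⟨isLocalHom_dualAlgebra 𝒪, residue_surjective_dualAlgebra 𝒪, ?_⟩
  have : Finite (DualNumber (ResidueField 𝒪)) :=
    inferInstanceAs (Finite (ResidueField 𝒪 × ResidueField 𝒪))
  infer_instance

end Dual

section Inject

variable {c : SliceCtx 𝒪}

/-- Two algebra homomorphisms out of `BigS 𝒪 ⧸ I` agreeing on the generic entries are equal. -/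
theorem lv_algHom_ext_of_X {I : Ideal (BigS 𝒪)} {B : Type} [CommRing B] [Algebra 𝒪 B]
    (φ ψ : (BigS 𝒪 ⧸ I) →ₐ[𝒪] B)
    (h : ∀ σ a b, φ (Ideal.Quotient.mk I (MvPolynomial.X (σ, a, b))) =
      ψ (Ideal.Quotient.mk I (MvPolynomial.X (σ, a, b)))) : φ = ψ := by
  apply Ideal.Quotient.algHom_ext
  apply MvPolynomial.algHom_ext
  rintro ⟨σ, a, b⟩
  exact h σ a b

/-- The number of `𝒪`-algebra homomorphisms from the quotient by a deformation ideal to the dual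
numbers is bounded by the number of sliced lifts of type `𝒟` over the dual numbers. -/
theorem lv_card_algHom_dual_le [Finite (ResidueField 𝒪)]
    (h𝒟 : IsDeformationCondition 𝒪 𝒟) (htan : SlicedTangentFinite 𝒪 c 𝒟)
    {I : Ideal (BigS 𝒪)} [IsLocalRing (BigS 𝒪 ⧸ I)]
    (hA : IsArtinianTestAlgebra 𝒪 (BigS 𝒪 ⧸ I)) (hrep : IsRepIdeal I)
    (hsl : haveI := hA.isLocalHom; IsSlicedLift c (canRep I hrep)) (hdm : Dm 𝒟 (canRep I hrep)) :
    letI := dualAlgebra 𝒪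
    haveI := isLocalHom_dualAlgebra 𝒪
    Nat.card ((BigS 𝒪 ⧸ I) →ₐ[𝒪] DualNumber (ResidueField 𝒪)) ≤
      Nat.card {r : GQ →* M2 (DualNumber (ResidueField 𝒪)) // IsSlicedLift c r ∧ Dm 𝒟 r} := by
  letI := dualAlgebra 𝒪
  haveI := isLocalHom_dualAlgebra 𝒪
  haveI := hA.isLocalHom
  have hdual : IsArtinianTestAlgebra 𝒪 (DualNumber (ResidueField 𝒪)) :=
    lv_dualNumber_isArtinianTestAlgebra
  haveI : Finite {r : GQ →* M2 (DualNumber (ResidueField 𝒪)) // IsSlicedLift c r ∧ Dm 𝒟 r} :=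
    htan
  let Φ : ((BigS 𝒪 ⧸ I) →ₐ[𝒪] DualNumber (ResidueField 𝒪)) →
      {r : GQ →* M2 (DualNumber (ResidueField 𝒪)) // IsSlicedLift c r ∧ Dm 𝒟 r} := fun φ =>
    ⟨mapMat (φ : (BigS 𝒪 ⧸ I) →+* DualNumber (ResidueField 𝒪)) (canRep I hrep),
      hsl.map φ (isLocalHom_of_testAlgebra hdual φ), Dm_map h𝒟 hA hdual φ hdm⟩
  refine Nat.card_le_card_of_injective Φ ?_
  intro φ ψ hφψ
  have h1 : mapMat (φ : (BigS 𝒪 ⧸ I) →+* DualNumber (ResidueField 𝒪)) (canRep I hrep) =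
      mapMat (ψ : (BigS 𝒪 ⧸ I) →+* DualNumber (ResidueField 𝒪)) (canRep I hrep) :=
    congrArg Subtype.val hφψ
  apply lv_algHom_ext_of_X
  intro σ a b
  have h2 := congrArg (fun f : GQ →* M2 (DualNumber (ResidueField 𝒪)) => f σ a b) h1
  simp only [mapMat_apply_apply, canRep_apply] at h2
  exact h2

end Inject

section Bound

variable {c : SliceCtx 𝒪}

/-- The uniform cardinality bound (field `bound` of `LevelAxioms`). -/
theorem lv_bound [Finite (ResidueField 𝒪)] (ϖ : 𝒪) (hϖ : maximalIdeal 𝒪 = Ideal.span {ϖ})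
    (h𝒟 : IsDeformationCondition 𝒪 𝒟) (htan : SlicedTangentFinite 𝒪 c 𝒟) (m : ℕ) :
    ∃ N : ℕ, ∀ I, IsDefIdeal c 𝒟 I → nbar c ^ m ≤ I → Nat.card (BigS 𝒪 ⧸ I) ≤ N := by
  letI := dualAlgebra 𝒪
  haveI := isLocalHom_dualAlgebra 𝒪
  haveI : Finite {r : GQ →* M2 (DualNumber (ResidueField 𝒪)) // IsSlicedLift c r ∧ Dm 𝒟 r} :=
    htan
  set T : ℕ :=
    Nat.card {r : GQ →* M2 (DualNumber (ResidueField 𝒪)) // IsSlicedLift c r ∧ Dm 𝒟 r} with hT
  refine ⟨Nat.card (ResidueField 𝒪) ^ Count.wordCount (T + 1) m, fun I hI hmI => ?_⟩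
  obtain ⟨hloc, hA⟩ := hI.isArtinianTestAlgebra
  haveI := hA.isLocalHom
  have hcard : Nat.card ((BigS 𝒪 ⧸ I) →ₐ[𝒪] DualNumber (ResidueField 𝒪)) ≤ T :=
    lv_card_algHom_dual_le h𝒟 htan hA hI.isRepIdeal hI.isSlicedLift hI.dm
  haveI : Finite ((BigS 𝒪 ⧸ I) →ₐ[𝒪] DualNumber (ResidueField 𝒪)) := by
    haveI : Finite (BigS 𝒪 ⧸ I) := hI.finite
    haveI : Finite (DualNumber (ResidueField 𝒪)) :=
      inferInstanceAs (Finite (ResidueField 𝒪 × ResidueField 𝒪))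
    exact Finite.of_injective (fun φ => (φ : (BigS 𝒪 ⧸ I) → DualNumber (ResidueField 𝒪)))
      DFunLike.coe_injective
  have hfs : ∀ s : Finset ((BigS 𝒪 ⧸ I) →ₐ[𝒪] DualNumber (ResidueField 𝒪)), s.card ≤ T := by
    intro s
    refine le_trans ?_ hcard
    have := Fintype.ofFinite ((BigS 𝒪 ⧸ I) →ₐ[𝒪] DualNumber (ResidueField 𝒪))
    rw [Nat.card_eq_fintype_card]
    exact Finset.card_le_univ s
  have hpow : maximalIdeal (BigS 𝒪 ⧸ I) ^ m = ⊥ := (hI.pow_maximalIdeal_eq_bot_iff m).mpr hmI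
  exact (Count.card_le_of_algHom_bound (𝒪 := 𝒪) (A := BigS 𝒪 ⧸ I) hA.residue_surjective ϖ hϖ
    (fun o => rfl) m hpow T hfs).2

end Bound

section Main

variable {𝒪 : Type} [CommRing 𝒪] [IsDomain 𝒪] [IsDiscreteValuationRing 𝒪]
  [Finite (ResidueField 𝒪)]
  {𝒟 : ∀ ⦃A : Type⦄ [CommRing A] [IsLocalRing A] [Algebra 𝒪 A], GaloisRepAdic A → Prop}

set_option linter.unusedVariables false in
/-- The deformation ideals satisfy the axioms of `LevelLattice.lean`. -/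
theorem levelAxioms {c : SliceCtx 𝒪} (hc : c.Valid) (h𝒟 : IsDeformationCondition 𝒪 𝒟)
    (hspan : Submodule.span (ResidueField 𝒪) (Set.range c.rbar) = ⊤)
    (hbarD : Dm 𝒟 c.rbar) (htan : SlicedTangentFinite 𝒪 c 𝒟) :
    LevelAxioms (nbar c) (IsDefIdeal c 𝒟) where
  le := fun _ hI => hI.le_nbar
  up := fun _ _ hI hIJ hJ => hI.of_le h𝒟 hIJ hJ
  inf := fun _ _ hI hJ => hI.inf h𝒟 hJ
  fin := fun _ hI => hI.finite
  top := isDefIdeal_nbar hc h𝒟 hbarD
  bound := by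
    obtain ⟨ϖ, hϖ⟩ := IsDiscreteValuationRing.exists_irreducible 𝒪
    exact lv_bound ϖ ((IsDiscreteValuationRing.irreducible_iff_uniformizer ϖ).mp hϖ) h𝒟 htan

end Main

end Fermat.Agent.S53

end
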