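import Mathlib
import Fermat.Prelude.Def_GaloisRep_Adic
import Fermat.Agent.S53.MatrixRep
import Fermat.Agent.S53.Schur
import Fermat.Agent.S53.Slice

set_option autoImplicit false

namespace Fermat.Agent.S53

open IsLocalRing Matrix

/-- Slice data for a residual representation in matrix form over `k = ResidueField O`:
`rbar g0` is in companion form, the `(i,j)` entry of the commutator of `rbar g1` and `rbar g0`
is nonzero, the image of `rbar` spans the matrix algebra, and `lift` is an entrywise
set-theoretic lift of `rbar` to `O`. -/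
structure SliceData (O : Type) [CommRing O] [IsLocalRing O] where
  rbar : GQ →* M2 (ResidueField O)
  finLevel : GaloisFactorsThroughFiniteLevel rbar
  lift : GQ → M2 O
  lift_spec : ∀ σ, (lift σ).map (residue O) = rbar σ
  g0 : GQ
  g1 : GQ
  i : Fin 2
  j : Fin 2
  h00 : rbar g0 0 0 = 0
  h10 : rbar g0 1 0 = 1
  hcomm : (rbar g1 * rbar g0 - rbar g0 * rbar g1) i j ≠ 0
  span_eq_top : Submodule.span (ResidueField O) (Set.range rbar) = ⊤

namespace SliceData

variable {O : Type} [CommRing O] [IsLocalRing O] (S : SliceData O)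

/-- the pinned value of the `(i,j)` entry of `r g1` -/
def c0 : O := S.lift S.g1 S.i S.j

/-- The sliced lifts of `rbar` to a local `O`-algebra `A`: adically continuous, congruent to
the fixed lift entrywise, and slice-normalised. No deformation condition here. -/
def Sl ⦃A : Type⦄ [CommRing A] [IsLocalRing A] [Algebra O A] (r : GQ →* M2 A) : Prop :=
  IsAdicCts r ∧ (∀ σ a b, r σ a b - algebraMap O A (S.lift σ a b) ∈ maximalIdeal A) ∧
    IsSliced (r S.g0) (r S.g1) S.i S.j (algebraMap O A S.c0)

variable {S}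

section Basic

variable {A : Type} [CommRing A] [IsLocalRing A] [Algebra O A]

theorem Sl.cts {r : GQ →* M2 A} (h : S.Sl r) : IsAdicCts r := h.1

theorem Sl.congr {r : GQ →* M2 A} (h : S.Sl r) (σ : GQ) (a b : Fin 2) :
    r σ a b - algebraMap O A (S.lift σ a b) ∈ maximalIdeal A := h.2.1 σ a b

theorem Sl.sliced {r : GQ →* M2 A} (h : S.Sl r) :
    IsSliced (r S.g0) (r S.g1) S.i S.j (algebraMap O A S.c0) := h.2.2

/-- two sliced lifts are congruent modulo the maximal ideal -/
theorem Sl.sub_mem {r r' : GQ →* M2 A} (h : S.Sl r) (h' : S.Sl r') (σ : GQ) (a b : Fin 2) :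
    r σ a b - r' σ a b ∈ maximalIdeal A := by
  have := Ideal.sub_mem _ (h.congr σ a b) (h'.congr σ a b)
  simpa using this

theorem isUnit_lift_comm (S : SliceData O) :
    IsUnit ((S.lift S.g1 * S.lift S.g0 - S.lift S.g0 * S.lift S.g1) S.i S.j) := by
  have h : residue O ((S.lift S.g1 * S.lift S.g0 - S.lift S.g0 * S.lift S.g1) S.i S.j) =
      (S.rbar S.g1 * S.rbar S.g0 - S.rbar S.g0 * S.rbar S.g1) S.i S.j := by
    rw [← S.lift_spec S.g1, ← S.lift_spec S.g0]
    have : ((S.lift S.g1).map (residue O) * (S.lift S.g0).map (residue O) -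
        (S.lift S.g0).map (residue O) * (S.lift S.g1).map (residue O)) =
        (S.lift S.g1 * S.lift S.g0 - S.lift S.g0 * S.lift S.g1).map (residue O) := by
      rw [Matrix.map_sub (f := residue O) (by intro a b; exact map_sub _ a b),
        Matrix.map_mul, Matrix.map_mul]
    rw [this, Matrix.map_apply]
  have hne : residue O ((S.lift S.g1 * S.lift S.g0 - S.lift S.g0 * S.lift S.g1) S.i S.j) ≠ 0 := by
    rw [h]; exact S.hcomm
  by_contra hnu
  exact hne ((residue_eq_zero_iff _).mpr ((mem_maximalIdeal _).mpr hnu))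

/-- the commutator entry of a sliced lift is a unit -/
theorem Sl.isUnit_comm {r : GQ →* M2 A} (h : S.Sl r) :
    IsUnit ((r S.g1 * r S.g0 - r S.g0 * r S.g1) S.i S.j) := by
  have hu : IsUnit (((S.lift S.g1).map (algebraMap O A) * (S.lift S.g0).map (algebraMap O A) -
      (S.lift S.g0).map (algebraMap O A) * (S.lift S.g1).map (algebraMap O A)) S.i S.j) := by
    have : ((S.lift S.g1).map (algebraMap O A) * (S.lift S.g0).map (algebraMap O A) -
        (S.lift S.g0).map (algebraMap O A) * (S.lift S.g1).map (algebraMap O A)) =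
        (S.lift S.g1 * S.lift S.g0 - S.lift S.g0 * S.lift S.g1).map (algebraMap O A) := by
      rw [Matrix.map_sub (f := algebraMap O A) (by intro a b; exact map_sub _ a b),
        Matrix.map_mul, Matrix.map_mul]
    rw [this, Matrix.map_apply]
    exact (isUnit_lift_comm S).map _
  refine isUnit_commutator_of_entriesIn _ _ _ _ ?_ ?_ S.i S.j hu
  · intro a b
    simpa using h.congr S.g0 a b
  · intro a b
    simpa using h.congr S.g1 a b

end Basic


section Map

variable {A B : Type} [CommRing A] [IsLocalRing A] [Algebra O A]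
  [CommRing B] [IsLocalRing B] [Algebra O B]

/-- sliced lifts are preserved by local `O`-algebra homomorphisms -/
theorem Sl.map {r : GQ →* M2 A} (h : S.Sl r) (φ : A →ₐ[O] B)
    (hφ : IsLocalHom (φ : A →+* B)) : S.Sl (mapMat (φ : A →+* B) r) := by
  refine ⟨h.cts.map _ hφ, fun σ a b => ?_, ?_, ?_, ?_⟩
  · have h1 : mapMat (φ : A →+* B) r σ a b - algebraMap O B (S.lift σ a b) =
        φ (r σ a b - algebraMap O A (S.lift σ a b)) := by
      rw [map_sub, AlgHom.commutes]; rfl
    rw [h1]
    have := h.congr σ a b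
    rw [mem_maximalIdeal, mem_nonunits_iff] at this ⊢
    intro hu
    exact this (hφ.map_nonunit _ hu)
  · show φ (r S.g0 0 0) = 0
    rw [h.sliced.1, map_zero]
  · show φ (r S.g0 1 0) = 1
    rw [h.sliced.2.1, map_one]
  · show φ (r S.g1 S.i S.j) = algebraMap O B S.c0
    rw [h.sliced.2.2, AlgHom.commutes]

/-- sliced-ness descends along injective local homomorphisms -/
theorem Sl.of_map_injective {r : GQ →* M2 A} (φ : A →ₐ[O] B) (hinj : Function.Injective φ)
    (hr : IsAdicCts r) (h : S.Sl (mapMat (φ : A →+* B) r)) : S.Sl r := by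
  refine ⟨hr, fun σ a b => ?_, ?_, ?_, ?_⟩
  · have h1 : mapMat (φ : A →+* B) r σ a b - algebraMap O B (S.lift σ a b) =
        φ (r σ a b - algebraMap O A (S.lift σ a b)) := by
      rw [map_sub, AlgHom.commutes]; rfl
    have := h.congr σ a b
    rw [h1] at this
    rw [mem_maximalIdeal, mem_nonunits_iff] at this ⊢
    intro hu
    exact this (hu.map φ)
  · apply hinj
    rw [map_zero]
    exact h.sliced.1
  · apply hinj
    rw [map_one]
    exact h.sliced.2.1
  · apply hinj
    rw [AlgHom.commutes]
    exact h.sliced.2.2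

/-- sliced-ness of a lift over a subring of a product, detected on the two projections -/
theorem Sl.of_map_pair {C : Type} [CommRing C] [IsLocalRing C] [Algebra O C]
    {r : GQ →* M2 A} (pB : A →ₐ[O] B) (pC : A →ₐ[O] C)
    (hinj : ∀ x : A, pB x = 0 → pC x = 0 → x = 0)
    (hr : IsAdicCts r) (hB : S.Sl (mapMat (pB : A →+* B) r))
    (hC : S.Sl (mapMat (pC : A →+* C) r)) : S.Sl r := by
  have key : ∀ x y : A, pB x = pB y → pC x = pC y → x = y := by
    intro x y h1 h2
    have := hinj (x - y) (by rw [map_sub, h1, sub_self]) (by rw [map_sub, h2, sub_self])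
    exact sub_eq_zero.mp this
  refine ⟨hr, fun σ a b => ?_, ?_, ?_, ?_⟩
  · have h1 : mapMat (pB : A →+* B) r σ a b - algebraMap O B (S.lift σ a b) =
        pB (r σ a b - algebraMap O A (S.lift σ a b)) := by
      rw [map_sub, AlgHom.commutes]; rfl
    have := hB.congr σ a b
    rw [h1] at this
    rw [mem_maximalIdeal, mem_nonunits_iff] at this ⊢
    intro hu
    exact this (hu.map pB)
  · apply key
    · rw [map_zero]; exact hB.sliced.1
    · rw [map_zero]; exact hC.sliced.1
  · apply key
    · rw [map_one]; exact hB.sliced.2.1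
    · rw [map_one]; exact hC.sliced.2.1
  · apply key
    · rw [AlgHom.commutes]; exact hB.sliced.2.2
    · rw [AlgHom.commutes]; exact hC.sliced.2.2

end Map

section Residual

variable {A : Type} [CommRing A] [IsLocalRing A] [Algebra O A] [IsLocalHom (algebraMap O A)]

/-- the reduction of a sliced lift is the base change of `rbar` -/
theorem Sl.map_residue {r : GQ →* M2 A} (h : S.Sl r) :
    mapMat (residue A) r = mapMat (ResidueField.map (algebraMap O A)) S.rbar := by
  ext σ a b
  rw [mapMat_apply_apply, mapMat_apply_apply, ← S.lift_spec σ, Matrix.map_apply,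
    ResidueField.map_residue]
  have := h.congr σ a b
  rw [← residue_eq_zero_iff, map_sub, sub_eq_zero] at this
  exact this

/-- entrywise congruence to the fixed lift, from the reduction -/
theorem congr_of_map_residue {r : GQ →* M2 A}
    (h : mapMat (residue A) r = mapMat (ResidueField.map (algebraMap O A)) S.rbar)
    (σ : GQ) (a b : Fin 2) :
    r σ a b - algebraMap O A (S.lift σ a b) ∈ maximalIdeal A := by
  rw [← residue_eq_zero_iff, map_sub, sub_eq_zero]
  have h1 := congrArg (fun f : GQ →* M2 (ResidueField A) => f σ a b) h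
  simp only [mapMat_apply_apply] at h1
  rw [h1, ← S.lift_spec σ, Matrix.map_apply, ResidueField.map_residue]

/-- Schur's lemma for the reduction of a sliced lift -/
theorem Sl.schur {r : GQ →* M2 A} (h : S.Sl r) (X : M2 (ResidueField A))
    (hX : ∀ g, X * (residue A).mapMatrix (r g) = (residue A).mapMatrix (r g) * X) :
    ∃ x : ResidueField A, X = x • (1 : M2 (ResidueField A)) := by
  have hspan := Schur.matrix_span_map_eq_top (ResidueField.map (algebraMap O A)) S.rbar
    S.span_eq_top
  have hr : ∀ g, (residue A).mapMatrix (r g) =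
      (S.rbar g).map (ResidueField.map (algebraMap O A)) := by
    intro g
    have := congrArg (fun f : GQ →* M2 (ResidueField A) => f g) h.map_residue
    simpa using this
  obtain ⟨x, hx⟩ := Schur.matrix_scalar_of_commute_span _ hspan X (fun g => by
    rw [← hr g]; exact hX g)
  refine ⟨x, ?_⟩
  rw [hx]
  ext a b
  simp [Matrix.scalar_apply, Matrix.diagonal_apply, Matrix.one_apply]

/-- RIGIDITY: two sliced lifts which are conjugate are equal. -/
theorem Sl.eq_of_conj {r r' : GQ →* M2 A} (h : S.Sl r) (h' : S.Sl r')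
    (Q : M2 A) (hQ : IsUnit Q.det) (hQr : ∀ σ, Q * r σ = r' σ * Q) : r = r' :=
  rep_slice_unique r r' S.g0 S.g1 S.i S.j (algebraMap O A S.c0) h.sliced h'.sliced h.isUnit_comm
    (fun g a b => h.sub_mem h' g a b) h.schur Q hQ hQr

/-- RIGIDITY in terms of `GaloisRepAdic`: the shape wanted by the universality step. -/
theorem Sl.eq_of_isEquiv {r r' : GQ →* M2 A} (h : S.Sl r) (h' : S.Sl r')
    (he : (ofMat r' h'.cts).IsEquiv (ofMat r h.cts)) : r' = r := by
  obtain ⟨Q, hQ, hQr⟩ := (ofMat_isEquiv_iff h'.cts h.cts).mp he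
  exact h'.eq_of_conj h Q hQ hQr

end Residual


section Exists

variable {A : Type} [CommRing A] [IsLocalRing A] [Algebra O A]

theorem isAdicCts_conjRep {r : GQ →* M2 A} (hr : IsAdicCts r) (P : M2 A) (hP : IsUnit P.det) :
    IsAdicCts (conjRep P hP r) := by
  intro n
  obtain ⟨L, hL, h⟩ := hr n
  refine ⟨L, hL, fun σ hσ a b => ?_⟩
  have h1 : conjRep P hP r σ - 1 = P⁻¹ * (r σ - 1) * P := by
    rw [conjRep_apply, mul_sub, sub_mul, mul_one, Matrix.nonsing_inv_mul P hP]
  rw [h1]
  have h2 : EntriesIn (maximalIdeal A ^ n) (r σ - 1) := fun a b => h σ hσ a b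
  exact (h2.mul_left P⁻¹).mul_right P a b

/-- the commutator entry is a unit as soon as the lift is congruent to the fixed lift -/
theorem isUnit_comm_of_congr {r : GQ →* M2 A}
    (h : ∀ σ a b, r σ a b - algebraMap O A (S.lift σ a b) ∈ maximalIdeal A) :
    IsUnit ((r S.g1 * r S.g0 - r S.g0 * r S.g1) S.i S.j) := by
  have hu : IsUnit (((S.lift S.g1).map (algebraMap O A) * (S.lift S.g0).map (algebraMap O A) -
      (S.lift S.g0).map (algebraMap O A) * (S.lift S.g1).map (algebraMap O A)) S.i S.j) := by
    have : ((S.lift S.g1).map (algebraMap O A) * (S.lift S.g0).map (algebraMap O A) -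
        (S.lift S.g0).map (algebraMap O A) * (S.lift S.g1).map (algebraMap O A)) =
        (S.lift S.g1 * S.lift S.g0 - S.lift S.g0 * S.lift S.g1).map (algebraMap O A) := by
      rw [Matrix.map_sub (f := algebraMap O A) (by intro a b; exact map_sub _ a b),
        Matrix.map_mul, Matrix.map_mul]
    rw [this, Matrix.map_apply]
    exact (isUnit_lift_comm S).map _
  refine isUnit_commutator_of_entriesIn _ _ _ _ ?_ ?_ S.i S.j hu
  · intro a b
    simpa using h S.g0 a b
  · intro a b
    simpa using h S.g1 a b

variable [IsLocalHom (algebraMap O A)] [IsAdicComplete (maximalIdeal A) A]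

/-- EXISTENCE: every deformation of `rbar` to a complete local `O`-algebra has a sliced
matrix form. -/
theorem exists_sl (S : SliceData O) (ρ : GaloisRepAdic A)
    (hres : ρ.residual.IsEquiv ((ofMatRes S.rbar S.finLevel).baseChangeAlong
      (ResidueField.map (algebraMap O A)))) :
    ∃ (r : GQ →* M2 A) (hr : S.Sl r), ρ.IsEquiv (ofMat r hr.cts) := by
  obtain ⟨r₀, hr₀, he, hmap⟩ := exists_ofMat_isEquiv_of_residual ρ
    (ResidueField.map (algebraMap O A)) S.rbar S.finLevel hres
  have hcong := congr_of_map_residue (S := S) hmap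
  have hentry : ∀ σ a b, residue A (r₀ σ a b) =
      ResidueField.map (algebraMap O A) (S.rbar σ a b) := by
    intro σ a b
    have h1 := congrArg (fun f : GQ →* M2 (ResidueField A) => f σ a b) hmap
    simpa only [mapMat_apply_apply] using h1
  have hN0 : r₀ S.g0 0 0 ∈ maximalIdeal A := by
    rw [← residue_eq_zero_iff, hentry, S.h00, map_zero]
  have hN1 : r₀ S.g0 1 0 - 1 ∈ maximalIdeal A := by
    rw [← residue_eq_zero_iff, map_sub, hentry, S.h10, map_one, map_one, sub_self]
  have hu := isUnit_comm_of_congr (S := S) hcong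
  have hc : r₀ S.g1 S.i S.j - algebraMap O A S.c0 ∈ maximalIdeal A := hcong S.g1 S.i S.j
  obtain ⟨P, hP, -, hsl, hcongr⟩ := rep_slice_exists r₀ S.g0 S.g1 S.i S.j
    (algebraMap O A S.c0) hN0 hN1 hu hc
  have hcts : IsAdicCts (conjRep P hP r₀) := isAdicCts_conjRep hr₀ P hP
  have hSl : S.Sl (conjRep P hP r₀) := by
    refine ⟨hcts, fun σ a b => ?_, hsl⟩
    have := Ideal.add_mem _ (hcongr σ a b) (hcong σ a b)
    simpa using this
  refine ⟨conjRep P hP r₀, hSl, isEquiv_trans he (isEquiv_symm ?_)⟩
  exact (ofMat_isEquiv_iff hcts hr₀).mpr ⟨P, hP, fun σ => mul_conjRep P hP r₀ σ⟩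

end Exists

end SliceData

/-! ### Existence of slice data for an absolutely irreducible residual representation -/

theorem span_range_conjRep {k : Type} [Field k] (rbar : GQ →* M2 k) (P : M2 k)
    (hP : IsUnit P.det) (h : Submodule.span k (Set.range rbar) = ⊤) :
    Submodule.span k (Set.range (conjRep P hP rbar)) = ⊤ := by
  let c : M2 k →ₗ[k] M2 k := (LinearMap.mulLeft k P⁻¹).comp (LinearMap.mulRight k P)
  have hc : ∀ X, c X = P⁻¹ * X * P := fun X => by
    simp [c, mul_assoc]
  have hsurj : Function.Surjective c := by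
    intro Y
    refine ⟨P * Y * P⁻¹, ?_⟩
    rw [hc]
    have h1 : P⁻¹ * P = 1 := Matrix.nonsing_inv_mul P hP
    calc P⁻¹ * (P * Y * P⁻¹) * P = (P⁻¹ * P) * Y * (P⁻¹ * P) := by simp only [mul_assoc]
      _ = Y := by rw [h1, one_mul, mul_one]
  have hrange : Set.range (conjRep P hP rbar) = c '' Set.range rbar := by
    rw [← Set.range_comp]
    ext X
    constructor
    · rintro ⟨σ, rfl⟩
      exact ⟨σ, by simp [hc]⟩
    · rintro ⟨σ, rfl⟩
      exact ⟨σ, by simp [hc]⟩
  rw [hrange, ← Submodule.map_span, h, Submodule.map_top]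
  exact LinearMap.range_eq_top.mpr hsurj

theorem exists_sliceData (O : Type) [CommRing O] [IsLocalRing O]
    (ρbar : ResidualGaloisRep (ResidueField O)) (habs : ρbar.IsAbsolutelyIrreducible) :
    ∃ S : SliceData O, ρbar.IsEquiv (ofMatRes S.rbar S.finLevel) := by
  classical
  set b := stdBasisRes ρbar with hb
  set rbar0 := toMatRes ρbar b with hrbar0
  have h0 : GaloisFactorsThroughFiniteLevel rbar0 := toMatRes_finLevel ρbar b
  have hspan0 : Submodule.span (ResidueField O) (Set.range rbar0) = ⊤ := by
    have h1 := Schur.residual_span_eq_top ρbar habs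
    have h2 := (Schur.span_range_toMatrix_eq_top_iff b (fun σ => ρbar.ρ σ)).mpr h1
    exact h2
  have hschur0 : ∀ X : M2 (ResidueField O), (∀ g, X * rbar0 g = rbar0 g * X) →
      ∃ x : ResidueField O, X = x • (1 : M2 (ResidueField O)) := by
    intro X hX
    obtain ⟨x, hx⟩ := Schur.matrix_scalar_of_commute_span _ hspan0 X hX
    refine ⟨x, ?_⟩
    rw [hx]
    ext a b
    simp [Matrix.scalar_apply, Matrix.diagonal_apply, Matrix.one_apply]
  have hirr0 : ∃ g, rbar0 g 1 0 ≠ 0 := by
    by_contra hcon
    push Not at hcon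
    let ℓ : M2 (ResidueField O) →ₗ[ResidueField O] ResidueField O :=
      { toFun := fun X => X 1 0
        map_add' := fun X Y => rfl
        map_smul' := fun c X => rfl }
    have hle : Submodule.span (ResidueField O) (Set.range rbar0) ≤ LinearMap.ker ℓ := by
      rw [Submodule.span_le]
      rintro X ⟨g, rfl⟩
      exact hcon g
    have hmem : Matrix.single (1 : Fin 2) (0 : Fin 2) (1 : ResidueField O) ∈
        LinearMap.ker ℓ := hle (hspan0 ▸ Submodule.mem_top)
    have : (Matrix.single (1 : Fin 2) (0 : Fin 2) (1 : ResidueField O)) 1 0 = 0 := hmem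
    simp at this
  obtain ⟨P, hP, g0, g1, i, j, h00, h10, hcomm⟩ := exists_slice_data rbar0 hirr0 hschur0
  have hfin : GaloisFactorsThroughFiniteLevel (conjRep P hP rbar0) := by
    obtain ⟨L, hL, h1⟩ := h0
    refine ⟨L, hL, fun σ hσ => ?_⟩
    rw [conjRep_apply, h1 σ hσ, mul_one, Matrix.nonsing_inv_mul P hP]
  refine ⟨{ rbar := conjRep P hP rbar0
            finLevel := hfin
            lift := fun σ => (exists_map_residue_eq (conjRep P hP rbar0 σ)).choose
            lift_spec := fun σ => (exists_map_residue_eq (conjRep P hP rbar0 σ)).choose_spec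
            g0 := g0
            g1 := g1
            i := i
            j := j
            h00 := h00
            h10 := h10
            hcomm := hcomm
            span_eq_top := span_range_conjRep rbar0 P hP hspan0 }, ?_⟩
  refine resIsEquiv_trans ⟨equivOfMatRes ρbar b⟩ (resIsEquiv_symm ?_)
  exact (ofMatRes_isEquiv_iff hfin h0).mpr ⟨P, hP, fun σ => mul_conjRep P hP rbar0 σ⟩

end Fermat.Agent.S53
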