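import Fermat.Agent.S53.TangentDefs
import Fermat.Agent.S53.Sliced
import Fermat.Agent.S53.NormalForm
import Fermat.Agent.S53.DmAxioms

/-! P-G: slice context from absolute irreducibility, `hbar ⟹ Dm 𝒟 c.rbar`, and
`TangentFinite ⟹ SlicedTangentFinite`. -/

open IsLocalRing GaloisRep

noncomputable section

namespace Fermat.Agent.S53

section Ctx

variable (𝒪 : Type) [CommRing 𝒪] [IsLocalRing 𝒪]

/-- Slice context attached to an absolutely irreducible residual representation. -/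
theorem exists_sliceCtx (ρbar : ResidualGaloisRep (ResidueField 𝒪))
    (habs : ρbar.IsAbsolutelyIrreducible) :
    ∃ (c : SliceCtx 𝒪) (hc : c.Valid), ρbar.IsEquiv (ofMatRes c.rbar hc.finiteLevel) ∧
      Submodule.span (ResidueField 𝒪) (Set.range c.rbar) = ⊤ := by
  obtain ⟨S, hS⟩ := exists_sliceData 𝒪 ρbar habs
  refine ⟨⟨S.rbar, S.g0, S.g1, S.i, S.j, S.c0⟩, ⟨S.finLevel, S.h00, S.h10, ?_, S.hcomm⟩, hS,
    S.span_eq_top⟩
  have := congrFun (congrFun (S.lift_spec S.g1) S.i) S.j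
  simpa [SliceData.c0] using this

end Ctx

section Bar

variable {𝒪 : Type} [CommRing 𝒪] [IsLocalRing 𝒪]
  {𝒟 : ∀ ⦃A : Type⦄ [CommRing A] [IsLocalRing A] [Algebra 𝒪 A], GaloisRepAdic A → Prop}

lemma isEquiv_ofResidualGaloisRep {k : Type} [Field k] {ρ₁ ρ₂ : ResidualGaloisRep k}
    (h : ρ₁.IsEquiv ρ₂) :
    (GaloisRepAdic.ofResidualGaloisRep ρ₁).IsEquiv (GaloisRepAdic.ofResidualGaloisRep ρ₂) := by
  obtain ⟨e⟩ := h
  exact ⟨⟨e.toLinearEquiv, e.map_apply⟩⟩

/-- The residual representation in matrix form is of type `𝒟`. -/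
theorem dm_rbar_of_hbar (h𝒟 : IsDeformationCondition 𝒪 𝒟) {c : SliceCtx 𝒪} (hc : c.Valid)
    {ρbar : ResidualGaloisRep (ResidueField 𝒪)}
    (he : ρbar.IsEquiv (ofMatRes c.rbar hc.finiteLevel))
    (hbar : 𝒟 (GaloisRepAdic.ofResidualGaloisRep ρbar)) : Dm 𝒟 c.rbar := by
  have h1 := isEquiv_ofResidualGaloisRep he
  rw [ofResidualGaloisRep_ofMatRes] at h1
  exact Dm.of_isEquiv h𝒟 residueField_isArtinianTestAlgebra _ h1 hbar

end Bar

section Tan

variable {𝒪 : Type} [CommRing 𝒪] [IsLocalRing 𝒪]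
  {𝒟 : ∀ ⦃A : Type⦄ [CommRing A] [IsLocalRing A] [Algebra 𝒪 A], GaloisRepAdic A → Prop}

lemma finite_of_quotient_inj {α β : Type*} (s : Setoid β) (hs : Finite (Quotient s)) (f : α → β)
    (hf : ∀ a a', s.r (f a) (f a') → a = a') : Finite α :=
  Finite.of_injective (fun a => Quotient.mk s (f a)) (fun a a' h => hf a a' (Quotient.exact h))

lemma residueFieldMap_dualAlgebra :
    letI := dualAlgebra 𝒪
    haveI := isLocalHom_dualAlgebra 𝒪
    ResidueField.map (algebraMap 𝒪 (DualNumber (ResidueField 𝒪))) =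
      (residue (DualNumber (ResidueField 𝒪))).comp
        (algebraMap (ResidueField 𝒪) (DualNumber (ResidueField 𝒪))) := by
  letI := dualAlgebra 𝒪
  haveI := isLocalHom_dualAlgebra 𝒪
  refine RingHom.ext fun y => ?_
  obtain ⟨x, rfl⟩ := residue_surjective y
  rw [ResidueField.map_residue]
  rfl

/-- Tangent finiteness implies its sliced matrix form. -/
theorem slicedTangentFinite_of_tangentFinite
    {c : SliceCtx 𝒪} (hc : c.Valid)
    (hspan : Submodule.span (ResidueField 𝒪) (Set.range c.rbar) = ⊤)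
    {ρbar : ResidualGaloisRep (ResidueField 𝒪)}
    (he : ρbar.IsEquiv (ofMatRes c.rbar hc.finiteLevel))
    (hfin : TangentFinite 𝒪 ρbar 𝒟) : SlicedTangentFinite 𝒪 c 𝒟 := by
  unfold SlicedTangentFinite
  unfold TangentFinite at hfin
  letI := dualAlgebra 𝒪
  haveI := isLocalHom_dualAlgebra 𝒪
  have key : ∀ r : GQ →* M2 (DualNumber (ResidueField 𝒪)), ∀ h : IsSlicedLift c r,
      (ofMat r h.cts).residual.IsEquiv (ρbar.baseChangeAlong
        ((residue (DualNumber (ResidueField 𝒪))).comp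
        (algebraMap (ResidueField 𝒪) (DualNumber (ResidueField 𝒪))))) := by
    intro r h
    have h1 := slicedLift_residual hc h
    rw [residueFieldMap_dualAlgebra] at h1
    exact (residual_isEquiv_congr he _ _).mpr h1
  refine finite_of_quotient_inj _ hfin
    (fun r : {r : GQ →* M2 (DualNumber (ResidueField 𝒪)) // IsSlicedLift c r ∧ Dm 𝒟 r} =>
      ⟨ofMat r.1 r.2.1.cts, r.2.2.holds _, key r.1 r.2.1⟩) ?_
  intro r r' h2
  exact Subtype.ext (slicedLift_unique hc hspan r.2.1 r'.2.1 h2)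

end Tan

end Fermat.Agent.S53

end
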