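import Fermat.Agent.S53.LevelTower

/-! The universal sliced representation over the limit of the level tower. -/

set_option autoImplicit false
set_option linter.unusedSectionVars false
set_option linter.style.haveILetI false

open IsLocalRing

noncomputable section

namespace Fermat.Agent.S53

variable {𝒪 : Type} [CommRing 𝒪] [IsLocalRing 𝒪]

section LimitExt

variable {T : Tower 𝒪} (L : T.Limit)

/-- Elements of the limit are determined by their projections. -/
lemma Tower.Limit.ext_of_p {x y : L.R} (h : ∀ n, L.p n x = L.p n y) : x = y := by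
  have hcompat : ∀ n, T.tr n (L.p (n + 1) x) = L.p n x := fun n => by
    rw [← L.tr_comp_p n]; rfl
  obtain ⟨z, _, hz⟩ := L.existsUnique_of_compatible (fun n => L.p n x) hcompat
  rw [hz x (fun n => rfl), hz y (fun n => (h n).symm)]

/-- Matrices over the limit are determined by their projections. -/
lemma Tower.Limit.matrix_ext_of_p {M N : M2 L.R} (h : ∀ n, M.map (L.p n) = N.map (L.p n)) :
    M = N := by
  ext a b
  apply L.ext_of_p
  intro n
  have := congrFun (congrFun (h n) a) b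
  simpa only [Matrix.map_apply] using this

/-- A local homomorphism to a local ring with `𝔪 ^ (n + 1) = ⊥` kills the kernel of `p n`. -/
lemma Tower.Limit.eq_zero_of_p_eq_zero {B : Type} [CommRing B] [IsLocalRing B]
    (ψ : L.R →+* B) (hψ : IsLocalHom ψ) {n : ℕ} (hn : maximalIdeal B ^ (n + 1) = ⊥) {x : L.R}
    (hx : L.p n x = 0) : ψ x = 0 := by
  have hx' : x ∈ maximalIdeal L.R ^ (n + 1) := by
    rw [← L.ker_p n]; exact hx
  have h1 : (maximalIdeal L.R).map ψ ≤ maximalIdeal B := by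
    rw [Ideal.map_le_iff_le_comap]
    intro y hy
    rw [Ideal.mem_comap, mem_maximalIdeal, mem_nonunits_iff] at *
    exact fun hu => hy (hψ.map_nonunit y hu)
  have h2 : ψ x ∈ maximalIdeal B ^ (n + 1) := by
    have : ψ x ∈ (maximalIdeal L.R ^ (n + 1)).map ψ := Ideal.mem_map_of_mem ψ hx'
    rw [Ideal.map_pow] at this
    exact Ideal.pow_right_mono h1 (n + 1) this
  rwa [hn, Ideal.mem_bot] at h2

end LimitExt

section UnivRep

variable {c : SliceCtx 𝒪}
  {𝒟 : ∀ ⦃A : Type⦄ [CommRing A] [IsLocalRing A] [Algebra 𝒪 A], GaloisRepAdic A → Prop}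
  (H : LevelAxioms (nbar c) (IsDefIdeal c 𝒟))

/-- The canonical representation at level `n` of the tower. -/
def levelRep (n : ℕ) : GQ →* M2 ((levelTowerAux H).A n) :=
  canRep (levelIdeal c 𝒟 (n + 1)) (lt_isRepIdeal (lt_isDefIdeal_level H n))

lemma levelRep_apply (n : ℕ) (σ : GQ) (a b : Fin 2) :
    levelRep H n σ a b =
      Ideal.Quotient.mk (levelIdeal c 𝒟 (n + 1)) (MvPolynomial.X (σ, a, b)) := rfl

lemma tr_levelRep (n : ℕ) (σ : GQ) (a b : Fin 2) :
    (levelTowerAux H).tr n (levelRep H (n + 1) σ a b) = levelRep H n σ a b := rfl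

lemma levelRep_isSlicedLift (n : ℕ) :
    haveI := (levelTowerAux H).isLocalHom n
    IsSlicedLift c (levelRep H n) :=
  lt_isSlicedLift (lt_isDefIdeal_level H n)

lemma levelRep_dm (n : ℕ) : Dm 𝒟 (levelRep H n) :=
  lt_dm (lt_isDefIdeal_level H n)

lemma levelTower_isArtinianTestAlgebra (n : ℕ) :
    GaloisRep.IsArtinianTestAlgebra 𝒪 ((levelTowerAux H).A n) :=
  lt_isArtinianTestAlgebra (lt_isDefIdeal_level H n)

lemma levelRep_finLevel (n : ℕ) : GaloisFactorsThroughFiniteLevel (levelRep H n) :=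
  haveI := (levelTowerAux H).isLocalHom n
  (levelRep_isSlicedLift H n).cts.finLevel_of_pow_eq_bot ((levelTowerAux H).pow_succ_eq_bot n)

lemma ev_levelRep (n : ℕ) (f : BigS 𝒪) :
    (ev (fun σ => levelRep H n σ) f : (levelTowerAux H).A n) =
      Ideal.Quotient.mk (levelIdeal c 𝒟 (n + 1)) f :=
  lt_ev_canRep_apply _ _ f

variable (L : (levelTowerAux H).Limit)

/-- The entries of the universal representation. -/
def univEntry (σ : GQ) (a b : Fin 2) : L.R :=
  (L.existsUnique_of_compatible (fun n => levelRep H n σ a b)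
    (fun n => tr_levelRep H n σ a b)).choose

lemma p_univEntry (n : ℕ) (σ : GQ) (a b : Fin 2) :
    L.p n (univEntry H L σ a b) = levelRep H n σ a b :=
  (L.existsUnique_of_compatible (fun n => levelRep H n σ a b)
    (fun n => tr_levelRep H n σ a b)).choose_spec.1 n

/-- The family of matrices of the universal representation. -/
def univFam (σ : GQ) : M2 L.R := Matrix.of fun a b => univEntry H L σ a b

lemma map_p_univFam (n : ℕ) (σ : GQ) : (univFam H L σ).map (L.p n) = levelRep H n σ := by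
  ext a b
  rw [Matrix.map_apply]
  exact p_univEntry H L n σ a b

/-- The universal representation over the limit ring. -/
def univRep : GQ →* M2 L.R where
  toFun := univFam H L
  map_one' := by
    apply L.matrix_ext_of_p
    intro n
    rw [map_p_univFam, map_one, Matrix.map_one _ (map_zero _) (map_one _)]
  map_mul' σ τ := by
    apply L.matrix_ext_of_p
    intro n
    rw [Matrix.map_mul, map_p_univFam, map_p_univFam, map_p_univFam, map_mul]

lemma p_univRep (n : ℕ) (σ : GQ) (a b : Fin 2) :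
    L.p n (univRep H L σ a b) = levelRep H n σ a b := p_univEntry H L n σ a b

lemma mapMat_p_univRep (n : ℕ) :
    mapMat ((L.p n : L.R →ₐ[𝒪] (levelTowerAux H).A n) : L.R →+* (levelTowerAux H).A n) (univRep H L) =
      levelRep H n := by
  ext σ a b
  rw [mapMat_apply_apply]
  exact p_univRep H L n σ a b

lemma p_ev_univRep (n : ℕ) (f : BigS 𝒪) :
    L.p n (ev (fun σ => univRep H L σ) f) =
      Ideal.Quotient.mk (levelIdeal c 𝒟 (n + 1)) f := by
  rw [← lt_ev_mapMat, mapMat_p_univRep, ev_levelRep]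

lemma univRep_isAdicCts : IsAdicCts (univRep H L) := by
  intro n
  obtain ⟨K, hK, h1⟩ := levelRep_finLevel H n
  refine ⟨K, hK, fun σ hσ i j => ?_⟩
  have h2 : L.p n ((univRep H L σ - 1) i j) = 0 := by
    have h3 : levelRep H n σ = 1 := h1 σ hσ
    rw [Matrix.sub_apply, map_sub, p_univRep, h3, Matrix.one_apply, Matrix.one_apply]
    split_ifs <;> simp
  have h4 : (univRep H L σ - 1) i j ∈ maximalIdeal L.R ^ (n + 1) := by
    rw [← L.ker_p n]; exact h2
  exact Ideal.pow_le_pow_right (Nat.le_succ n) h4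

lemma p_isLocalHom (n : ℕ) :
    IsLocalHom ((L.p n : L.R →ₐ[𝒪] (levelTowerAux H).A n) : L.R →+* (levelTowerAux H).A n) :=
  Function.Surjective.isLocalHom _ (L.p_surjective n)

lemma univRep_isSlicedLift : IsSlicedLift c (univRep H L) where
  cts := univRep_isAdicCts H L
  res := by
    haveI := (levelTowerAux H).isLocalHom 0
    have hloc := p_isLocalHom H L 0
    ext σ a b
    rw [mapMat_apply_apply, mapMat_apply_apply]
    obtain ⟨t, ht⟩ := residue_surjective (c.rbar σ a b)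
    have h1 := (levelRep_isSlicedLift H 0).residue_apply σ a b
    rw [← ht, nf_residueMap_residue] at h1 ⊢
    have h2 : levelRep H 0 σ a b - algebraMap 𝒪 ((levelTowerAux H).A 0) t ∈
        maximalIdeal ((levelTowerAux H).A 0) := nf_sub_mem_of_residue_eq h1
    have h3 : univRep H L σ a b - algebraMap 𝒪 L.R t ∈ maximalIdeal L.R := by
      rw [mem_maximalIdeal, mem_nonunits_iff] at h2 ⊢
      intro hu
      apply h2
      have := hu.map (L.p 0)
      rwa [map_sub, p_univRep, AlgHom.commutes] at this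
    rw [← residue_eq_zero_iff, map_sub, sub_eq_zero] at h3
    exact h3
  h00 := by
    apply L.ext_of_p
    intro n
    haveI := (levelTowerAux H).isLocalHom n
    rw [p_univRep, (levelRep_isSlicedLift H n).h00, map_zero]
  h10 := by
    apply L.ext_of_p
    intro n
    haveI := (levelTowerAux H).isLocalHom n
    rw [p_univRep, (levelRep_isSlicedLift H n).h10, map_one]
  hij := by
    apply L.ext_of_p
    intro n
    haveI := (levelTowerAux H).isLocalHom n
    rw [p_univRep, (levelRep_isSlicedLift H n).hij, AlgHom.commutes]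

omit [IsLocalRing 𝒪] in
/-- In an artinian local ring some `(n + 1)`-st power of the maximal ideal vanishes. -/
lemma ur_exists_pow_succ_maximalIdeal_eq_bot {B : Type} [CommRing B] [IsLocalRing B]
    [IsArtinianRing B] : ∃ n : ℕ, maximalIdeal B ^ (n + 1) = ⊥ := by
  obtain ⟨n, hn⟩ := (isArtinianRing_iff_isNilpotent_maximalIdeal B).mp inferInstance
  exact ⟨n, by rw [pow_succ, hn, zero_mul]; rfl⟩

omit [IsLocalRing 𝒪] in
lemma ur_liftₐ_mk {A B : Type} [CommRing A] [CommRing B] [Algebra 𝒪 A] [Algebra 𝒪 B]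
    (I : Ideal A) (f : A →ₐ[𝒪] B) (hI : ∀ a : A, a ∈ I → f a = 0) (x : A) :
    Ideal.Quotient.liftₐ I f hI (Ideal.Quotient.mk I x) = f x := by
  rfl

/-- A local homomorphism from the limit ring to a local ring with `𝔪 ^ (n + 1) = ⊥` factors
through level `n` on the image of `BigS`. -/
lemma levelIdeal_le_ker_ev_mapMat {B : Type} [CommRing B] [IsLocalRing B] [Algebra 𝒪 B]
    (q : L.R →ₐ[𝒪] B) (hq : IsLocalHom (q : L.R →+* B)) {n : ℕ}
    (hn : maximalIdeal B ^ (n + 1) = ⊥) (f : BigS 𝒪) (hf : f ∈ levelIdeal c 𝒟 (n + 1)) :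
    ev (fun σ => mapMat (q : L.R →+* B) (univRep H L) σ) f = 0 := by
  rw [lt_ev_mapMat]
  refine L.eq_zero_of_p_eq_zero (q : L.R →+* B) hq hn ?_
  rw [p_ev_univRep]
  exact Ideal.Quotient.eq_zero_iff_mem.mpr hf

theorem univRep_dm (h𝒟 : GaloisRep.IsDeformationCondition 𝒪 𝒟) : Dm 𝒟 (univRep H L) := by
  rw [Dm.iff_forall_surjective h𝒟 inferInstance L.residue_surjective (univRep H L)
    (univRep_isAdicCts H L)]
  intro B _ _ _ hB q hq _
  haveI := hB.isArtinian
  obtain ⟨n, hn⟩ := ur_exists_pow_succ_maximalIdeal_eq_bot (B := B)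
  obtain ⟨q', hq'mk⟩ : ∃ q' : (levelTowerAux H).A n →ₐ[𝒪] B, ∀ f : BigS 𝒪,
      q' (Ideal.Quotient.mk (levelIdeal c 𝒟 (n + 1)) f) =
        ev (fun σ => mapMat (q : L.R →+* B) (univRep H L) σ) f :=
    ⟨Ideal.Quotient.liftₐ (levelIdeal c 𝒟 (n + 1))
      (ev (fun σ => mapMat (q : L.R →+* B) (univRep H L) σ))
      (levelIdeal_le_ker_ev_mapMat H L q hq hn), fun f => ur_liftₐ_mk _ _ _ f⟩
  have hq' : mapMat (q' : (levelTowerAux H).A n →+* B) (levelRep H n) =
      mapMat (q : L.R →+* B) (univRep H L) := by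
    ext σ a b
    rw [mapMat_apply_apply, levelRep_apply]
    exact (hq'mk _).trans (ev_X _ σ a b)
  rw [← hq']
  exact Dm.map h𝒟 (levelTower_isArtinianTestAlgebra H n) hB q'
    (isLocalHom_of_testAlgebra hB q') (levelRep_dm H n)

theorem univRep_exists_algHom [Finite (ResidueField 𝒪)]
    (h𝒟 : GaloisRep.IsDeformationCondition 𝒪 𝒟)
    (B : Type) [CommRing B] [IsLocalRing B] [Algebra 𝒪 B] [IsLocalHom (algebraMap 𝒪 B)]
    (hB : GaloisRep.IsArtinianTestAlgebra 𝒪 B) (r : GQ →* M2 B) (hr : IsSlicedLift c r)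
    (hD : 𝒟 (ofMat r hr.cts)) :
    ∃ φ : L.R →ₐ[𝒪] B, IsLocalHom (φ : L.R →+* B) ∧
      mapMat (φ : L.R →+* B) (univRep H L) = r := by
  haveI := hB.isArtinian
  obtain ⟨n, hn⟩ := ur_exists_pow_succ_maximalIdeal_eq_bot (B := B)
  have hker : levelIdeal c 𝒟 (n + 1) ≤ RingHom.ker (ev (fun σ => r σ) : BigS 𝒪 →ₐ[𝒪] B) :=
    levelOf_le (isDefIdeal_ker_ev c h𝒟 hB r hr ⟨hr.cts, hD⟩)
      (lt_pow_nbar_le_ker_ev c r hr.res hn)
  obtain ⟨q', hq'mk⟩ : ∃ q' : (levelTowerAux H).A n →ₐ[𝒪] B, ∀ f : BigS 𝒪,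
      q' (Ideal.Quotient.mk (levelIdeal c 𝒟 (n + 1)) f) = ev (fun σ => r σ) f :=
    ⟨Ideal.Quotient.liftₐ (levelIdeal c 𝒟 (n + 1)) (ev (fun σ => r σ))
      (fun f hf => RingHom.mem_ker.mp (hker hf)), fun f => ur_liftₐ_mk _ _ _ f⟩
  refine ⟨q'.comp (L.p n), isLocalHom_of_testAlgebra hB _, ?_⟩
  ext σ a b
  rw [mapMat_apply_apply]
  show q' (L.p n (univRep H L σ a b)) = _
  rw [p_univRep, levelRep_apply]
  exact (hq'mk _).trans (ev_X _ σ a b)

theorem univRep_algHom_unique
    (B : Type) [CommRing B] [IsLocalRing B] [Algebra 𝒪 B]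
    (hB : GaloisRep.IsArtinianTestAlgebra 𝒪 B) (φ φ' : L.R →ₐ[𝒪] B)
    (hφ : IsLocalHom (φ : L.R →+* B)) (hφ' : IsLocalHom (φ' : L.R →+* B))
    (h : mapMat (φ : L.R →+* B) (univRep H L) = mapMat (φ' : L.R →+* B) (univRep H L)) :
    φ = φ' := by
  haveI := hB.isArtinian
  obtain ⟨n, hn⟩ := ur_exists_pow_succ_maximalIdeal_eq_bot (B := B)
  ext x
  obtain ⟨f, hf⟩ := Ideal.Quotient.mk_surjective (L.p n x)
  set y : L.R := ev (fun σ => univRep H L σ) f with hy
  have hxy : L.p n (x - y) = 0 := by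
    rw [map_sub, hy, p_ev_univRep, hf, sub_self]
  have h1 : φ (x - y) = 0 := L.eq_zero_of_p_eq_zero (φ : L.R →+* B) hφ hn hxy
  have h2 : φ' (x - y) = 0 := L.eq_zero_of_p_eq_zero (φ' : L.R →+* B) hφ' hn hxy
  rw [map_sub, sub_eq_zero] at h1 h2
  rw [h1, h2, hy, ← lt_ev_mapMat, ← lt_ev_mapMat, h]

/-- The universal sliced deformation over the limit of the level tower: the inputs of
`existsUnique_algHom_sliced` for `R := L.R`. -/
theorem exists_universal_sliced_aux [Finite (ResidueField 𝒪)]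
    (h𝒟 : GaloisRep.IsDeformationCondition 𝒪 𝒟) :
    ∃ (rR : GQ →* M2 L.R) (_ : IsSlicedLift c rR), Dm 𝒟 rR ∧
      (∀ (B : Type) [CommRing B] [IsLocalRing B] [Algebra 𝒪 B]
        [IsLocalHom (algebraMap 𝒪 B)],
        GaloisRep.IsArtinianTestAlgebra 𝒪 B → ∀ (r : GQ →* M2 B) (hr : IsSlicedLift c r),
          𝒟 (ofMat r hr.cts) →
            ∃ φ : L.R →ₐ[𝒪] B, IsLocalHom (φ : L.R →+* B) ∧ mapMat (φ : L.R →+* B) rR = r) ∧
      (∀ (B : Type) [CommRing B] [IsLocalRing B] [Algebra 𝒪 B]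
        [IsLocalHom (algebraMap 𝒪 B)],
        GaloisRep.IsArtinianTestAlgebra 𝒪 B → ∀ φ φ' : L.R →ₐ[𝒪] B,
          IsLocalHom (φ : L.R →+* B) → IsLocalHom (φ' : L.R →+* B) →
          mapMat (φ : L.R →+* B) rR = mapMat (φ' : L.R →+* B) rR → φ = φ') :=
  ⟨univRep H L, univRep_isSlicedLift H L, univRep_dm H L h𝒟,
    fun B _ _ _ _ hB r hr hD => univRep_exists_algHom H L h𝒟 B hB r hr hD,
    fun B _ _ _ _ hB φ φ' hφ hφ' h => univRep_algHom_unique H L B hB φ φ' hφ hφ' h⟩

end UnivRep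

section Interface

variable {c : SliceCtx 𝒪}
  {𝒟 : ∀ ⦃A : Type⦄ [CommRing A] [IsLocalRing A] [Algebra 𝒪 A], GaloisRepAdic A → Prop}

/-- The tower of level quotients `BigS 𝒪 ⧸ levelIdeal c 𝒟 (n + 1)` (interface version; the
arguments `hc` and `h𝒟` are not used by the construction). -/
def levelTower (_hc : c.Valid) (_h𝒟 : GaloisRep.IsDeformationCondition 𝒪 𝒟)
    (H : LevelAxioms (nbar c) (IsDefIdeal c 𝒟)) : Tower 𝒪 :=
  levelTowerAux H

lemma levelTower_eq (hc : c.Valid) (h𝒟 : GaloisRep.IsDeformationCondition 𝒪 𝒟)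
    (H : LevelAxioms (nbar c) (IsDefIdeal c 𝒟)) : levelTower hc h𝒟 H = levelTowerAux H := rfl

/-- The universal sliced deformation over the limit of the level tower: the inputs of
`existsUnique_algHom_sliced` for `R := L.R`. -/
theorem exists_universal_sliced [Finite (ResidueField 𝒪)] (hc : c.Valid)
    (h𝒟 : GaloisRep.IsDeformationCondition 𝒪 𝒟)
    (H : LevelAxioms (nbar c) (IsDefIdeal c 𝒟)) (L : (levelTower hc h𝒟 H).Limit) :
    ∃ (rR : GQ →* M2 L.R) (_ : IsSlicedLift c rR), Dm 𝒟 rR ∧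
      (∀ (B : Type) [CommRing B] [IsLocalRing B] [Algebra 𝒪 B]
        [IsLocalHom (algebraMap 𝒪 B)],
        GaloisRep.IsArtinianTestAlgebra 𝒪 B → ∀ (r : GQ →* M2 B) (hr : IsSlicedLift c r),
          𝒟 (ofMat r hr.cts) →
            ∃ φ : L.R →ₐ[𝒪] B, IsLocalHom (φ : L.R →+* B) ∧ mapMat (φ : L.R →+* B) rR = r) ∧
      (∀ (B : Type) [CommRing B] [IsLocalRing B] [Algebra 𝒪 B]
        [IsLocalHom (algebraMap 𝒪 B)],
        GaloisRep.IsArtinianTestAlgebra 𝒪 B → ∀ φ φ' : L.R →ₐ[𝒪] B,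
          IsLocalHom (φ : L.R →+* B) → IsLocalHom (φ' : L.R →+* B) →
          mapMat (φ : L.R →+* B) rR = mapMat (φ' : L.R →+* B) rR → φ = φ') :=
  exists_universal_sliced_aux H L h𝒟

end Interface

end Fermat.Agent.S53
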