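import Fermat.Agent.S53.Count
import Fermat.Agent.S53.TangentDefs

/-! Adapter: the counting theorem of `Count.lean` in the shape used by `Levels.lean`
(uniform bound `N` depending only on `T` and `n`, hom-set counted by `Nat.card`, the
`𝒪`-algebra structure on the dual numbers being `dualAlgebra 𝒪`). -/

open IsLocalRing

noncomputable section

namespace Fermat.Agent.S53.Count

variable (𝒪 : Type) [CommRing 𝒪] [IsDomain 𝒪] [IsDiscreteValuationRing 𝒪]
  [Finite (ResidueField 𝒪)]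

/-- The explicit uniform bound. -/
def cardBound (T n : ℕ) : ℕ := Nat.card (ResidueField 𝒪) ^ wordCount (T + 1) n

theorem card_le_cardBound (T n : ℕ) :
    letI := dualAlgebra 𝒪
    ∀ (A : Type) [CommRing A] [IsLocalRing A] [Algebra 𝒪 A] [Finite A]
      [IsLocalHom (algebraMap 𝒪 A)],
      Function.Surjective (residue A ∘ algebraMap 𝒪 A) → maximalIdeal A ^ n = ⊥ →
      Nat.card (A →ₐ[𝒪] DualNumber (ResidueField 𝒪)) ≤ T → Nat.card A ≤ cardBound 𝒪 T n := by
  letI := dualAlgebra 𝒪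
  intro A _ _ _ _ _ hres hn hT
  obtain ⟨ϖ, hϖ⟩ := IsDiscreteValuationRing.exists_irreducible 𝒪
  have hmax : maximalIdeal 𝒪 = Ideal.span {ϖ} := hϖ.maximalIdeal_eq
  haveI : Finite (DualNumber (ResidueField 𝒪)) :=
    Finite.of_equiv (ResidueField 𝒪 × ResidueField 𝒪) (Equiv.refl _)
  haveI : Finite (A →ₐ[𝒪] DualNumber (ResidueField 𝒪)) :=
    Finite.of_injective (fun f => (f : A → DualNumber (ResidueField 𝒪)))
      DFunLike.coe_injective
  have halg : ∀ o, algebraMap 𝒪 (DualNumber (ResidueField 𝒪)) o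
      = TrivSqZeroExt.inl (residue 𝒪 o) := by
    intro o
    rw [dualAlgebra_algebraMap_apply, TrivSqZeroExt.algebraMap_eq_inl]
  have hT' : ∀ s : Finset (A →ₐ[𝒪] DualNumber (ResidueField 𝒪)), s.card ≤ T := by
    intro s
    letI := Fintype.ofFinite (A →ₐ[𝒪] DualNumber (ResidueField 𝒪))
    calc s.card ≤ Fintype.card (A →ₐ[𝒪] DualNumber (ResidueField 𝒪)) := Finset.card_le_univ s
      _ = Nat.card (A →ₐ[𝒪] DualNumber (ResidueField 𝒪)) := (Nat.card_eq_fintype_card).symm
      _ ≤ T := hT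
  exact (card_le_of_algHom_bound hres ϖ hmax halg n hn T hT').2

/-- The counting theorem in the `∃ N` shape. -/
theorem exists_card_bound (T n : ℕ) :
    letI := dualAlgebra 𝒪
    ∃ N : ℕ, ∀ (A : Type) [CommRing A] [IsLocalRing A] [Algebra 𝒪 A] [Finite A]
      [IsLocalHom (algebraMap 𝒪 A)],
      Function.Surjective (residue A ∘ algebraMap 𝒪 A) → maximalIdeal A ^ n = ⊥ →
      Nat.card (A →ₐ[𝒪] DualNumber (ResidueField 𝒪)) ≤ T → Nat.card A ≤ N :=
  ⟨cardBound 𝒪 T n, card_le_cardBound 𝒪 T n⟩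

end Fermat.Agent.S53.Count

end
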