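import Fermat.Agent.S53.MatrixRep
import Fermat.Prelude.Def_GaloisRep_DeformationCondition
import Fermat.Prelude.Def_GaloisRep_DeformationRingData

/-! Shared definitions for S53 (slice design). -/

open IsLocalRing

noncomputable section

namespace Fermat.Agent.S53

section Ctx

variable (𝒪 : Type) [CommRing 𝒪] [IsLocalRing 𝒪]

/-- Slice data: a residual matrix representation, two group elements and a matrix position,
together with a lift `c0` of the pinned entry. -/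
structure SliceCtx where
  rbar : GQ →* M2 (ResidueField 𝒪)
  g0 : GQ
  g1 : GQ
  i : Fin 2
  j : Fin 2
  c0 : 𝒪

variable {𝒪}

/-- Validity of slice data. -/
structure SliceCtx.Valid (c : SliceCtx 𝒪) : Prop where
  finiteLevel : GaloisFactorsThroughFiniteLevel c.rbar
  h00 : c.rbar c.g0 0 0 = 0
  h10 : c.rbar c.g0 1 0 = 1
  hc0 : residue 𝒪 c.c0 = c.rbar c.g1 c.i c.j
  hcomm : (c.rbar c.g1 * c.rbar c.g0 - c.rbar c.g0 * c.rbar c.g1) c.i c.j ≠ 0

/-- `r` is a continuous lift of `c.rbar` lying on the slice. -/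
structure IsSlicedLift (c : SliceCtx 𝒪) {A : Type} [CommRing A] [IsLocalRing A] [Algebra 𝒪 A]
    [IsLocalHom (algebraMap 𝒪 A)] (r : GQ →* M2 A) : Prop where
  cts : IsAdicCts r
  res : mapMat (residue A) r = mapMat (ResidueField.map (algebraMap 𝒪 A)) c.rbar
  h00 : r c.g0 0 0 = 0
  h10 : r c.g0 1 0 = 1
  hij : r c.g1 c.i c.j = algebraMap 𝒪 A c.c0

/-- Matrix form of a deformation condition. -/
def Dm (𝒟 : ∀ ⦃A : Type⦄ [CommRing A] [IsLocalRing A] [Algebra 𝒪 A], GaloisRepAdic A → Prop)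
    {A : Type} [CommRing A] [IsLocalRing A] [Algebra 𝒪 A] (r : GQ →* M2 A) : Prop :=
  ∃ hr : IsAdicCts r, 𝒟 (ofMat r hr)

end Ctx

section BigS

variable (𝒪 : Type) [CommRing 𝒪]

/-- The polynomial ring on the matrix entries of a generic representation. -/
abbrev BigS : Type := MvPolynomial (GQ × Fin 2 × Fin 2) 𝒪

variable {𝒪}

/-- The generic matrix at `σ`. -/
def Xmat (σ : GQ) : M2 (BigS 𝒪) := Matrix.of fun a b => MvPolynomial.X (σ, a, b)

@[simp] lemma Xmat_apply (σ : GQ) (a b : Fin 2) :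
    (Xmat σ : M2 (BigS 𝒪)) a b = MvPolynomial.X (σ, a, b) := rfl

/-- Evaluation of `BigS` at a family of matrices. -/
def ev {A : Type} [CommRing A] [Algebra 𝒪 A] (r : GQ → M2 A) : BigS 𝒪 →ₐ[𝒪] A :=
  MvPolynomial.aeval fun x : GQ × Fin 2 × Fin 2 => r x.1 x.2.1 x.2.2

@[simp] lemma ev_X {A : Type} [CommRing A] [Algebra 𝒪 A] (r : GQ → M2 A) (σ : GQ) (a b : Fin 2) :
    ev r (MvPolynomial.X (σ, a, b) : BigS 𝒪) = r σ a b := by
  simp [ev]

lemma map_ev_Xmat {A : Type} [CommRing A] [Algebra 𝒪 A] (r : GQ → M2 A) (σ : GQ) :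
    (Xmat σ : M2 (BigS 𝒪)).map (ev r) = r σ := by
  ext a b; simp

/-- The family of generic matrices modulo an ideal. -/
def canFam (I : Ideal (BigS 𝒪)) (σ : GQ) : M2 (BigS 𝒪 ⧸ I) :=
  (Xmat σ).map (Ideal.Quotient.mk I)

/-- `I` contains the relations making `canFam I` multiplicative. -/
structure IsRepIdeal (I : Ideal (BigS 𝒪)) : Prop where
  map_one : canFam I 1 = 1
  map_mul : ∀ σ τ, canFam I (σ * τ) = canFam I σ * canFam I τ

/-- The canonical representation over `BigS 𝒪 ⧸ I`. -/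
def canRep (I : Ideal (BigS 𝒪)) (h : IsRepIdeal I) : GQ →* M2 (BigS 𝒪 ⧸ I) where
  toFun := canFam I
  map_one' := h.map_one
  map_mul' := h.map_mul

@[simp] lemma canRep_apply (I : Ideal (BigS 𝒪)) (h : IsRepIdeal I) (σ : GQ) (a b : Fin 2) :
    canRep I h σ a b = Ideal.Quotient.mk I (MvPolynomial.X (σ, a, b)) := rfl

end BigS

section DefIdeal

variable {𝒪 : Type} [CommRing 𝒪] [IsLocalRing 𝒪]

/-- The kernel of the residual evaluation `BigS 𝒪 → k`. -/
def nbar (c : SliceCtx 𝒪) : Ideal (BigS 𝒪) :=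
  RingHom.ker (ev (fun σ => c.rbar σ) : BigS 𝒪 →ₐ[𝒪] ResidueField 𝒪)

/-- `I` is the kernel of the evaluation at a sliced deformation over a finite local ring;
phrased intrinsically in terms of the canonical representation over `BigS 𝒪 ⧸ I`. -/
def IsDefIdeal (c : SliceCtx 𝒪)
    (𝒟 : ∀ ⦃A : Type⦄ [CommRing A] [IsLocalRing A] [Algebra 𝒪 A], GaloisRepAdic A → Prop)
    (I : Ideal (BigS 𝒪)) : Prop :=
  Finite (BigS 𝒪 ⧸ I) ∧
    ∃ (_ : IsLocalRing (BigS 𝒪 ⧸ I)) (_ : IsLocalHom (algebraMap 𝒪 (BigS 𝒪 ⧸ I)))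
      (h : IsRepIdeal I), IsSlicedLift c (canRep I h) ∧ Dm 𝒟 (canRep I h)

/-- The smallest deformation ideal containing `nbar ^ n` (shown to be a deformation ideal
in `Levels.lean`). `levelIdeal 0 = ⊤`. -/
def levelIdeal (c : SliceCtx 𝒪)
    (𝒟 : ∀ ⦃A : Type⦄ [CommRing A] [IsLocalRing A] [Algebra 𝒪 A], GaloisRepAdic A → Prop)
    (n : ℕ) : Ideal (BigS 𝒪) :=
  sInf {J | IsDefIdeal c 𝒟 J ∧ nbar c ^ n ≤ J}

end DefIdeal

end Fermat.Agent.S53

end
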