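import Mathlib

set_option autoImplicit false

namespace Fermat.Agent.S53

open IsLocalRing MvPowerSeries

section

variable {σ : Type} [Finite σ] {O : Type} [CommRing O] [IsLocalRing O]

theorem mvPowerSeries_mem_maximalIdeal_iff (f : MvPowerSeries σ O) :
    f ∈ maximalIdeal (MvPowerSeries σ O) ↔ constantCoeff f ∈ maximalIdeal O := by
  rw [mem_maximalIdeal, mem_maximalIdeal, mem_nonunits_iff, mem_nonunits_iff,
    MvPowerSeries.isUnit_iff_constantCoeff]

theorem mvPowerSeries_coeff_mem_pow_of_mem_pow :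
    ∀ (n : ℕ) (f : MvPowerSeries σ O), f ∈ maximalIdeal (MvPowerSeries σ O) ^ n →
      ∀ μ : σ →₀ ℕ, coeff μ f ∈ maximalIdeal O ^ (n - Finsupp.degree μ) := by
  classical
  intro n
  induction n with
  | zero =>
    intro f _ μ
    simp
  | succ n ih =>
    intro f hf μ
    rw [pow_succ] at hf
    refine Submodule.mul_induction_on hf ?_ ?_
    · intro a ha b hb
      rw [coeff_mul]
      refine Ideal.sum_mem _ ?_
      rintro ⟨p, q⟩ hpq
      rw [Finset.HasAntidiagonal.mem_antidiagonal] at hpq
      simp only at hpq ⊢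
      have hdeg : Finsupp.degree p + Finsupp.degree q = Finsupp.degree μ := by
        rw [← map_add, hpq]
      by_cases hq : q = 0
      · subst hq
        have hp : p = μ := by simpa using hpq
        subst hp
        have h1 := ih a ha p
        have h2 : coeff 0 b ∈ maximalIdeal O := by
          rw [coeff_zero_eq_constantCoeff]
          exact (mvPowerSeries_mem_maximalIdeal_iff b).1 hb
        have h3 : coeff p a * coeff 0 b ∈ maximalIdeal O ^ (n - Finsupp.degree p + 1) := by
          rw [pow_succ]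
          exact Ideal.mul_mem_mul h1 h2
        exact Ideal.pow_le_pow_right (by omega) h3
      · have hq' : 1 ≤ Finsupp.degree q := by
          rcases Nat.eq_zero_or_pos (Finsupp.degree q) with h | h
          · exact absurd ((Finsupp.degree_eq_zero_iff q).1 h) hq
          · exact h
        have h1 := ih a ha p
        exact Ideal.mul_mem_right _ _ (Ideal.pow_le_pow_right (by omega) h1)
    · intro x y hx hy
      rw [map_add]
      exact Ideal.add_mem _ hx hy

theorem mvPowerSeries_mem_span_X_pow {O : Type} [CommRing O] (n : ℕ) (g : MvPowerSeries σ O)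
    (h : ∀ μ : σ →₀ ℕ, Finsupp.degree μ < n → coeff μ g = 0) :
    g ∈ (Ideal.span (Set.range (X : σ → MvPowerSeries σ O))) ^ n := by
  have hmap : Ideal.map (toAdicCompletionAlgEquiv σ O).toRingEquiv (Ideal.span (Set.range X)) =
      (MvPolynomial.idealOfVars σ O).map (algebraMap ..) := by
    simp_rw [Ideal.map_span, ← Set.range_comp]
    congr 2; ext1
    simp [AdicCompletion.algebraMap_apply, ← MvPolynomial.coe_X, toAdicCompletion_coe]
  have htr : truncTotal n g = 0 := by
    ext μ
    by_cases hμ : Finsupp.degree μ < n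
    · rw [coeff_truncTotal _ hμ, h μ hμ]; simp
    · rw [coeff_truncTotal_eq_zero _ (not_lt.1 hμ)]; simp
  have h1 : (toAdicCompletionAlgEquiv σ O).toRingEquiv g ∈
      Ideal.map (toAdicCompletionAlgEquiv σ O).toRingEquiv
        ((Ideal.span (Set.range (X : σ → MvPowerSeries σ O))) ^ n) := by
    rw [Ideal.map_pow, hmap, ← Ideal.map_pow]
    have h2 : (toAdicCompletion σ O g) ∈
        ((MvPolynomial.idealOfVars σ O ^ n) • ⊤ :
          Submodule (MvPolynomial σ O)
            (AdicCompletion (MvPolynomial.idealOfVars σ O) (MvPolynomial σ O))) := by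
      rw [AdicCompletion.pow_smul_top_eq_ker_eval (MvPolynomial.idealOfVars_fg σ O),
        LinearMap.mem_ker]
      rw [AdicCompletion.eval_apply, toAdicCompletion_apply_eq_mk_truncTotal, htr]
      simp
    rw [Ideal.smul_top_eq_map] at h2
    exact h2
  rw [Ideal.mem_map_of_equiv] at h1
  obtain ⟨x, hx, hxg⟩ := h1
  have := (toAdicCompletionAlgEquiv σ O).toRingEquiv.injective hxg
  rwa [← this]

theorem mvPowerSeries_X_mem_maximalIdeal (i : σ) :
    (X i : MvPowerSeries σ O) ∈ maximalIdeal (MvPowerSeries σ O) := by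
  rw [mvPowerSeries_mem_maximalIdeal_iff]
  simp

theorem mvPowerSeries_C_mem_pow {c : O} {k : ℕ} (hc : c ∈ maximalIdeal O ^ k) :
    (C c : MvPowerSeries σ O) ∈ maximalIdeal (MvPowerSeries σ O) ^ k := by
  have h1 : (maximalIdeal O).map (C : O →+* MvPowerSeries σ O) ≤
      maximalIdeal (MvPowerSeries σ O) := by
    rw [Ideal.map_le_iff_le_comap]
    intro x hx
    rw [Ideal.mem_comap, mvPowerSeries_mem_maximalIdeal_iff]
    simpa using hx
  have h2 : (C c : MvPowerSeries σ O) ∈ ((maximalIdeal O) ^ k).map (C : O →+* MvPowerSeries σ O) :=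
    Ideal.mem_map_of_mem _ hc
  rw [Ideal.map_pow] at h2
  exact Ideal.pow_right_mono h1 k h2

theorem mvPowerSeries_monomial_one_mem_pow (μ : σ →₀ ℕ) :
    (monomial μ (1 : O) : MvPowerSeries σ O) ∈
      maximalIdeal (MvPowerSeries σ O) ^ (Finsupp.degree μ) := by
  induction μ using Finsupp.induction with
  | zero => simp
  | single_add a b f _ _ ih =>
    have h1 : (monomial ((fun₀ | a => b) + f) (1 : O) : MvPowerSeries σ O) =
        X a ^ b * monomial f 1 := by
      rw [X_pow_eq, monomial_mul_monomial, one_mul]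
    rw [h1, map_add, Finsupp.degree_single, pow_add]
    exact Ideal.mul_mem_mul (Ideal.pow_mem_pow (mvPowerSeries_X_mem_maximalIdeal a) b) ih

theorem mvPowerSeries_monomial_mem_pow (μ : σ →₀ ℕ) (c : O) (k n : ℕ)
    (hc : c ∈ maximalIdeal O ^ k) (hkn : n ≤ k + Finsupp.degree μ) :
    (monomial μ c : MvPowerSeries σ O) ∈ maximalIdeal (MvPowerSeries σ O) ^ n := by
  have h1 : (monomial μ c : MvPowerSeries σ O) = C c * monomial μ 1 := by
    rw [← monomial_zero_eq_C_apply, monomial_mul_monomial, zero_add, mul_one]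
  rw [h1]
  refine Ideal.pow_le_pow_right hkn ?_
  rw [pow_add]
  exact Ideal.mul_mem_mul (mvPowerSeries_C_mem_pow hc) (mvPowerSeries_monomial_one_mem_pow μ)

theorem mvPowerSeries_mem_pow_of_coeff_mem (n : ℕ) (f : MvPowerSeries σ O)
    (h : ∀ μ : σ →₀ ℕ, Finsupp.degree μ < n →
      coeff μ f ∈ maximalIdeal O ^ (n - Finsupp.degree μ)) :
    f ∈ maximalIdeal (MvPowerSeries σ O) ^ n := by
  have hsplit : f = ((truncTotal n f : MvPolynomial σ O) : MvPowerSeries σ O) +
      (f - ((truncTotal n f : MvPolynomial σ O) : MvPowerSeries σ O)) := by ring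
  rw [hsplit]
  refine Ideal.add_mem _ ?_ ?_
  · rw [← MvPolynomial.support_sum_monomial_coeff (truncTotal n f)]
    rw [← MvPolynomial.coeToMvPowerSeries.ringHom_apply, map_sum]
    refine Ideal.sum_mem _ ?_
    intro v hv
    rw [MvPolynomial.coeToMvPowerSeries.ringHom_apply, MvPolynomial.coe_monomial]
    have hvn : Finsupp.degree v < n := by
      by_contra hcon
      rw [MvPolynomial.mem_support_iff] at hv
      exact hv (coeff_truncTotal_eq_zero _ (not_lt.1 hcon))
    rw [coeff_truncTotal _ hvn]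
    exact mvPowerSeries_monomial_mem_pow v _ (n - Finsupp.degree v) n (h v hvn) (by omega)
  · have hX : Ideal.span (Set.range (X : σ → MvPowerSeries σ O)) ≤
        maximalIdeal (MvPowerSeries σ O) := by
      rw [Ideal.span_le]
      rintro _ ⟨i, rfl⟩
      exact mvPowerSeries_X_mem_maximalIdeal i
    refine Ideal.pow_right_mono hX n (mvPowerSeries_mem_span_X_pow n _ ?_)
    intro μ hμ
    rw [map_sub, MvPolynomial.coeff_coe, coeff_truncTotal _ hμ, sub_self]

theorem mvPowerSeries_isPrecomplete [IsPrecomplete (maximalIdeal O) O] :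
    IsPrecomplete (maximalIdeal (MvPowerSeries σ O)) (MvPowerSeries σ O) := by
  refine ⟨fun f hf => ?_⟩
  have hf' : ∀ {m n : ℕ}, m ≤ n → f m - f n ∈ maximalIdeal (MvPowerSeries σ O) ^ m := by
    intro m n hmn
    have := (hf hmn)
    rw [SModEq.sub_mem, smul_eq_mul, Ideal.mul_top] at this
    exact this
  have hcauchy : ∀ μ : σ →₀ ℕ, ∃ L : O, ∀ j : ℕ,
      coeff μ (f (j + Finsupp.degree μ)) ≡ L [SMOD (maximalIdeal O ^ j • ⊤ : Submodule O O)] := by
    intro μ
    refine IsPrecomplete.prec (I := maximalIdeal O) (M := O) inferInstance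
      (f := fun j => coeff μ (f (j + Finsupp.degree μ))) ?_
    intro j j' hjj'
    rw [SModEq.sub_mem, smul_eq_mul, Ideal.mul_top, ← map_sub]
    have h1 := mvPowerSeries_coeff_mem_pow_of_mem_pow (j + Finsupp.degree μ) _
      (hf' (show j + Finsupp.degree μ ≤ j' + Finsupp.degree μ by omega)) μ
    simpa using h1
  choose L hL using hcauchy
  obtain ⟨Lf, hLf⟩ : ∃ Lf : MvPowerSeries σ O, ∀ μ, coeff μ Lf = L μ := ⟨fun μ => L μ, fun μ => rfl⟩
  refine ⟨Lf, fun n => ?_⟩
  rw [SModEq.sub_mem, smul_eq_mul, Ideal.mul_top]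
  refine mvPowerSeries_mem_pow_of_coeff_mem n _ ?_
  intro μ hμ
  have h1 := hL μ (n - Finsupp.degree μ)
  rw [SModEq.sub_mem, smul_eq_mul, Ideal.mul_top] at h1
  have h2 : n - Finsupp.degree μ + Finsupp.degree μ = n := by omega
  rw [h2] at h1
  rw [map_sub, hLf]
  exact h1

theorem mvPowerSeries_isAdicComplete [IsNoetherianRing O] [IsAdicComplete (maximalIdeal O) O] :
    IsAdicComplete (maximalIdeal (MvPowerSeries σ O)) (MvPowerSeries σ O) :=
  { toIsHausdorff := inferInstance
    toIsPrecomplete := mvPowerSeries_isPrecomplete }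

end

end Fermat.Agent.S53
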