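import Mathlib
import Fermat.Prelude.Thm_IsLocalRing_isAdicComplete_of_module_finite
import Fermat.Agent.S53.PowerSeriesComplete

set_option autoImplicit false

namespace Fermat.Agent.S53

open IsLocalRing


theorem surjective_of_forall_exists_sub_mem_sq {S A : Type} [CommRing S] [IsLocalRing S]
    [CommRing A] [IsLocalRing A] [Finite A] (φ : S →+* A)
    (h : ∀ a : A, ∃ s : S, a - φ s ∈ maximalIdeal A ^ 2) : Function.Surjective φ := by
  have hsq : maximalIdeal A ^ 2 ≤ maximalIdeal A := Ideal.pow_le_self (by norm_num)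
  -- Step 1: locality
  have hloc : ∀ s : S, s ∈ maximalIdeal S → φ s ∈ maximalIdeal A := by
    intro s hs
    by_contra hcon
    rw [mem_maximalIdeal, mem_nonunits_iff, not_not] at hcon
    obtain ⟨u, hu⟩ := hcon
    obtain ⟨s', hs'⟩ := h (↑u⁻¹ : A)
    -- 1 - φ (s * s') = φ s * (u⁻¹ - φ s') ∈ 𝔪
    have h1 : (1 : A) - φ (s * s') = φ s * ((↑u⁻¹ : A) - φ s') := by
      rw [map_mul, mul_sub, ← hu, Units.mul_inv]
    have h2 : (1 : A) - φ (s * s') ∈ maximalIdeal A := by
      rw [h1]; exact Ideal.mul_mem_left _ _ (hsq hs')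
    have h3 : IsUnit (1 - s * s') := by
      have : s * s' ∈ maximalIdeal S := Ideal.mul_mem_right _ _ hs
      by_contra hc
      have h4 : 1 - s * s' ∈ maximalIdeal S := by rwa [mem_maximalIdeal, mem_nonunits_iff]
      have h5 : (1 : S) ∈ maximalIdeal S := by
        have := Ideal.add_mem _ h4 this
        simpa using this
      exact (Ideal.ne_top_iff_one _).1 (maximalIdeal.isMaximal S).ne_top h5
    have h6 : IsUnit (φ (1 - s * s')) := h3.map φ
    rw [map_sub, map_one] at h6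
    rw [mem_maximalIdeal, mem_nonunits_iff] at h2
    exact h2 h6
  -- Step 2
  have hmap : maximalIdeal A ≤ Ideal.map φ (maximalIdeal S) := by
    have hfg : (maximalIdeal A).FG := by
      have : IsNoetherianRing A := inferInstance
      exact IsNoetherian.noetherian _
    refine Submodule.le_of_le_smul_of_le_jacobson_bot hfg
      (le_of_eq (IsLocalRing.jacobson_eq_maximalIdeal ⊥ bot_ne_top).symm) ?_
    intro y hy
    obtain ⟨s, hs⟩ := h y
    have hs1 : φ s ∈ maximalIdeal A := by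
      have : φ s = y - (y - φ s) := by ring
      rw [this]
      exact Ideal.sub_mem _ hy (hsq hs)
    have hs2 : s ∈ maximalIdeal S := by
      rw [mem_maximalIdeal, mem_nonunits_iff]
      intro hu
      rw [mem_maximalIdeal, mem_nonunits_iff] at hs1
      exact hs1 (hu.map φ)
    have : y = φ s + (y - φ s) := by ring
    rw [this]
    refine Submodule.add_mem_sup (Ideal.mem_map_of_mem φ hs2) ?_
    rw [smul_eq_mul, ← pow_two]
    exact hs
  -- Step 3
  let _ : Algebra S A := φ.toAlgebra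
  have htop : (⊤ : Submodule S A) ≤ LinearMap.range (Algebra.linearMap S A) := by
    refine Submodule.le_of_le_smul_of_le_jacobson_bot (Module.Finite.fg_top)
      (le_of_eq (IsLocalRing.jacobson_eq_maximalIdeal ⊥ bot_ne_top).symm) ?_
    intro a _
    obtain ⟨s, hs⟩ := h a
    have : a = φ s + (a - φ s) := by ring
    rw [this]
    refine Submodule.add_mem_sup ⟨s, rfl⟩ ?_
    rw [Ideal.smul_top_eq_map]
    exact hmap (hsq hs)
  intro a
  obtain ⟨s, hs⟩ := htop (Submodule.mem_top : a ∈ ⊤)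
  exact ⟨s, hs⟩

theorem exists_mem_pow_map_eq {S A : Type} [CommRing S] [IsLocalRing S]
    [CommRing A] [IsLocalRing A] (φ : S →+* A) (hφ : Function.Surjective φ) (k : ℕ) {y : A}
    (hy : y ∈ maximalIdeal A ^ k) : ∃ u ∈ maximalIdeal S ^ k, φ u = y := by
  rw [← IsLocalRing.map_maximalIdeal_of_surjective φ hφ, ← Ideal.map_pow] at hy
  exact (Ideal.mem_map_iff_of_surjective φ hφ).1 hy

theorem exists_adic_limit {S : Type} [CommRing S] (I : Ideal S) [IsPrecomplete I S]
    (s : ℕ → S) (h : ∀ k, s k - s (k + 1) ∈ I ^ k) : ∃ L : S, ∀ k, s k - L ∈ I ^ k := by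
  have h1 : ∀ m n : ℕ, m ≤ n → s m - s n ∈ I ^ m := by
    intro m n hmn
    induction n, hmn using Nat.le_induction with
    | base => simp
    | succ n hmn ih =>
      have : s m - s (n + 1) = (s m - s n) + (s n - s (n + 1)) := by ring
      rw [this]
      exact Ideal.add_mem _ ih (Ideal.pow_le_pow_right hmn (h n))
  obtain ⟨L, hL⟩ := IsPrecomplete.prec (I := I) (M := S) inferInstance (f := s) (by
    intro m n hmn
    rw [SModEq.sub_mem, smul_eq_mul, Ideal.mul_top]
    exact h1 m n hmn)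
  refine ⟨L, fun k => ?_⟩
  have := hL k
  rwa [SModEq.sub_mem, smul_eq_mul, Ideal.mul_top] at this

theorem exists_seq_of_step {α : Type} (P : ℕ → α → Prop) (R : ℕ → α → α → Prop) (a₀ : α)
    (h₀ : P 0 a₀) (hstep : ∀ k a, P k a → ∃ b, P (k + 1) b ∧ R k a b) :
    ∃ f : ℕ → α, f 0 = a₀ ∧ (∀ k, P k (f k)) ∧ ∀ k, R k (f k) (f (k + 1)) := by
  let g : ∀ k : ℕ, {a : α // P k a} := fun k =>
    Nat.rec (motive := fun k => {a : α // P k a}) ⟨a₀, h₀⟩
      (fun k y => ⟨Classical.choose (hstep k y.1 y.2),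
        (Classical.choose_spec (hstep k y.1 y.2)).1⟩) k
  refine ⟨fun k => (g k).1, rfl, fun k => (g k).2, fun k => ?_⟩
  exact (Classical.choose_spec (hstep k (g k).1 (g k).2)).2

/-- A tower `A 0 ← A 1 ← A 2 ← ⋯` of finite local `𝒪`-algebras, `A n = A (n+1) / 𝔪^(n+1)`. -/
structure Tower (𝒪 : Type) [CommRing 𝒪] where
  A : ℕ → Type
  [instCommRing : ∀ n, CommRing (A n)]
  [instIsLocalRing : ∀ n, IsLocalRing (A n)]
  [instAlgebra : ∀ n, Algebra 𝒪 (A n)]
  [instFinite : ∀ n, Finite (A n)]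
  isLocalHom : ∀ n, IsLocalHom (algebraMap 𝒪 (A n))
  residue_surjective : ∀ n,
    Function.Surjective (IsLocalRing.residue (A n) ∘ algebraMap 𝒪 (A n))
  pow_succ_eq_bot : ∀ n, maximalIdeal (A n) ^ (n + 1) = ⊥
  tr : ∀ n, A (n + 1) →ₐ[𝒪] A n
  tr_surjective : ∀ n, Function.Surjective (tr n)
  ker_tr : ∀ n, RingHom.ker (tr n : A (n + 1) →+* A n) = maximalIdeal (A (n + 1)) ^ (n + 1)

attribute [instance] Tower.instCommRing Tower.instIsLocalRing Tower.instAlgebra
  Tower.instFinite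

namespace Tower

variable {𝒪 : Type} [CommRing 𝒪] (T : Tower 𝒪)

/-- The index type of the variables: the elements of the maximal ideal of `A 1`. -/
abbrev Var : Type := {a : T.A 1 // a ∈ maximalIdeal (T.A 1)}

instance : Finite T.Var := Subtype.finite

theorem tr_mem_maximalIdeal (n : ℕ) {y : T.A (n + 1)} (hy : y ∈ maximalIdeal (T.A (n + 1))) :
    T.tr n y ∈ maximalIdeal (T.A n) := by
  have : IsLocalHom (T.tr n : T.A (n + 1) →+* T.A n) :=
    Function.Surjective.isLocalHom _ (T.tr_surjective n)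
  rw [mem_maximalIdeal, mem_nonunits_iff] at hy ⊢
  intro h
  exact hy (isUnit_of_map_unit (T.tr n : T.A (n + 1) →+* T.A n) y h)

theorem mem_maximalIdeal_of_tr_mem (n : ℕ) {y : T.A (n + 1)}
    (hy : T.tr n y ∈ maximalIdeal (T.A n)) : y ∈ maximalIdeal (T.A (n + 1)) := by
  rw [mem_maximalIdeal, mem_nonunits_iff] at hy ⊢
  intro h
  exact hy (h.map (T.tr n))

/-- Compatible lifts of the elements of `𝔪_{A 1}` to all levels. -/
noncomputable def gen : ∀ n : ℕ, T.Var → T.A n
  | 0 => fun i => T.tr 0 i.1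
  | 1 => fun i => i.1
  | (n + 2) => fun i => Classical.choose (T.tr_surjective (n + 1) (gen (n + 1) i))

theorem tr_gen (n : ℕ) (i : T.Var) : T.tr n (T.gen (n + 1) i) = T.gen n i := by
  cases n with
  | zero => rfl
  | succ n => exact Classical.choose_spec (T.tr_surjective (n + 1) (T.gen (n + 1) i))

theorem gen_mem (n : ℕ) (i : T.Var) : T.gen n i ∈ maximalIdeal (T.A n) := by
  have h1 : ∀ n : ℕ, T.gen (n + 1) i ∈ maximalIdeal (T.A (n + 1)) := by
    intro n
    induction n with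
    | zero => exact i.2
    | succ n ih =>
      apply T.mem_maximalIdeal_of_tr_mem (n + 1)
      rw [T.tr_gen]
      exact ih
  cases n with
  | zero =>
    rw [← T.tr_gen 0 i]
    exact T.tr_mem_maximalIdeal 0 (h1 0)
  | succ n => exact h1 n

/-- Polynomial evaluation at the chosen generators. -/
noncomputable def ev (n : ℕ) : MvPolynomial T.Var 𝒪 →ₐ[𝒪] T.A n :=
  MvPolynomial.aeval (T.gen n)

theorem tr_comp_ev (n : ℕ) : (T.tr n).comp (T.ev (n + 1)) = T.ev n := by
  apply MvPolynomial.algHom_ext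
  intro i
  simp [ev, T.tr_gen]

theorem tr_ev (n : ℕ) (p : MvPolynomial T.Var 𝒪) : T.tr n (T.ev (n + 1) p) = T.ev n p := by
  rw [← T.tr_comp_ev n]; rfl

theorem ev_mem_pow (n k : ℕ) {p : MvPolynomial T.Var 𝒪}
    (hp : p ∈ MvPolynomial.idealOfVars T.Var 𝒪 ^ k) : T.ev n p ∈ maximalIdeal (T.A n) ^ k := by
  have h1 : (MvPolynomial.idealOfVars T.Var 𝒪).map (T.ev n : MvPolynomial T.Var 𝒪 →+* T.A n) ≤
      maximalIdeal (T.A n) := by
    rw [MvPolynomial.idealOfVars, Ideal.map_span, Ideal.span_le]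
    rintro _ ⟨_, ⟨i, rfl⟩, rfl⟩
    simpa [ev] using T.gen_mem n i
  have h2 : T.ev n p ∈ (MvPolynomial.idealOfVars T.Var 𝒪 ^ k).map
      (T.ev n : MvPolynomial T.Var 𝒪 →+* T.A n) := Ideal.mem_map_of_mem _ hp
  rw [Ideal.map_pow] at h2
  exact Ideal.pow_right_mono h1 k h2

theorem ev_eq_zero (n : ℕ) {p : MvPolynomial T.Var 𝒪}
    (hp : p ∈ MvPolynomial.idealOfVars T.Var 𝒪 ^ (n + 1)) : T.ev n p = 0 := by
  have := T.ev_mem_pow n (n + 1) hp
  rwa [T.pow_succ_eq_bot n, Ideal.mem_bot] at this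

/-- The map from the power series ring to level `n`. -/
noncomputable def proj (n : ℕ) : MvPowerSeries T.Var 𝒪 →ₐ[𝒪] T.A n :=
  (Ideal.Quotient.liftₐ (MvPolynomial.idealOfVars T.Var 𝒪 ^ (n + 1)) (T.ev n)
    (fun _ ha => T.ev_eq_zero n ha)).comp
    ((MvPowerSeries.truncTotalAlgHom T.Var 𝒪 (n + 1)).restrictScalars 𝒪)

theorem proj_apply (n : ℕ) (f : MvPowerSeries T.Var 𝒪) :
    T.proj n f = T.ev n (MvPowerSeries.truncTotal (n + 1) f) := by
  simp only [proj, AlgHom.comp_apply, AlgHom.restrictScalars_apply,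
    MvPowerSeries.truncTotalAlgHom_apply]
  rfl

theorem proj_apply_of_le (n N : ℕ) (hN : n + 1 ≤ N) (f : MvPowerSeries T.Var 𝒪) :
    T.proj n f = T.ev n (MvPowerSeries.truncTotal N f) := by
  rw [proj_apply, ← sub_eq_zero, ← map_sub]
  exact T.ev_eq_zero n
    (MvPowerSeries.truncTotal_sub_truncTotal_mem_pow_idealOfVars le_rfl hN f)

theorem tr_proj (n : ℕ) (f : MvPowerSeries T.Var 𝒪) : T.tr n (T.proj (n + 1) f) = T.proj n f := by
  rw [proj_apply, T.tr_ev, ← T.proj_apply_of_le n (n + 1 + 1) (by omega)]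

theorem proj_coe (n : ℕ) (p : MvPolynomial T.Var 𝒪) :
    T.proj n (p : MvPowerSeries T.Var 𝒪) = T.ev n p := by
  have h := (MvPowerSeries.truncTotalAlgHom T.Var 𝒪 (n + 1)).commutes p
  have h2 : algebraMap (MvPolynomial T.Var 𝒪) (MvPowerSeries T.Var 𝒪) p =
      (p : MvPowerSeries T.Var 𝒪) := by
    rw [MvPowerSeries.algebraMap_apply']
    simp
  rw [h2] at h
  simp only [proj, AlgHom.comp_apply, AlgHom.restrictScalars_apply, h]
  rfl

theorem proj_X (n : ℕ) (i : T.Var) : T.proj n (MvPowerSeries.X i) = T.gen n i := by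
  have h : (MvPowerSeries.X i : MvPowerSeries T.Var 𝒪) =
      ((MvPolynomial.X i : MvPolynomial T.Var 𝒪) : MvPowerSeries T.Var 𝒪) := by simp
  rw [h, proj_coe]
  simp [ev]

variable [IsLocalRing 𝒪]

theorem proj_surjective (n : ℕ) : Function.Surjective (T.proj n) := by
  induction n with
  | zero =>
    intro a
    obtain ⟨o, ho⟩ := T.residue_surjective 0 (IsLocalRing.residue (T.A 0) a)
    have h1 : a - algebraMap 𝒪 (T.A 0) o ∈ maximalIdeal (T.A 0) := by
      rw [← Ideal.Quotient.eq]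
      exact ho.symm
    have h2 : maximalIdeal (T.A 0) = ⊥ := by simpa using T.pow_succ_eq_bot 0
    rw [h2, Ideal.mem_bot, sub_eq_zero] at h1
    exact ⟨algebraMap 𝒪 _ o, by rw [AlgHom.commutes, h1]⟩
  | succ n ih =>
    cases n with
    | zero =>
      intro a
      obtain ⟨o, ho⟩ := T.residue_surjective 1 (IsLocalRing.residue (T.A 1) a)
      have h1 : a - algebraMap 𝒪 (T.A 1) o ∈ maximalIdeal (T.A 1) := by
        rw [← Ideal.Quotient.eq]
        exact ho.symm
      refine ⟨algebraMap 𝒪 _ o + MvPowerSeries.X ⟨_, h1⟩, ?_⟩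
      rw [map_add, AlgHom.commutes, T.proj_X]
      simp [gen]
    | succ n =>
      have key := surjective_of_forall_exists_sub_mem_sq
        (T.proj (n + 1 + 1) : MvPowerSeries T.Var 𝒪 →+* T.A (n + 1 + 1))
      refine key ?_
      intro a
      obtain ⟨f, hf⟩ := ih (T.tr (n + 1) a)
      refine ⟨f, ?_⟩
      have h1 : a - T.proj (n + 1 + 1) f ∈ RingHom.ker (T.tr (n + 1) : T.A (n + 1 + 1) →+* T.A (n + 1)) := by
        rw [RingHom.mem_ker, map_sub]
        change T.tr (n + 1) a - T.tr (n + 1) (T.proj (n + 1 + 1) f) = 0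
        rw [T.tr_proj, hf, sub_self]
      rw [T.ker_tr] at h1
      exact Ideal.pow_le_pow_right (by omega) h1

/-- The common kernel of all the projections. -/
noncomputable def J : Ideal (MvPowerSeries T.Var 𝒪) :=
  ⨅ n, RingHom.ker (T.proj n : MvPowerSeries T.Var 𝒪 →+* T.A n)

theorem mem_J_iff (f : MvPowerSeries T.Var 𝒪) : f ∈ T.J ↔ ∀ n, T.proj n f = 0 := by
  simp [J, RingHom.mem_ker]

theorem proj_mem_pow (n k : ℕ) {f : MvPowerSeries T.Var 𝒪}
    (hf : f ∈ maximalIdeal (MvPowerSeries T.Var 𝒪) ^ k) :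
    T.proj n f ∈ maximalIdeal (T.A n) ^ k := by
  have h := Ideal.mem_map_of_mem (T.proj n : MvPowerSeries T.Var 𝒪 →+* T.A n) hf
  rw [Ideal.map_pow, IsLocalRing.map_maximalIdeal_of_surjective
    (T.proj n : MvPowerSeries T.Var 𝒪 →+* T.A n) (T.proj_surjective n)] at h
  exact h

theorem proj_eq_zero_of_mem_pow (n k : ℕ) (hk : n + 1 ≤ k) {f : MvPowerSeries T.Var 𝒪}
    (hf : f ∈ maximalIdeal (MvPowerSeries T.Var 𝒪) ^ k) : T.proj n f = 0 := by
  have h := Ideal.pow_le_pow_right hk (T.proj_mem_pow n k hf)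
  rwa [T.pow_succ_eq_bot n, Ideal.mem_bot] at h

theorem proj_eq_zero_of_le (m n : ℕ) (hmn : m ≤ n) {f : MvPowerSeries T.Var 𝒪}
    (hf : T.proj n f = 0) : T.proj m f = 0 := by
  induction n, hmn using Nat.le_induction with
  | base => exact hf
  | succ n _ ih =>
    apply ih
    rw [← T.tr_proj, hf, map_zero]

/-- One step of successive approximation. -/
theorem exists_sub_mem_pow (n : ℕ) (f : MvPowerSeries T.Var 𝒪) (a : T.A (n + 1))
    (h : T.tr n a = T.proj n f) :
    ∃ g : MvPowerSeries T.Var 𝒪, T.proj (n + 1) g = a ∧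
      f - g ∈ maximalIdeal (MvPowerSeries T.Var 𝒪) ^ (n + 1) := by
  have h1 : T.proj (n + 1) f - a ∈ RingHom.ker (T.tr n : T.A (n + 1) →+* T.A n) := by
    rw [RingHom.mem_ker, map_sub]
    change T.tr n (T.proj (n + 1) f) - T.tr n a = 0
    rw [T.tr_proj, h, sub_self]
  rw [T.ker_tr] at h1
  obtain ⟨u, hu, hu'⟩ := exists_mem_pow_map_eq
    (T.proj (n + 1) : MvPowerSeries T.Var 𝒪 →+* T.A (n + 1)) (T.proj_surjective (n + 1)) (n + 1) h1
  refine ⟨f - u, ?_, by simpa using hu⟩
  rw [map_sub]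
  change T.proj (n + 1) f - T.proj (n + 1) u = a
  have : T.proj (n + 1) u = T.proj (n + 1) f - a := hu'
  rw [this]; ring

section Complete

variable [IsPrecomplete (maximalIdeal (MvPowerSeries T.Var 𝒪)) (MvPowerSeries T.Var 𝒪)]

theorem exists_mem_J_sub_mem_pow (n : ℕ) (x : MvPowerSeries T.Var 𝒪) (hx : T.proj n x = 0) :
    ∃ L ∈ T.J, x - L ∈ maximalIdeal (MvPowerSeries T.Var 𝒪) ^ (n + 1) := by
  obtain ⟨f, hf0, hfP, hfR⟩ := exists_seq_of_step
    (fun k (y : MvPowerSeries T.Var 𝒪) => T.proj (n + k) y = 0)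
    (fun k y y' => y - y' ∈ maximalIdeal (MvPowerSeries T.Var 𝒪) ^ (n + k + 1)) x hx (by
      intro k y hy
      obtain ⟨g, hg, hyg⟩ := T.exists_sub_mem_pow (n + k) y 0 (by rw [map_zero, hy])
      exact ⟨g, hg, hyg⟩)
  obtain ⟨L, hL⟩ := exists_adic_limit (maximalIdeal (MvPowerSeries T.Var 𝒪)) f
    (fun k => Ideal.pow_le_pow_right (by omega) (hfR k))
  refine ⟨L, ?_, ?_⟩
  · rw [T.mem_J_iff]
    intro m
    have h1 : L = f (m + 1) - (f (m + 1) - L) := by ring
    rw [h1, map_sub, T.proj_eq_zero_of_le m (n + (m + 1)) (by omega) (hfP (m + 1)),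
      T.proj_eq_zero_of_mem_pow m (m + 1) le_rfl (hL (m + 1)), sub_zero]
  · have h0 : ∀ k, f 0 - f k ∈ maximalIdeal (MvPowerSeries T.Var 𝒪) ^ (n + 1) := by
      intro k
      induction k with
      | zero => simp
      | succ k ih =>
        have : f 0 - f (k + 1) = (f 0 - f k) + (f k - f (k + 1)) := by ring
        rw [this]
        exact Ideal.add_mem _ ih (Ideal.pow_le_pow_right (by omega) (hfR k))
    have h1 : x - L = (f 0 - f (n + 1)) + (f (n + 1) - L) := by rw [hf0]; ring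
    rw [h1]
    exact Ideal.add_mem _ (h0 (n + 1)) (hL (n + 1))

theorem exists_proj_eq (a : ∀ n, T.A n) (ha : ∀ n, T.tr n (a (n + 1)) = a n) :
    ∃ L : MvPowerSeries T.Var 𝒪, ∀ n, T.proj n L = a n := by
  obtain ⟨x0, hx0⟩ := T.proj_surjective 0 (a 0)
  obtain ⟨f, _, hfP, hfR⟩ := exists_seq_of_step
    (fun k (y : MvPowerSeries T.Var 𝒪) => T.proj k y = a k)
    (fun k y y' => y - y' ∈ maximalIdeal (MvPowerSeries T.Var 𝒪) ^ (k + 1)) x0 hx0 (by
      intro k y hy
      obtain ⟨g, hg, hyg⟩ := T.exists_sub_mem_pow k y (a (k + 1)) (by rw [ha, hy])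
      exact ⟨g, hg, hyg⟩)
  obtain ⟨L, hL⟩ := exists_adic_limit (maximalIdeal (MvPowerSeries T.Var 𝒪)) f
    (fun k => Ideal.pow_le_pow_right (by omega) (hfR k))
  refine ⟨L, fun m => ?_⟩
  have h2 : ∀ k, m ≤ k → T.proj m (f k) = a m := by
    intro k hk
    induction k, hk using Nat.le_induction with
    | base => exact hfP m
    | succ k hk ih =>
      have : f (k + 1) = f k - (f k - f (k + 1)) := by ring
      rw [this, map_sub, ih, T.proj_eq_zero_of_mem_pow m (k + 1) (by omega) (hfR k), sub_zero]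
  have h1 : L = f (m + 1) - (f (m + 1) - L) := by ring
  rw [h1, map_sub, h2 (m + 1) (by omega),
    T.proj_eq_zero_of_mem_pow m (m + 1) le_rfl (hL (m + 1)), sub_zero]

end Complete

/-- The output of the limit construction. -/
structure Limit where
  R : Type
  [instCommRing : CommRing R]
  [instIsLocalRing : IsLocalRing R]
  [instIsNoetherianRing : IsNoetherianRing R]
  [instIsAdicComplete : IsAdicComplete (maximalIdeal R) R]
  [instAlgebra : Algebra 𝒪 R]
  [instIsLocalHom : IsLocalHom (algebraMap 𝒪 R)]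
  residue_surjective : Function.Surjective (IsLocalRing.residue R ∘ algebraMap 𝒪 R)
  p : ∀ n, R →ₐ[𝒪] T.A n
  p_surjective : ∀ n, Function.Surjective (p n)
  tr_comp_p : ∀ n, (T.tr n).comp (p (n + 1)) = p n
  ker_p : ∀ n, RingHom.ker (p n : R →+* T.A n) = maximalIdeal R ^ (n + 1)
  existsUnique_of_compatible : ∀ a : ∀ n, T.A n, (∀ n, T.tr n (a (n + 1)) = a n) →
    ∃! x : R, ∀ n, p n x = a n

attribute [instance] Limit.instCommRing Limit.instIsLocalRing Limit.instIsNoetherianRing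
  Limit.instIsAdicComplete Limit.instAlgebra Limit.instIsLocalHom

theorem J_ne_top : T.J ≠ ⊤ := by
  intro h
  have h1 : (1 : MvPowerSeries T.Var 𝒪) ∈ T.J := by rw [h]; exact Submodule.mem_top
  rw [T.mem_J_iff] at h1
  have := h1 0
  rw [map_one] at this
  exact one_ne_zero this

theorem nonempty_limit [IsNoetherianRing 𝒪] [IsAdicComplete (maximalIdeal 𝒪) 𝒪] :
    Nonempty T.Limit := by
  have hScomplete : IsAdicComplete (maximalIdeal (MvPowerSeries T.Var 𝒪))
      (MvPowerSeries T.Var 𝒪) := mvPowerSeries_isAdicComplete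
  have hSprec : IsPrecomplete (maximalIdeal (MvPowerSeries T.Var 𝒪))
      (MvPowerSeries T.Var 𝒪) := hScomplete.toIsPrecomplete
  have hnt : Nontrivial (MvPowerSeries T.Var 𝒪 ⧸ T.J) :=
    Ideal.Quotient.nontrivial_iff.2 T.J_ne_top
  have hlocal : IsLocalRing (MvPowerSeries T.Var 𝒪 ⧸ T.J) :=
    IsLocalRing.of_surjective' (Ideal.Quotient.mk T.J) Ideal.Quotient.mk_surjective
  have hmkloc : IsLocalHom (algebraMap (MvPowerSeries T.Var 𝒪) (MvPowerSeries T.Var 𝒪 ⧸ T.J)) :=
    Function.Surjective.isLocalHom _ Ideal.Quotient.mk_surjective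
  have hcomplete : IsAdicComplete (maximalIdeal (MvPowerSeries T.Var 𝒪 ⧸ T.J))
      (MvPowerSeries T.Var 𝒪 ⧸ T.J) :=
    IsLocalRing.isAdicComplete_of_module_finite (𝒪 := MvPowerSeries T.Var 𝒪)
  -- locality of the structure map
  have hCloc : ∀ o : 𝒪, o ∈ maximalIdeal 𝒪 →
      (algebraMap 𝒪 (MvPowerSeries T.Var 𝒪 ⧸ T.J) o) ∈
        maximalIdeal (MvPowerSeries T.Var 𝒪 ⧸ T.J) := by
    intro o ho
    have h1 : (algebraMap 𝒪 (MvPowerSeries T.Var 𝒪) o) ∈
        maximalIdeal (MvPowerSeries T.Var 𝒪) := by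
      rw [mvPowerSeries_mem_maximalIdeal_iff, MvPowerSeries.algebraMap_apply,
        MvPowerSeries.constantCoeff_C]
      simpa using ho
    have h2 := Ideal.mem_map_of_mem (Ideal.Quotient.mk T.J) h1
    rw [IsLocalRing.map_maximalIdeal_of_surjective _ Ideal.Quotient.mk_surjective] at h2
    exact h2
  have hloc : IsLocalHom (algebraMap 𝒪 (MvPowerSeries T.Var 𝒪 ⧸ T.J)) := by
    refine ⟨fun o ho => ?_⟩
    by_contra hcon
    have h1 : o ∈ maximalIdeal 𝒪 := by rwa [mem_maximalIdeal, mem_nonunits_iff]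
    have h2 := hCloc o h1
    rw [mem_maximalIdeal, mem_nonunits_iff] at h2
    exact h2 ho
  -- the projections
  have hJle : ∀ n, ∀ a ∈ T.J, T.proj n a = 0 := fun n a ha => (T.mem_J_iff a).1 ha n
  let p : ∀ n, (MvPowerSeries T.Var 𝒪 ⧸ T.J) →ₐ[𝒪] T.A n := fun n =>
    Ideal.Quotient.liftₐ T.J (T.proj n) (hJle n)
  have hp : ∀ n (f : MvPowerSeries T.Var 𝒪), p n (Ideal.Quotient.mk T.J f) = T.proj n f :=
    fun n f => rfl
  have hpsurj : ∀ n, Function.Surjective (p n) := by
    intro n a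
    obtain ⟨f, hf⟩ := T.proj_surjective n a
    exact ⟨Ideal.Quotient.mk T.J f, by rw [hp, hf]⟩
  refine ⟨{ R := MvPowerSeries T.Var 𝒪 ⧸ T.J
            residue_surjective := ?_
            p := p
            p_surjective := hpsurj
            tr_comp_p := ?_
            ker_p := ?_
            existsUnique_of_compatible := ?_ }⟩
  · -- residue surjective
    intro x
    obtain ⟨y, rfl⟩ := IsLocalRing.residue_surjective x
    obtain ⟨f, rfl⟩ := Ideal.Quotient.mk_surjective y
    obtain ⟨o, ho⟩ := T.residue_surjective 0 (IsLocalRing.residue (T.A 0) (T.proj 0 f))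
    refine ⟨o, ?_⟩
    have h1 : T.proj 0 (f - algebraMap 𝒪 _ o) ∈ maximalIdeal (T.A 0) := by
      rw [map_sub, AlgHom.commutes, ← Ideal.neg_mem_iff, neg_sub, ← Ideal.Quotient.eq]
      exact ho
    have h2 : f - algebraMap 𝒪 _ o ∈ maximalIdeal (MvPowerSeries T.Var 𝒪) := by
      rw [mem_maximalIdeal, mem_nonunits_iff]
      intro hu
      rw [mem_maximalIdeal, mem_nonunits_iff] at h1
      exact h1 (hu.map (T.proj 0))
    have h3 := Ideal.mem_map_of_mem (Ideal.Quotient.mk T.J) h2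
    rw [IsLocalRing.map_maximalIdeal_of_surjective _ Ideal.Quotient.mk_surjective] at h3
    rw [Function.comp_apply, eq_comm, ← sub_eq_zero, ← map_sub]
    rw [IsLocalRing.residue_eq_zero_iff]
    rw [map_sub] at h3
    exact h3
  · intro n
    apply AlgHom.ext
    intro x
    obtain ⟨f, rfl⟩ := Ideal.Quotient.mk_surjective x
    rw [AlgHom.comp_apply, hp, hp, T.tr_proj]
  · intro n
    ext x
    obtain ⟨f, rfl⟩ := Ideal.Quotient.mk_surjective x
    rw [RingHom.mem_ker]
    change p n (Ideal.Quotient.mk T.J f) = 0 ↔ _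
    rw [hp, ← IsLocalRing.map_maximalIdeal_of_surjective (Ideal.Quotient.mk T.J)
      Ideal.Quotient.mk_surjective, ← Ideal.map_pow]
    constructor
    · intro hf
      obtain ⟨L, hL, hxL⟩ := T.exists_mem_J_sub_mem_pow n f hf
      have h1 : Ideal.Quotient.mk T.J f = Ideal.Quotient.mk T.J (f - L) := by
        rw [map_sub, Ideal.Quotient.eq_zero_iff_mem.2 hL, sub_zero]
      rw [h1]
      exact Ideal.mem_map_of_mem _ hxL
    · intro hf
      obtain ⟨g, hg, hgf⟩ := (Ideal.mem_map_iff_of_surjective (Ideal.Quotient.mk T.J)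
        Ideal.Quotient.mk_surjective).1 hf
      rw [← hp, ← hgf, hp]
      exact T.proj_eq_zero_of_mem_pow n (n + 1) le_rfl hg
  · intro a ha
    obtain ⟨L, hL⟩ := T.exists_proj_eq a ha
    refine ⟨Ideal.Quotient.mk T.J L, fun n => by rw [hp, hL], ?_⟩
    intro y hy
    obtain ⟨g, rfl⟩ := Ideal.Quotient.mk_surjective y
    rw [← sub_eq_zero, ← map_sub, Ideal.Quotient.eq_zero_iff_mem, T.mem_J_iff]
    intro n
    have := hy n
    rw [hp] at this
    rw [map_sub, this, hL, sub_self]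

end Tower

end Fermat.Agent.S53
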