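import Fermat.Agent.S53.Defs
import Fermat.Agent.S53.LevelLattice
import Fermat.Agent.S53.Limit
import Fermat.Agent.S53.DmAxioms
import Fermat.Agent.S53.KerEv
import Fermat.Agent.S53.NormalForm

/-! The tower of level quotients `BigS 𝒪 ⧸ levelIdeal c 𝒟 (n + 1)` (glue between the level
lattice and the limit construction). -/

set_option autoImplicit false
set_option linter.unusedSectionVars false
set_option linter.style.haveILetI false

open IsLocalRing

noncomputable section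

namespace Fermat.Agent.S53

variable {𝒪 : Type} [CommRing 𝒪] [IsLocalRing 𝒪]

section EvLemmas

variable {A : Type} [CommRing A] [Algebra 𝒪 A]

/-- Evaluation commutes with algebra homomorphisms. -/
lemma lt_comp_ev {B : Type} [CommRing B] [Algebra 𝒪 B] (φ : A →ₐ[𝒪] B) (r : GQ → M2 A) :
    φ.comp (ev r) = ev (fun σ => (r σ).map φ) := by
  apply MvPolynomial.algHom_ext
  rintro ⟨σ, a, b⟩
  rw [AlgHom.comp_apply, ev_X, ev_X, Matrix.map_apply]

lemma lt_comp_ev_apply {B : Type} [CommRing B] [Algebra 𝒪 B] (φ : A →ₐ[𝒪] B) (r : GQ → M2 A)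
    (f : BigS 𝒪) : φ (ev r f) = ev (fun σ => (r σ).map φ) f := by
  rw [← lt_comp_ev]; rfl

/-- Evaluation at `mapMat φ r`. -/
lemma lt_ev_mapMat {B : Type} [CommRing B] [Algebra 𝒪 B] (φ : A →ₐ[𝒪] B) (r : GQ →* M2 A)
    (f : BigS 𝒪) : ev (fun σ => mapMat (φ : A →+* B) r σ) f = φ (ev (fun σ => r σ) f) := by
  rw [lt_comp_ev_apply]; rfl

/-- Evaluation at the canonical representation is the quotient map. -/
lemma lt_ev_canRep (I : Ideal (BigS 𝒪)) (h : IsRepIdeal I) :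
    (ev (fun σ => canRep I h σ) : BigS 𝒪 →ₐ[𝒪] BigS 𝒪 ⧸ I) = Ideal.Quotient.mkₐ 𝒪 I := by
  apply MvPolynomial.algHom_ext
  rintro ⟨σ, a, b⟩
  rw [ev_X, canRep_apply]; rfl

lemma lt_ev_canRep_apply (I : Ideal (BigS 𝒪)) (h : IsRepIdeal I) (f : BigS 𝒪) :
    ev (fun σ => canRep I h σ) f = Ideal.Quotient.mk I f := by
  rw [lt_ev_canRep]; rfl

variable [IsLocalRing A] [IsLocalHom (algebraMap 𝒪 A)]

/-- The residue of an evaluation at a lift of `c.rbar` is the residual evaluation. -/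
lemma lt_residue_ev (c : SliceCtx 𝒪) (s : GQ →* M2 A)
    (hres : mapMat (residue A) s = mapMat (ResidueField.map (algebraMap 𝒪 A)) c.rbar)
    (f : BigS 𝒪) :
    residue A (ev (fun σ => s σ) f) =
      ResidueField.map (algebraMap 𝒪 A) (ev (fun σ => c.rbar σ) f) := by
  have key : (residue A).comp ((ev (fun σ => s σ) : BigS 𝒪 →ₐ[𝒪] A) : BigS 𝒪 →+* A) =
      (ResidueField.map (algebraMap 𝒪 A)).comp
        ((ev (fun σ => c.rbar σ) : BigS 𝒪 →ₐ[𝒪] ResidueField 𝒪) : BigS 𝒪 →+* ResidueField 𝒪) := by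
    apply MvPolynomial.ringHom_ext
    · intro t
      simp only [RingHom.coe_comp, RingHom.coe_coe, Function.comp_apply]
      rw [← MvPolynomial.algebraMap_eq, AlgHom.commutes, AlgHom.commutes,
        ResidueField.algebraMap_eq, ResidueField.map_residue]
    · rintro ⟨σ, a, b⟩
      simp only [RingHom.coe_comp, RingHom.coe_coe, Function.comp_apply]
      rw [ev_X, ev_X]
      have := congrArg (fun M : GQ →* M2 (ResidueField A) => M σ a b) hres
      simpa only [mapMat_apply_apply] using this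
  exact congrArg (fun g : BigS 𝒪 →+* ResidueField A => g f) key

lemma lt_ev_mem_maximalIdeal_iff (c : SliceCtx 𝒪) (s : GQ →* M2 A)
    (hres : mapMat (residue A) s = mapMat (ResidueField.map (algebraMap 𝒪 A)) c.rbar)
    (f : BigS 𝒪) : ev (fun σ => s σ) f ∈ maximalIdeal A ↔ f ∈ nbar c := by
  rw [← residue_eq_zero_iff, lt_residue_ev c s hres, map_eq_zero]
  rfl

/-- `nbar c ^ n` is killed by the evaluation at a lift of `c.rbar` over a local ring whose
maximal ideal has vanishing `n`-th power. -/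
lemma lt_pow_nbar_le_ker_ev (c : SliceCtx 𝒪) (s : GQ →* M2 A)
    (hres : mapMat (residue A) s = mapMat (ResidueField.map (algebraMap 𝒪 A)) c.rbar)
    {n : ℕ} (hn : maximalIdeal A ^ n = ⊥) :
    nbar c ^ n ≤ RingHom.ker (ev (fun σ => s σ) : BigS 𝒪 →ₐ[𝒪] A) := by
  have h1 : nbar c ≤ (maximalIdeal A).comap (ev (fun σ => s σ) : BigS 𝒪 →ₐ[𝒪] A) :=
    fun f hf => (lt_ev_mem_maximalIdeal_iff c s hres f).mpr hf
  calc nbar c ^ n ≤ ((maximalIdeal A).comap (ev (fun σ => s σ) : BigS 𝒪 →ₐ[𝒪] A)) ^ n :=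
        Ideal.pow_right_mono h1 n
    _ ≤ (maximalIdeal A ^ n).comap (ev (fun σ => s σ) : BigS 𝒪 →ₐ[𝒪] A) :=
        Ideal.le_comap_pow _ n
    _ = RingHom.ker (ev (fun σ => s σ) : BigS 𝒪 →ₐ[𝒪] A) := by rw [hn]; rfl

end EvLemmas

section Quot

variable {c : SliceCtx 𝒪} {I : Ideal (BigS 𝒪)} [IsLocalRing (BigS 𝒪 ⧸ I)]
  [IsLocalHom (algebraMap 𝒪 (BigS 𝒪 ⧸ I))]

lemma lt_mk_mem_maximalIdeal_iff (h : IsRepIdeal I) (hs : IsSlicedLift c (canRep I h))
    (f : BigS 𝒪) : Ideal.Quotient.mk I f ∈ maximalIdeal (BigS 𝒪 ⧸ I) ↔ f ∈ nbar c := by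
  rw [← lt_ev_canRep_apply I h f]
  exact lt_ev_mem_maximalIdeal_iff c (canRep I h) hs.res f

/-- The preimage of the maximal ideal of `BigS 𝒪 ⧸ I` is `nbar c`. -/
lemma lt_comap_maximalIdeal (h : IsRepIdeal I) (hs : IsSlicedLift c (canRep I h)) :
    (maximalIdeal (BigS 𝒪 ⧸ I)).comap (Ideal.Quotient.mk I) = nbar c := by
  ext f
  exact lt_mk_mem_maximalIdeal_iff h hs f

lemma lt_maximalIdeal_eq_map (h : IsRepIdeal I) (hs : IsSlicedLift c (canRep I h)) :
    maximalIdeal (BigS 𝒪 ⧸ I) = (nbar c).map (Ideal.Quotient.mk I) := by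
  rw [← lt_comap_maximalIdeal h hs, Ideal.map_comap_of_surjective _ Ideal.Quotient.mk_surjective]

lemma lt_maximalIdeal_pow_eq_map (h : IsRepIdeal I) (hs : IsSlicedLift c (canRep I h)) (n : ℕ) :
    maximalIdeal (BigS 𝒪 ⧸ I) ^ n = (nbar c ^ n).map (Ideal.Quotient.mk I) := by
  rw [lt_maximalIdeal_eq_map h hs, Ideal.map_pow]

lemma lt_maximalIdeal_pow_eq_bot (h : IsRepIdeal I) (hs : IsSlicedLift c (canRep I h)) {n : ℕ}
    (hn : nbar c ^ n ≤ I) : maximalIdeal (BigS 𝒪 ⧸ I) ^ n = ⊥ := by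
  rw [lt_maximalIdeal_pow_eq_map h hs, Ideal.map_eq_bot_iff_le_ker, Ideal.mk_ker]
  exact hn

/-- The residue field of `BigS 𝒪 ⧸ I` is that of `𝒪`. -/
lemma lt_residue_surjective (h : IsRepIdeal I) (hs : IsSlicedLift c (canRep I h)) :
    Function.Surjective (residue (BigS 𝒪 ⧸ I) ∘ algebraMap 𝒪 (BigS 𝒪 ⧸ I)) := by
  intro x
  obtain ⟨y, rfl⟩ := residue_surjective x
  obtain ⟨f, rfl⟩ := Ideal.Quotient.mk_surjective y
  obtain ⟨t, ht⟩ := residue_surjective (ev (fun σ => c.rbar σ) f : ResidueField 𝒪)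
  refine ⟨t, ?_⟩
  rw [Function.comp_apply, ← lt_ev_canRep_apply I h f, lt_residue_ev c (canRep I h) hs.res, ← ht,
    ResidueField.map_residue]

end Quot

section DefIdealData

variable {c : SliceCtx 𝒪}
  {𝒟 : ∀ ⦃A : Type⦄ [CommRing A] [IsLocalRing A] [Algebra 𝒪 A], GaloisRepAdic A → Prop}
  {I : Ideal (BigS 𝒪)}

lemma lt_finite (hI : IsDefIdeal c 𝒟 I) : Finite (BigS 𝒪 ⧸ I) := hI.1

lemma lt_isLocalRing (hI : IsDefIdeal c 𝒟 I) : IsLocalRing (BigS 𝒪 ⧸ I) := hI.2.choose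

lemma lt_isLocalHom (hI : IsDefIdeal c 𝒟 I) :
    haveI := lt_isLocalRing hI
    IsLocalHom (algebraMap 𝒪 (BigS 𝒪 ⧸ I)) := hI.2.choose_spec.choose

lemma lt_isRepIdeal (hI : IsDefIdeal c 𝒟 I) : IsRepIdeal I := by
  obtain ⟨_, _, _, h, _, _⟩ := hI
  exact h

lemma lt_isSlicedLift (hI : IsDefIdeal c 𝒟 I) :
    haveI := lt_isLocalRing hI
    haveI := lt_isLocalHom hI
    IsSlicedLift c (canRep I (lt_isRepIdeal hI)) := by
  obtain ⟨_, _, _, h, hs, _⟩ := hI
  exact hs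

lemma lt_dm (hI : IsDefIdeal c 𝒟 I) :
    haveI := lt_isLocalRing hI
    Dm 𝒟 (canRep I (lt_isRepIdeal hI)) := by
  obtain ⟨_, _, _, h, _, hD⟩ := hI
  exact hD

lemma lt_isArtinianTestAlgebra (hI : IsDefIdeal c 𝒟 I) :
    haveI := lt_isLocalRing hI
    GaloisRep.IsArtinianTestAlgebra 𝒪 (BigS 𝒪 ⧸ I) := by
  haveI := lt_isLocalRing hI
  haveI := lt_isLocalHom hI
  haveI := lt_finite hI
  exact ⟨inferInstance, lt_residue_surjective (lt_isRepIdeal hI) (lt_isSlicedLift hI),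
    inferInstance⟩

end DefIdealData

section Tower

variable {c : SliceCtx 𝒪}
  {𝒟 : ∀ ⦃A : Type⦄ [CommRing A] [IsLocalRing A] [Algebra 𝒪 A], GaloisRepAdic A → Prop}

lemma lt_levelIdeal_eq_levelOf (n : ℕ) :
    levelIdeal c 𝒟 n = levelOf (nbar c) (IsDefIdeal c 𝒟) n := rfl

variable (H : LevelAxioms (nbar c) (IsDefIdeal c 𝒟))

include H

lemma lt_isDefIdeal_level (n : ℕ) : IsDefIdeal c 𝒟 (levelIdeal c 𝒟 (n + 1)) :=
  H.levelOf_prop (Nat.le_add_left 1 n)

lemma lt_pow_le_level (n : ℕ) : nbar c ^ (n + 1) ≤ levelIdeal c 𝒟 (n + 1) :=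
  H.pow_le_levelOf (Nat.le_add_left 1 n)

omit H in
lemma lt_level_succ_le (n : ℕ) : levelIdeal c 𝒟 (n + 1) ≤ levelIdeal c 𝒟 n :=
  levelOf_succ_le n

lemma lt_level_eq_sup (n : ℕ) :
    levelIdeal c 𝒟 (n + 1) = levelIdeal c 𝒟 (n + 2) ⊔ nbar c ^ (n + 1) :=
  H.levelOf_eq_sup (Nat.le_add_left 1 n)

/-- The tower of level quotients (see `levelTower` in `UnivRep.lean` for the interface
version). -/
def levelTowerAux : Tower 𝒪 where
  A n := BigS 𝒪 ⧸ levelIdeal c 𝒟 (n + 1)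
  instCommRing _ := inferInstance
  instIsLocalRing n := lt_isLocalRing (lt_isDefIdeal_level H n)
  instAlgebra _ := inferInstance
  instFinite n := lt_finite (lt_isDefIdeal_level H n)
  isLocalHom n := lt_isLocalHom (lt_isDefIdeal_level H n)
  residue_surjective n :=
    haveI := lt_isLocalRing (lt_isDefIdeal_level H n)
    haveI := lt_isLocalHom (lt_isDefIdeal_level H n)
    lt_residue_surjective (lt_isRepIdeal (lt_isDefIdeal_level H n))
      (lt_isSlicedLift (lt_isDefIdeal_level H n))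
  pow_succ_eq_bot n :=
    haveI := lt_isLocalRing (lt_isDefIdeal_level H n)
    haveI := lt_isLocalHom (lt_isDefIdeal_level H n)
    lt_maximalIdeal_pow_eq_bot (lt_isRepIdeal (lt_isDefIdeal_level H n))
      (lt_isSlicedLift (lt_isDefIdeal_level H n)) (lt_pow_le_level H n)
  tr n := Ideal.Quotient.factorₐ 𝒪 (lt_level_succ_le (n + 1))
  tr_surjective n := Ideal.Quotient.factor_surjective (lt_level_succ_le (n + 1))
  ker_tr n := by
    haveI := lt_isLocalRing (lt_isDefIdeal_level H (n + 1))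
    haveI := lt_isLocalHom (lt_isDefIdeal_level H (n + 1))
    rw [lt_maximalIdeal_pow_eq_map (lt_isRepIdeal (lt_isDefIdeal_level H (n + 1)))
      (lt_isSlicedLift (lt_isDefIdeal_level H (n + 1))), Ideal.Quotient.coe_factorₐ,
      Ideal.Quotient.factor_ker, lt_level_eq_sup H n, Ideal.map_sup]
    have : (levelIdeal c 𝒟 (n + 2)).map (Ideal.Quotient.mk (levelIdeal c 𝒟 (n + 1 + 1))) = ⊥ := by
      rw [Ideal.map_eq_bot_iff_le_ker, Ideal.mk_ker]
    rw [this, bot_sup_eq]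

end Tower

end Fermat.Agent.S53
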