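import Mathlib
import Fermat.Prelude.Def_GaloisRep_Residual

open IsLocalRing Matrix
open scoped TensorProduct

noncomputable section

namespace Fermat.Agent.S53.SliceResidual

theorem henselianLocalRing_of_isAdicComplete (A : Type*) [CommRing A] [IsLocalRing A]
    [IsAdicComplete (maximalIdeal A) A] : HenselianLocalRing A where
  is_henselian f hf a₀ h₁ h₂ := by
    refine HenselianRing.is_henselian (I := maximalIdeal A) f hf a₀ h₁ ?_
    exact h₂.map _


section Basis

variable {k : Type} [Field k]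

/-- Over a field, an absolutely irreducible two dimensional representation has a cyclic vector
for some group element, and some other group element does not commute with it. -/
theorem exists_basis_slice (ρbar : ResidualGaloisRep k) (habs : ρbar.IsAbsolutelyIrreducible) :
    ∃ (b : Module.Basis (Fin 2) k ρbar.V) (g0 g1 : (AlgebraicClosure ℚ ≃ₐ[ℚ] AlgebraicClosure ℚ)) (i j : Fin 2),
      ρbar.ρ g0 (b 0) = b 1 ∧
      (LinearMap.toMatrix b b (ρbar.ρ g1 * ρbar.ρ g0 - ρbar.ρ g0 * ρbar.ρ g1)) i j ≠ 0 := by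
  classical
  set K := AlgebraicClosure k
  have hirr : ∀ W : Submodule K (K ⊗[k] ρbar.V),
      (∀ σ : (AlgebraicClosure ℚ ≃ₐ[ℚ] AlgebraicClosure ℚ), ∀ x ∈ W, (ρbar.ρ σ).baseChange K x ∈ W) → W = ⊥ ∨ W = ⊤ := habs
  -- a first basis
  let c : Module.Basis (Fin 2) k ρbar.V := Module.finBasisOfFinrankEq k ρbar.V ρbar.finrank_eq
  let cK : Module.Basis (Fin 2) K (K ⊗[k] ρbar.V) := c.baseChange K
  -- Step B: a cyclic vector
  have hB : ∃ g0 : (AlgebraicClosure ℚ ≃ₐ[ℚ] AlgebraicClosure ℚ), LinearIndependent k ![c 0, ρbar.ρ g0 (c 0)] := by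
    by_contra hno
    push Not at hno
    have hmem : ∀ σ : (AlgebraicClosure ℚ ≃ₐ[ℚ] AlgebraicClosure ℚ), ∃ a : k, ρbar.ρ σ (c 0) = a • c 0 := by
      intro σ
      have h := hno σ
      rw [LinearIndependent.pair_iff] at h
      push Not at h
      obtain ⟨s, t, hst, hne⟩ := h
      have ht : t ≠ 0 := by
        intro ht0
        have hs : s ≠ 0 := fun hs0 => hne hs0 ht0
        rw [ht0, zero_smul, add_zero] at hst
        exact c.ne_zero 0 ((smul_eq_zero.mp hst).resolve_left hs)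
      refine ⟨-(t⁻¹ * s), ?_⟩
      have : t • ρbar.ρ σ (c 0) = -(s • c 0) := by
        rw [eq_neg_iff_add_eq_zero, add_comm]; exact hst
      calc ρbar.ρ σ (c 0) = t⁻¹ • (t • ρbar.ρ σ (c 0)) := by
            rw [smul_smul, inv_mul_cancel₀ ht, one_smul]
        _ = -(t⁻¹ * s) • c 0 := by rw [this, smul_neg, smul_smul, neg_smul]
    have hstab : ∀ σ : (AlgebraicClosure ℚ ≃ₐ[ℚ] AlgebraicClosure ℚ), ∀ x ∈ Submodule.span K {cK 0},
        (ρbar.ρ σ).baseChange K x ∈ Submodule.span K {cK 0} := by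
      intro σ x hx
      obtain ⟨z, rfl⟩ := Submodule.mem_span_singleton.mp hx
      obtain ⟨a, ha⟩ := hmem σ
      rw [map_smul]
      refine Submodule.smul_mem _ _ ?_
      have : (ρbar.ρ σ).baseChange K (cK 0) = (algebraMap k K a) • cK 0 := by
        simp only [cK, Module.Basis.baseChange_apply, LinearMap.baseChange_tmul, ha]
        rw [TensorProduct.tmul_smul, algebraMap_smul]
      rw [this]
      exact Submodule.smul_mem _ _ (Submodule.mem_span_singleton_self _)
    rcases hirr _ hstab with h | h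
    · have : cK 0 ∈ (⊥ : Submodule K (K ⊗[k] ρbar.V)) := h ▸ Submodule.mem_span_singleton_self _
      exact cK.ne_zero 0 ((Submodule.mem_bot K).mp this)
    · have h1 : cK 1 ∈ Submodule.span K {cK 0} := h ▸ Submodule.mem_top
      obtain ⟨z, hz⟩ := Submodule.mem_span_singleton.mp h1
      have := congrArg (fun x => cK.repr x 1) hz
      simp at this
  obtain ⟨g0, hg0⟩ := hB
  let b : Module.Basis (Fin 2) k ρbar.V :=
    basisOfLinearIndependentOfCardEqFinrank hg0 (by simp [ρbar.finrank_eq])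
  have hb0 : b 0 = c 0 := by simp [b]
  have hb1 : b 1 = ρbar.ρ g0 (c 0) := by simp [b]
  let bK : Module.Basis (Fin 2) K (K ⊗[k] ρbar.V) := b.baseChange K
  -- Step C: a non-commuting element
  have hC : ∃ g1 : (AlgebraicClosure ℚ ≃ₐ[ℚ] AlgebraicClosure ℚ), ρbar.ρ g1 * ρbar.ρ g0 - ρbar.ρ g0 * ρbar.ρ g1 ≠ 0 := by
    by_contra hno
    push Not at hno
    have hcomm : ∀ σ : (AlgebraicClosure ℚ ≃ₐ[ℚ] AlgebraicClosure ℚ), ρbar.ρ σ * ρbar.ρ g0 = ρbar.ρ g0 * ρbar.ρ σ := fun σ =>
      sub_eq_zero.mp (hno σ)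
    set NK : Module.End K (K ⊗[k] ρbar.V) := (ρbar.ρ g0).baseChange K with hNK
    have : Nontrivial (K ⊗[k] ρbar.V) := ⟨⟨bK 0, 0, bK.ne_zero 0⟩⟩
    obtain ⟨lam, hlam⟩ := Module.End.exists_eigenvalue NK
    have hstab : ∀ σ : (AlgebraicClosure ℚ ≃ₐ[ℚ] AlgebraicClosure ℚ), ∀ x ∈ Module.End.eigenspace NK lam,
        (ρbar.ρ σ).baseChange K x ∈ Module.End.eigenspace NK lam := by
      intro σ x hx
      rw [Module.End.mem_eigenspace_iff] at hx ⊢
      have h1 : NK ((ρbar.ρ σ).baseChange K x) = (ρbar.ρ σ).baseChange K (NK x) := by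
        have := congrArg (fun f : Module.End k ρbar.V => (f.baseChange K) x) (hcomm σ)
        simp only [Module.End.mul_eq_comp, LinearMap.baseChange_comp, LinearMap.comp_apply] at this
        exact this.symm
      rw [h1, hx, map_smul]
    rcases hirr _ hstab with h | h
    · exact hlam h
    · have h0 : bK 0 ∈ Module.End.eigenspace NK lam := h ▸ Submodule.mem_top
      rw [Module.End.mem_eigenspace_iff] at h0
      have h1 : NK (bK 0) = bK 1 := by
        simp only [bK, hNK, Module.Basis.baseChange_apply, LinearMap.baseChange_tmul, hb0, hb1]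
      rw [h1] at h0
      have := congrArg (fun x => bK.repr x 1) h0
      simp at this
  obtain ⟨g1, hg1⟩ := hC
  have hmat : LinearMap.toMatrix b b (ρbar.ρ g1 * ρbar.ρ g0 - ρbar.ρ g0 * ρbar.ρ g1) ≠ 0 := by
    intro h
    exact hg1 ((LinearMap.toMatrix b b).map_eq_zero_iff.mp h)
  have : ∃ i j, (LinearMap.toMatrix b b (ρbar.ρ g1 * ρbar.ρ g0 - ρbar.ρ g0 * ρbar.ρ g1)) i j ≠ 0 := by
    by_contra hno
    push Not at hno
    exact hmat (Matrix.ext hno)
  obtain ⟨i, j, hij⟩ := this
  exact ⟨b, g0, g1, i, j, by rw [hb0, hb1], hij⟩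

end Basis

end Fermat.Agent.S53.SliceResidual
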