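import Mathlib

set_option autoImplicit false

namespace Fermat.Agent.S53

open IsLocalRing

section TowerDef

variable {𝒪 : Type*} [CommRing 𝒪]
variable (A : ℕ → Type*) [∀ n, CommRing (A n)] [∀ n, Algebra 𝒪 (A n)]
variable (π : ∀ n, A (n + 1) →ₐ[𝒪] A n)

/-- The inverse limit of a tower of `𝒪`-algebras, as a subalgebra of the product. -/
def towerLim : Subalgebra 𝒪 (∀ n, A n) where
  carrier := {x | ∀ n, π n (x (n + 1)) = x n}
  mul_mem' := by
    intro x y hx hy n
    simp only [Pi.mul_apply, map_mul, hx n, hy n]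
  add_mem' := by
    intro x y hx hy n
    simp only [Pi.add_apply, map_add, hx n, hy n]
  algebraMap_mem' := by
    intro r n
    simp only [Pi.algebraMap_apply, AlgHom.commutes]

variable {A π}

theorem mem_towerLim {x : ∀ n, A n} : x ∈ towerLim A π ↔ ∀ n, π n (x (n + 1)) = x n :=
  Iff.rfl

variable (A π)

/-- The projection from the limit to the `n`-th level. -/
def towerProj (n : ℕ) : towerLim A π →ₐ[𝒪] A n :=
  (Pi.evalAlgHom 𝒪 A n).comp (towerLim A π).val

variable {A π}

@[simp]
theorem towerProj_apply (n : ℕ) (x : towerLim A π) : towerProj A π n x = x.1 n := rfl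

theorem towerProj_succ (n : ℕ) (x : towerLim A π) :
    π n (towerProj A π (n + 1) x) = towerProj A π n x := x.2 n

theorem towerLim_ext {x y : towerLim A π} (h : ∀ n, towerProj A π n x = towerProj A π n y) :
    x = y := Subtype.ext (funext h)

end TowerDef

section Down

variable {𝒪 : Type*} [CommRing 𝒪]
variable {A : ℕ → Type*} [∀ n, CommRing (A n)] [∀ n, Algebra 𝒪 (A n)]
variable (π : ∀ n, A (n + 1) →ₐ[𝒪] A n)

/-- Transition maps `A n → A m` for `m ≤ n`. -/
def towerDown {m n : ℕ} (h : m ≤ n) : A n →ₐ[𝒪] A m :=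
  Nat.leRec (motive := fun k _ => A k →ₐ[𝒪] A m) (AlgHom.id 𝒪 (A m))
    (fun k _ f => f.comp (π k)) h

theorem towerDown_self (m : ℕ) : towerDown π (le_refl m) = AlgHom.id 𝒪 (A m) :=
  Nat.leRec_self _ _

theorem towerDown_succ {m n : ℕ} (h : m ≤ n) :
    towerDown π (Nat.le_succ_of_le h) = (towerDown π h).comp (π n) :=
  Nat.leRec_succ _ _ h

theorem towerDown_succ_left {m n : ℕ} (h : m + 1 ≤ n) :
    (π m).comp (towerDown π h) = towerDown π (Nat.le_of_succ_le h) := by
  induction n, h using Nat.le_induction with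
  | base =>
    rw [towerDown_self, towerDown_succ π (le_refl m), towerDown_self]
    rfl
  | succ n hmn ih =>
    rw [towerDown_succ π hmn, ← AlgHom.comp_assoc, ih, ← towerDown_succ]

theorem towerProj_towerDown {m n : ℕ} (h : m ≤ n) (x : towerLim A π) :
    towerDown π h (towerProj A π n x) = towerProj A π m x := by
  induction n, h using Nat.le_induction with
  | base => rw [towerDown_self]; rfl
  | succ n hmn ih =>
    rw [towerDown_succ π hmn, AlgHom.comp_apply, towerProj_succ, ih]

theorem towerProj_surjective (hπ : ∀ n, Function.Surjective (π n)) (n : ℕ) :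
    Function.Surjective (towerProj A π n) := by
  intro a
  let y : ∀ j, A (n + j) := fun j =>
    Nat.rec (motive := fun j => A (n + j)) a (fun j yj => Function.surjInv (hπ (n + j)) yj) j
  have hy : ∀ j, π (n + j) (y (j + 1)) = y j := fun j => Function.surjInv_eq (hπ (n + j)) _
  have hy0 : ∀ j, towerDown π (Nat.le_add_right n j) (y j) = a := by
    intro j
    induction j with
    | zero =>
      show towerDown π (le_refl n) a = a
      rw [towerDown_self]; rfl
    | succ j ih =>
      have h1 : towerDown π (Nat.le_add_right n (j + 1)) =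
          (towerDown π (Nat.le_add_right n j)).comp (π (n + j)) :=
        towerDown_succ π (Nat.le_add_right n j)
      rw [h1, AlgHom.comp_apply, hy, ih]
  refine ⟨⟨fun k => towerDown π (Nat.le_add_left k n) (y k), ?_⟩, ?_⟩
  · intro k
    show π k (towerDown π (Nat.le_add_left (k + 1) n) (y (k + 1))) =
      towerDown π (Nat.le_add_left k n) (y k)
    have h1 := towerDown_succ_left π (Nat.le_add_left (k + 1) n)
    have h2 : towerDown π (Nat.le_of_succ_le (Nat.le_add_left (k + 1) n)) =
        (towerDown π (Nat.le_add_left k n)).comp (π (n + k)) :=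
      towerDown_succ π (Nat.le_add_left k n)
    rw [← AlgHom.comp_apply, h1, h2, AlgHom.comp_apply, hy]
  · show towerDown π (Nat.le_add_left n n) (y n) = a
    exact hy0 n

end Down

section Local

variable {𝒪 : Type*} [CommRing 𝒪]
variable {A : ℕ → Type*} [∀ n, CommRing (A n)] [∀ n, Algebra 𝒪 (A n)]
variable [∀ n, IsLocalRing (A n)]
variable (π : ∀ n, A (n + 1) →ₐ[𝒪] A n)

/-- Hypotheses on a tower of Artinian local rings. -/
structure TowerHyp : Prop where
  surj : ∀ n, Function.Surjective (π n)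
  ker_eq : ∀ n, RingHom.ker (π n : A (n + 1) →+* A n) = maximalIdeal (A (n + 1)) ^ (n + 1)
  pow_eq_bot : ∀ n, maximalIdeal (A n) ^ (n + 1) = ⊥
  res_surj : Function.Surjective (algebraMap 𝒪 (A 0))
  fg : (maximalIdeal (A 1)).FG

variable {π}

theorem TowerHyp.isUnit_proj (H : TowerHyp π) (x : towerLim A π)
    (h0 : IsUnit (towerProj A π 0 x)) (n : ℕ) : IsUnit (towerProj A π n x) := by
  by_contra hn
  have hmem : towerProj A π n x ∈ maximalIdeal (A n) := by
    rwa [mem_maximalIdeal, mem_nonunits_iff]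
  have hpow : (towerProj A π n x) ^ (n + 1) = 0 := by
    have := Ideal.pow_mem_pow hmem (n + 1)
    rwa [H.pow_eq_bot n, Ideal.mem_bot] at this
  have h1 : (towerProj A π 0 x) ^ (n + 1) = 0 := by
    rw [← towerProj_towerDown π (Nat.zero_le n) x, ← map_pow, hpow, map_zero]
  exact not_isUnit_zero (h1 ▸ h0.pow (n + 1))

theorem TowerHyp.isUnit_iff (H : TowerHyp π) (x : towerLim A π) :
    IsUnit x ↔ IsUnit (towerProj A π 0 x) := by
  refine ⟨fun h => h.map _, fun h0 => ?_⟩
  have hu : ∀ n, IsUnit (x.1 n) := fun n => H.isUnit_proj x h0 n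
  have hinv : ∀ n, x.1 n * Ring.inverse (x.1 n) = 1 := fun n => Ring.mul_inverse_cancel _ (hu n)
  refine IsUnit.of_mul_eq_one ⟨fun n => Ring.inverse (x.1 n), ?_⟩ ?_
  · intro n
    have h1 : x.1 n * π n (Ring.inverse (x.1 (n + 1))) = 1 := by
      rw [← x.2 n, ← map_mul, hinv, map_one]
    calc π n (Ring.inverse (x.1 (n + 1)))
        = (Ring.inverse (x.1 n) * x.1 n) * π n (Ring.inverse (x.1 (n + 1))) := by
          rw [mul_comm (Ring.inverse (x.1 n)), hinv, one_mul]
      _ = Ring.inverse (x.1 n) := by rw [mul_assoc, h1, mul_one]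
  · exact Subtype.ext (funext fun n => hinv n)

theorem TowerHyp.isLocalRing (H : TowerHyp π) : IsLocalRing (towerLim A π) := by
  have : Nontrivial (towerLim A π) := by
    refine ⟨⟨0, 1, fun h => ?_⟩⟩
    have := congrArg (towerProj A π 0) h
    simp at this
  refine IsLocalRing.of_nonunits_add fun a b ha hb => ?_
  rw [mem_nonunits_iff, H.isUnit_iff] at ha hb ⊢
  rw [map_add]
  exact IsLocalRing.nonunits_add ha hb

end Local

section Ideals

variable {𝒪 : Type*} [CommRing 𝒪]
variable {A : ℕ → Type*} [∀ n, CommRing (A n)] [∀ n, Algebra 𝒪 (A n)]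
variable [∀ n, IsLocalRing (A n)]
variable {π : ∀ n, A (n + 1) →ₐ[𝒪] A n}

theorem TowerHyp.maximalIdeal_zero (H : TowerHyp π) : maximalIdeal (A 0) = ⊥ := by
  have := H.pow_eq_bot 0
  simpa using this

theorem TowerHyp.proj_mem_maximalIdeal_iff (H : TowerHyp π) (x : towerLim A π) (n : ℕ) :
    towerProj A π n x ∈ maximalIdeal (A n) ↔ towerProj A π 0 x = 0 := by
  rw [mem_maximalIdeal, mem_nonunits_iff]
  constructor
  · intro h
    by_contra h0
    have hu : IsUnit (towerProj A π 0 x) := by
      by_contra hu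
      have : towerProj A π 0 x ∈ maximalIdeal (A 0) := by
        rwa [mem_maximalIdeal, mem_nonunits_iff]
      rw [H.maximalIdeal_zero, Ideal.mem_bot] at this
      exact h0 this
    exact h (H.isUnit_proj x hu n)
  · intro h0 hu
    have : IsUnit (towerProj A π 0 x) := by
      rw [← towerProj_towerDown π (Nat.zero_le n) x]
      exact hu.map _
    rw [h0] at this
    exact not_isUnit_zero this

variable [IsLocalRing (towerLim A π)]

theorem TowerHyp.mem_maximalIdeal_iff (H : TowerHyp π) (x : towerLim A π) :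
    x ∈ maximalIdeal (towerLim A π) ↔ towerProj A π 0 x = 0 := by
  rw [mem_maximalIdeal, mem_nonunits_iff, H.isUnit_iff, ← mem_nonunits_iff, ← mem_maximalIdeal,
    H.maximalIdeal_zero, Ideal.mem_bot]

omit [IsLocalRing (towerLim A π)] in
theorem TowerHyp.isLocalHom_towerProj (H : TowerHyp π) (n : ℕ) :
    IsLocalHom (towerProj A π n : towerLim A π →+* A n) := by
  refine ⟨fun x hx => ?_⟩
  rw [H.isUnit_iff]
  have : IsUnit (towerProj A π 0 x) := by
    rw [← towerProj_towerDown π (Nat.zero_le n) x]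
    exact hx.map _
  exact this

theorem TowerHyp.map_maximalIdeal_le (H : TowerHyp π) (n : ℕ) :
    (maximalIdeal (towerLim A π)).map (towerProj A π n : towerLim A π →+* A n) ≤
      maximalIdeal (A n) := by
  rw [Ideal.map_le_iff_le_comap]
  intro x hx
  rw [Ideal.mem_comap]
  exact (H.proj_mem_maximalIdeal_iff x n).mpr ((H.mem_maximalIdeal_iff x).mp hx)

theorem TowerHyp.pow_le_ker (H : TowerHyp π) (n : ℕ) :
    maximalIdeal (towerLim A π) ^ (n + 1) ≤
      RingHom.ker (towerProj A π n : towerLim A π →+* A n) := by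
  rw [RingHom.ker_eq_comap_bot, ← Ideal.map_le_iff_le_comap, Ideal.map_pow, ← H.pow_eq_bot n]
  exact Ideal.pow_right_mono (H.map_maximalIdeal_le n) (n + 1)

end Ideals

section Kernels

variable {𝒪 : Type*} [CommRing 𝒪]
variable {A : ℕ → Type*} [∀ n, CommRing (A n)] [∀ n, Algebra 𝒪 (A n)]
variable [∀ n, IsLocalRing (A n)]
variable {π : ∀ n, A (n + 1) →ₐ[𝒪] A n}

theorem TowerHyp.towerDown_surjective (H : TowerHyp π) {m n : ℕ} (h : m ≤ n) :
    Function.Surjective (towerDown π h) := by
  induction n, h using Nat.le_induction with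
  | base => rw [towerDown_self]; exact Function.surjective_id
  | succ n hmn ih =>
    rw [towerDown_succ π hmn]
    exact ih.comp (H.surj n)

theorem TowerHyp.ker_towerDown (H : TowerHyp π) {m n : ℕ} (h : m ≤ n) :
    RingHom.ker (towerDown π h : A n →+* A m) = maximalIdeal (A n) ^ (m + 1) := by
  induction n, h using Nat.le_induction with
  | base =>
    rw [towerDown_self, H.pow_eq_bot m]
    ext x
    simp [RingHom.mem_ker]
  | succ n hmn ih =>
    have h1 : (towerDown π (Nat.le_succ_of_le hmn) : A (n + 1) →+* A m) =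
        (towerDown π hmn : A n →+* A m).comp (π n : A (n + 1) →+* A n) := by
      rw [towerDown_succ π hmn]; rfl
    have hs : Function.Surjective (π n : A (n + 1) →+* A n) := H.surj n
    rw [h1, ← RingHom.comap_ker, ih,
      ← map_maximalIdeal_of_surjective (π n : A (n + 1) →+* A n) hs, ← Ideal.map_pow,
      Ideal.comap_map_of_surjective' _ hs, H.ker_eq n]
    exact sup_eq_left.mpr (Ideal.pow_le_pow_right (Nat.succ_le_succ hmn))

theorem TowerHyp.exists_sub_algebraMap_mem (H : TowerHyp π) (n : ℕ) (a : A n) :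
    ∃ c : 𝒪, a - algebraMap 𝒪 (A n) c ∈ maximalIdeal (A n) := by
  obtain ⟨c, hc⟩ := H.res_surj (towerDown π (Nat.zero_le n) a)
  refine ⟨c, ?_⟩
  have h1 : a - algebraMap 𝒪 (A n) c ∈
      RingHom.ker (towerDown π (Nat.zero_le n) : A n →+* A 0) := by
    rw [RingHom.mem_ker]
    show towerDown π (Nat.zero_le n) (a - algebraMap 𝒪 (A n) c) = 0
    rw [map_sub, AlgHom.commutes, hc, sub_self]
  rw [H.ker_towerDown (Nat.zero_le n)] at h1
  simpa using h1

end Kernels

theorem ideal_le_of_le_sup_sq {R : Type*} [CommRing R] {I J : Ideal R} (h : I ≤ J ⊔ I ^ 2)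
    {k : ℕ} (hk : I ^ (k + 1) = ⊥) : I ≤ J := by
  have key : ∀ j : ℕ, I ≤ J ⊔ I ^ (j + 1) := by
    intro j
    induction j with
    | zero => simp
    | succ j ih =>
      have h2 : I ^ 2 ≤ J ⊔ I ^ (j + 1 + 1) := by
        calc I ^ 2 = I * I := sq I
          _ ≤ (J ⊔ I ^ (j + 1)) * I := Ideal.mul_mono_left ih
          _ = J * I ⊔ I ^ (j + 1) * I := Ideal.sup_mul _ _ _
          _ ≤ J ⊔ I ^ (j + 1 + 1) := by
            apply sup_le_sup Ideal.mul_le_left
            rw [pow_succ (I) (j + 1)]
      calc I ≤ J ⊔ I ^ 2 := h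
        _ ≤ J ⊔ (J ⊔ I ^ (j + 1 + 1)) := sup_le_sup_left h2 J
        _ = J ⊔ I ^ (j + 1 + 1) := by rw [← sup_assoc, sup_idem]
  have := key k
  rwa [hk, sup_bot_eq] at this

section Generators

variable {𝒪 : Type*} [CommRing 𝒪]
variable {A : ℕ → Type*} [∀ n, CommRing (A n)] [∀ n, Algebra 𝒪 (A n)]
variable [∀ n, IsLocalRing (A n)]
variable {π : ∀ n, A (n + 1) →ₐ[𝒪] A n}

theorem TowerHyp.exists_generators (H : TowerHyp π) :
    ∃ (e : ℕ) (t : Fin e → towerLim A π),
      ∀ n, Ideal.span (Set.range fun i => towerProj A π n (t i)) = maximalIdeal (A n) := by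
  obtain ⟨e, s, hs⟩ := Submodule.fg_iff_exists_fin_generating_family.mp H.fg
  choose t ht using fun i => towerProj_surjective π H.surj 1 (s i)
  refine ⟨e, t, fun n => ?_⟩
  have hs1 : ∀ i, s i ∈ maximalIdeal (A 1) := fun i => by
    rw [← hs]; exact Submodule.subset_span ⟨i, rfl⟩
  have ht0 : ∀ i, towerProj A π 0 (t i) = 0 := by
    intro i
    rw [← towerProj_succ 0 (t i), ht i]
    have : s i ∈ RingHom.ker (π 0 : A 1 →+* A 0) := by
      rw [H.ker_eq 0]; simpa using hs1 i
    exact this
  have hle : Ideal.span (Set.range fun i => towerProj A π n (t i)) ≤ maximalIdeal (A n) := by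
    rw [Ideal.span_le]
    rintro _ ⟨i, rfl⟩
    exact (H.proj_mem_maximalIdeal_iff (t i) n).mpr (ht0 i)
  refine le_antisymm hle ?_
  rcases Nat.eq_zero_or_pos n with rfl | hn
  · rw [H.maximalIdeal_zero]; exact bot_le
  · have h1n : 1 ≤ n := hn
    set D : A n →+* A 1 := (towerDown π h1n : A n →+* A 1) with hD
    have hDs : Function.Surjective D := H.towerDown_surjective h1n
    have hmap : Ideal.map D (Ideal.span (Set.range fun i => towerProj A π n (t i))) =
        Ideal.map D (maximalIdeal (A n)) := by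
      rw [map_maximalIdeal_of_surjective D hDs, Ideal.map_span, ← hs]
      congr 1
      ext x
      constructor
      · rintro ⟨_, ⟨i, rfl⟩, rfl⟩
        exact ⟨i, by rw [← ht i]; exact (towerProj_towerDown π h1n (t i)).symm⟩
      · rintro ⟨i, rfl⟩
        exact ⟨_, ⟨i, rfl⟩, by rw [← ht i]; exact towerProj_towerDown π h1n (t i)⟩
    have h2 : maximalIdeal (A n) ≤
        Ideal.span (Set.range fun i => towerProj A π n (t i)) ⊔ maximalIdeal (A n) ^ 2 := by
      calc maximalIdeal (A n) ≤ Ideal.comap D (Ideal.map D (maximalIdeal (A n))) :=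
            Ideal.le_comap_map
        _ = Ideal.comap D (Ideal.map D
              (Ideal.span (Set.range fun i => towerProj A π n (t i)))) := by rw [hmap]
        _ = _ := by
          rw [Ideal.comap_map_of_surjective' D hDs, hD, H.ker_towerDown h1n]
    exact ideal_le_of_le_sup_sq h2 (H.pow_eq_bot n)

end Generators

end Fermat.Agent.S53
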